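import Mathlib.RingTheory.LaurentSeries
import Mathlib.RingTheory.Derivation.Basic

/-!
Elementary operations on Laurent series: the rotation `t ↦ w t` and the Euler operator `t d/dt`.
-/

set_option autoImplicit false

noncomputable section

open Finset (antidiagonal)

namespace FLTAgent.Genus

variable {C : Type*} [Field C]

theorem coeff_mul_of_support_subset {f g : LaurentSeries C} {s t : Set ℤ} (hs : s.IsPWO)
    (ht : t.IsPWO) (hf : f.support ⊆ s) (hg : g.support ⊆ t) (n : ℤ) :
    (f * g).coeff n = ∑ ij ∈ antidiagonal hs ht n, f.coeff ij.1 * g.coeff ij.2 := by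
  rw [HahnSeries.coeff_mul]
  refine Finset.sum_subset (fun ij h => ?_) (fun ij h hn => ?_)
  · simp only [Finset.mem_antidiagonal] at h ⊢
    exact ⟨hf h.1, hg h.2.1, h.2.2⟩
  · simp only [Finset.mem_antidiagonal, HahnSeries.mem_support] at h hn
    by_cases h1 : f.coeff ij.1 = 0
    · simp [h1]
    by_cases h2 : g.coeff ij.2 = 0
    · simp [h2]
    exact absurd ⟨h1, h2, h.2.2⟩ hn

/-- Multiply the coefficient of `t^n` by `c n`. -/
def coeffScale (c : ℤ → C) (f : LaurentSeries C) : LaurentSeries C :=
  ⟨fun n => c n * f.coeff n, f.isPWO_support.mono fun n hn h0 => hn (by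
    show c n * f.coeff n = 0
    rw [h0, mul_zero])⟩

@[simp]
theorem coeffScale_coeff (c : ℤ → C) (f : LaurentSeries C) (n : ℤ) :
    (coeffScale c f).coeff n = c n * f.coeff n := rfl

theorem support_coeffScale_subset (c : ℤ → C) (f : LaurentSeries C) :
    (coeffScale c f).support ⊆ f.support := fun n hn h0 => hn (by simp [h0])

theorem order_coeffScale (c : ℤ → C) (f : LaurentSeries C) (h : c f.order ≠ 0) :
    (coeffScale c f).order = f.order ∧
      (coeffScale c f).leadingCoeff = c f.order * f.leadingCoeff := by
  rcases eq_or_ne f 0 with rfl | hf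
  · have : coeffScale c (0 : LaurentSeries C) = 0 := by ext n; simp
    simp [this]
  have hne : (coeffScale c f).coeff f.order ≠ 0 :=
    mul_ne_zero h (HahnSeries.coeff_order_eq_zero.not.mpr hf)
  have hord : (coeffScale c f).order = f.order :=
    le_antisymm (HahnSeries.order_le_of_coeff_ne_zero hne)
      ((HahnSeries.le_order_iff_forall (HahnSeries.ne_zero_of_coeff_ne_zero hne)).mpr fun m hm => by
        rw [coeffScale_coeff, HahnSeries.coeff_eq_zero_of_lt_order hm, mul_zero])
  refine ⟨hord, ?_⟩
  rw [HahnSeries.leadingCoeff_eq, hord, coeffScale_coeff, HahnSeries.leadingCoeff_eq]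

/-- The rotation `t ↦ w t`. -/
def rot (w : Cˣ) : LaurentSeries C →+* LaurentSeries C where
  toFun := coeffScale fun n => ((w ^ n : Cˣ) : C)
  map_one' := by
    ext n
    rw [coeffScale_coeff, HahnSeries.coeff_one]
    split <;> simp_all
  map_mul' f g := by
    ext n
    rw [coeffScale_coeff,
      coeff_mul_of_support_subset f.isPWO_support g.isPWO_support
        (support_coeffScale_subset _ f) (support_coeffScale_subset _ g) n,
      HahnSeries.coeff_mul, Finset.mul_sum]
    refine Finset.sum_congr rfl fun ij h => ?_
    simp only [Finset.mem_antidiagonal] at h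
    rw [coeffScale_coeff, coeffScale_coeff, ← h.2.2, zpow_add, Units.val_mul]
    ring
  map_zero' := by ext n; simp
  map_add' f g := by ext n; simp [mul_add]

@[simp]
theorem rot_coeff (w : Cˣ) (f : LaurentSeries C) (n : ℤ) :
    (rot w f).coeff n = ((w ^ n : Cˣ) : C) * f.coeff n := rfl

theorem order_rot (w : Cˣ) (f : LaurentSeries C) : (rot w f).order = f.order :=
  (order_coeffScale _ f (Units.ne_zero _)).1

theorem leadingCoeff_rot (w : Cˣ) (f : LaurentSeries C) :
    (rot w f).leadingCoeff = ((w ^ f.order : Cˣ) : C) * f.leadingCoeff :=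
  (order_coeffScale _ f (Units.ne_zero _)).2

theorem rot_single_zero (w : Cˣ) (c : C) :
    rot w (HahnSeries.single 0 c) = HahnSeries.single 0 c := by
  ext n
  rw [rot_coeff, HahnSeries.coeff_single]
  split <;> simp_all

theorem rot_rot (w w' : Cˣ) (f : LaurentSeries C) : rot w (rot w' f) = rot (w * w') f := by
  ext n
  simp only [rot_coeff, mul_zpow, Units.val_mul]
  ring

theorem rot_one (f : LaurentSeries C) : rot (1 : Cˣ) f = f := by
  ext n
  simp

theorem rot_injective (w : Cˣ) : Function.Injective (rot w) := fun f g h => by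
  have := congrArg (rot w⁻¹) h
  simpa [rot_rot, rot_one] using this

/-- The Euler operator `t d/dt`. -/
def euler : LaurentSeries C →+ LaurentSeries C where
  toFun := coeffScale fun n => (n : C)
  map_zero' := by ext n; simp
  map_add' f g := by ext n; simp [mul_add]

@[simp]
theorem euler_coeff (f : LaurentSeries C) (n : ℤ) : (euler f).coeff n = n * f.coeff n := rfl

theorem euler_mul (f g : LaurentSeries C) : euler (f * g) = euler f * g + f * euler g := by
  ext n
  rw [euler_coeff, HahnSeries.coeff_add,
    coeff_mul_of_support_subset (f := euler f) (g := g) f.isPWO_support g.isPWO_support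
      (support_coeffScale_subset _ f) subset_rfl n,
    coeff_mul_of_support_subset (f := f) (g := euler g) f.isPWO_support g.isPWO_support subset_rfl
      (support_coeffScale_subset _ g) n,
    HahnSeries.coeff_mul, Finset.mul_sum, ← Finset.sum_add_distrib]
  refine Finset.sum_congr rfl fun ij h => ?_
  simp only [Finset.mem_antidiagonal] at h
  rw [euler_coeff, euler_coeff, ← h.2.2]
  push_cast
  ring

theorem euler_single_zero (c : C) : euler (HahnSeries.single (0 : ℤ) c) = 0 := by
  ext n
  rw [euler_coeff, HahnSeries.coeff_single]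
  split <;> simp_all

theorem order_euler [CharZero C] (f : LaurentSeries C) (h : f.order ≠ 0) :
    (euler f).order = f.order ∧ euler f ≠ 0 := by
  have h' : ((f.order : ℤ) : C) ≠ 0 := Int.cast_ne_zero.mpr h
  refine ⟨(order_coeffScale _ f h').1, fun h0 => ?_⟩
  have hf : f ≠ 0 := fun hf => h (by simp [hf])
  have := congrArg (fun x : LaurentSeries C => x.coeff f.order) h0
  simp only [euler_coeff, HahnSeries.coeff_zero] at this
  exact mul_ne_zero h' (HahnSeries.coeff_order_eq_zero.not.mpr hf) this

theorem order_inv' (f : LaurentSeries C) : f⁻¹.order = -f.order := by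
  rcases eq_or_ne f 0 with rfl | hf
  · simp
  · have h := HahnSeries.order_mul hf (inv_ne_zero hf)
    rw [mul_inv_cancel₀ hf, HahnSeries.order_one] at h
    omega

theorem order_zpow' (f : LaurentSeries C) (n : ℤ) :
    (f ^ n).order = n * f.order := by
  cases n with
  | ofNat k => simp [HahnSeries.order_pow]
  | negSucc k =>
      rw [zpow_negSucc, order_inv', HahnSeries.order_pow, Int.negSucc_eq]
      simp only [nsmul_eq_mul]
      push_cast
      ring

theorem order_single_zero (c : C) : (HahnSeries.single (0 : ℤ) c).order = 0 := by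
  rcases eq_or_ne c 0 with rfl | hc
  · simp
  · exact HahnSeries.order_single hc

theorem leadingCoeff_pow' (f : LaurentSeries C) (n : ℕ) :
    (f ^ n).leadingCoeff = f.leadingCoeff ^ n := by
  induction n with
  | zero => simp
  | succ n ih => rw [pow_succ, pow_succ, HahnSeries.leadingCoeff_mul, ih]

end FLTAgent.Genus
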