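import Mathlib.NumberTheory.ModularForms.Derivative
import Mathlib.NumberTheory.ModularForms.LevelOne.DimensionFormula
import Fermat.Agent.ModPoly.J
import Fermat.Agent.Genus.LaurentOps

/-!
The derivative of `j`: `D j * Δ = - E₄² E₆`.
-/

set_option autoImplicit false

noncomputable section

open Complex Filter Derivative
open UpperHalfPlane hiding I
open scoped Real Topology Manifold MatrixGroups ModularForm

namespace FLTAgent.Genus

open FLTAgent.ModPoly

local notation "𝕢" => Function.Periodic.qParam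

theorem taylorPS_deriv_coeff (F : ℂ → ℂ) (n : ℕ) :
    (taylorPS (deriv F)).coeff n = (n + 1) * (taylorPS F).coeff (n + 1) := by
  rw [coeff_taylorPS, coeff_taylorPS, iteratedDeriv_succ', Nat.factorial_succ]
  push_cast
  field_simp

theorem euler_ofPowerSeries_taylorPS (F : ℂ → ℂ) :
    euler (HahnSeries.ofPowerSeries ℤ ℂ (taylorPS F)) =
      HahnSeries.single (1 : ℤ) 1 * HahnSeries.ofPowerSeries ℤ ℂ (taylorPS (deriv F)) := by
  ext i
  rw [euler_coeff, HahnSeries.coeff_single_mul, one_mul]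
  rcases lt_trichotomy i 0 with hi | rfl | hi
  · rw [ModularCurve.ofPowerSeries_coeff_of_neg _ hi,
      ModularCurve.ofPowerSeries_coeff_of_neg _ (by omega), mul_zero]
  · rw [ModularCurve.ofPowerSeries_coeff_of_neg _ (k := (0 : ℤ) - 1) (by omega)]
    simp
  · obtain ⟨n, rfl⟩ : ∃ n : ℕ, i = (n + 1 : ℕ) := ⟨(i - 1).toNat, by omega⟩
    rw [HahnSeries.ofPowerSeries_apply_coeff,
      show ((n + 1 : ℕ) : ℤ) - 1 = (n : ℕ) by push_cast; ring,
      HahnSeries.ofPowerSeries_apply_coeff, taylorPS_deriv_coeff]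
    push_cast
    ring

theorem euler_single_one (m : ℤ) :
    euler (HahnSeries.single m (1 : ℂ)) = (m : ℂ) • HahnSeries.single m (1 : ℂ) := by
  ext i
  rw [euler_coeff, HahnSeries.coeff_smul, HahnSeries.coeff_single]
  split <;> simp_all

/-- The normalised derivative acts on expansions in `exp (2πiτ)` as the Euler operator. -/
theorem expands_normalizedDeriv {f : ℍ → ℂ} {x : LaurentSeries ℂ} (hf : Expands 1 f x) :
    Expands 1 (D f) (euler x) := by
  obtain ⟨m, F, hF, rfl, hev⟩ := hf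
  refine ⟨m, (fun _ => (m : ℂ)) * F + (fun q => q) * deriv F, ?_, ?_, ?_⟩
  · exact (analyticAt_const.mul hF).add (analyticAt_id.mul hF.deriv)
  · rw [euler_mul, euler_ofPowerSeries_taylorPS, euler_single_one,
      taylorPS_add (analyticAt_const.mul hF) ((by fun_prop : AnalyticAt ℂ (fun q : ℂ => q) 0).mul hF.deriv),
      taylorPS_mul analyticAt_const hF, taylorPS_mul (by fun_prop) hF.deriv, taylorPS_const,
      taylorPS_id, map_add, map_mul, map_mul, HahnSeries.ofPowerSeries_C, HahnSeries.ofPowerSeries_X,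
      mul_add, ← HahnSeries.C_mul_eq_smul]
    ring
  · obtain ⟨A, hA⟩ := (atImInfty_mem _).mp hev
    obtain ⟨B, hB⟩ := (atImInfty_mem _).mp
      (eventually_atImInfty_of_nhds one_ne_zero hF.eventually_analyticAt)
    refine (atImInfty_mem _).mpr ⟨max A B + 1, fun τ hτ => ?_⟩
    have hA' : A < τ.im := lt_of_lt_of_le (by linarith [le_max_left A B]) hτ
    have hq : HasDerivAt (𝕢 ((1 : ℕ) : ℝ)) (2 * π * I * 𝕢 ((1 : ℕ) : ℝ) τ) (τ : ℂ) := by
      have h := ((hasDerivAt_id (τ : ℂ)).const_mul (2 * (π : ℂ) * I)).cexp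
      simp only [id_eq, mul_one] at h
      refine (h.congr_of_eventuallyEq (Eventually.of_forall fun z => ?_)).congr_deriv ?_
      · simp [Function.Periodic.qParam]
      · simp [Function.Periodic.qParam, mul_comm]
    have hFd := (hB τ (by linarith [le_max_right A B, hτ] : B ≤ τ.im)).differentiableAt.hasDerivAt
    have hcomp := ((hasDerivAt_zpow m _ (Or.inl (Function.Periodic.qParam_ne_zero _))).comp (τ : ℂ) hq).mul (hFd.comp (τ : ℂ) hq)
    have heq : (f ∘ ofComplex) =ᶠ[𝓝 (τ : ℂ)]
        fun z => 𝕢 ((1 : ℕ) : ℝ) z ^ m * F (𝕢 ((1 : ℕ) : ℝ) z) := by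
      filter_upwards [isOpen_upperHalfPlaneSet.mem_nhds τ.im_pos,
        (Complex.continuous_im.isOpen_preimage _ isOpen_Ioi).mem_nhds
          (show (τ : ℂ) ∈ Complex.im ⁻¹' Set.Ioi A from hA')] with z hz hzA
      have := hA ⟨z, hz⟩ (le_of_lt hzA)
      simpa [ofComplex_apply_of_im_pos hz] using this
    show normalizedDerivOfComplex f τ = _
    rw [normalizedDerivOfComplex, heq.deriv_eq]
    erw [hcomp.deriv]
    simp only [Pi.add_apply, Pi.mul_apply, Function.comp_apply]
    have hπ : (2 * (π : ℂ) * I) ≠ 0 := by simp [Real.pi_ne_zero]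
    have hq0 : 𝕢 ((1 : ℕ) : ℝ) (τ : ℂ) ≠ 0 := Function.Periodic.qParam_ne_zero _
    rw [zpow_sub_one₀ hq0]
    field_simp

/-- A function with an expansion without negative terms tends to its constant term. -/
theorem tendsto_of_expands {f : ℍ → ℂ} {x : LaurentSeries ℂ} (hf : Expands 1 f x)
    (hx : ∀ i : ℤ, i < 0 → x.coeff i = 0) :
    Tendsto f atImInfty (𝓝 (x.coeff 0)) := by
  obtain ⟨m₀, hshift⟩ := hf.shift
  obtain ⟨F, hF, rfl, hev⟩ := hshift (min m₀ 0) (min_le_left _ _)
  obtain ⟨k, hk⟩ : ∃ k : ℕ, min m₀ 0 = -(k : ℤ) := ⟨(-min m₀ 0).toNat, by omega⟩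
  rw [hk] at hev hx ⊢
  have hcoeff : ∀ i < k, iteratedDeriv i F 0 = 0 := by
    intro i hi
    have h := hx ((i : ℤ) - k) (by omega)
    rw [HahnSeries.coeff_single_mul, one_mul, show (i : ℤ) - k - -(k : ℤ) = (i : ℕ) by ring,
      HahnSeries.ofPowerSeries_apply_coeff, coeff_taylorPS] at h
    exact (mul_eq_zero.mp h).resolve_left (inv_ne_zero (Nat.cast_ne_zero.mpr i.factorial_ne_zero))
  obtain ⟨G, hG, hFG⟩ := (natCast_le_analyticOrderAt hF).mp
    ((natCast_le_analyticOrderAt_iff_iteratedDeriv_eq_zero hF).mpr hcoeff)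
  have hval : (HahnSeries.single (-(k : ℤ)) (1 : ℂ) *
      HahnSeries.ofPowerSeries ℤ ℂ (taylorPS F)).coeff 0 = G 0 := by
    rw [HahnSeries.coeff_single_mul, one_mul, show (0 : ℤ) - -(k : ℤ) = (k : ℕ) by ring,
      HahnSeries.ofPowerSeries_apply_coeff,
      taylorPS_congr (G := (fun q => q ^ k) * G) (by filter_upwards [hFG] with q hq; simpa using hq),
      taylorPS_mul (by fun_prop) hG, taylorPS_pow_id, PowerSeries.coeff_X_pow_mul']
    simp [coeff_taylorPS]
  rw [hval]
  have hq0 : Tendsto (fun τ : ℍ => 𝕢 ((1 : ℕ) : ℝ) τ) atImInfty (𝓝 0) :=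
    qParam_tendsto_atImInfty (by norm_num)
  refine (Tendsto.congr' ?_ (hG.continuousAt.tendsto.comp hq0))
  filter_upwards [hev, eventually_atImInfty_of_nhds one_ne_zero hFG] with τ h1 h2
  rw [Function.comp_apply, h1, h2, sub_zero, smul_eq_mul, zpow_neg, zpow_natCast, ← mul_assoc,
    inv_mul_cancel₀ (pow_ne_zero _ (Function.Periodic.qParam_ne_zero _)), one_mul]

/-- `D j * Δ + E₄² E₆` is a cusp form of weight `14`, hence zero. -/
theorem normalizedDeriv_jFun (τ : ℍ) :
    D jFun τ * ModularForm.discriminant τ = -(ModularForm.E₄ τ ^ 2 * ModularForm.E₆ τ) := by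
  have hmem : ∀ g : SL(2, ℤ), (g : GL (Fin 2) ℝ) ∈ 𝒮ℒ := fun g => ⟨g, rfl⟩
  set H : ℍ → ℂ := D jFun * CuspForm.discriminant +
    (ModularForm.E₄ : ℍ → ℂ) * (ModularForm.E₄ : ℍ → ℂ) * (ModularForm.E₆ : ℍ → ℂ) with hH
  have hDmdiff : MDiff (D jFun) := normalizedDerivOfComplex_mdifferentiable mdifferentiable_jFun
  have hinv : ∀ g : SL(2, ℤ), H ∣[(14 : ℤ)] g = H := by
    intro g
    have hj : jFun ∣[(0 : ℤ)] g = jFun := by
      funext z
      rw [ModularForm.SL_slash_apply, jFun_smul]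
      simp
    have hD : D jFun ∣[(2 : ℤ)] g = D jFun := by
      have h := normalizedDerivOfComplex_SL_slash (k := 0) mdifferentiable_jFun (γ := g)
      rw [hj] at h
      simpa [← Pi.zero_def] using h.symm
    have h12 : (CuspForm.discriminant : ℍ → ℂ) ∣[(12 : ℤ)] g = CuspForm.discriminant :=
      SlashInvariantFormClass.slash_action_eq CuspForm.discriminant _ (hmem g)
    have h4 : (ModularForm.E₄ : ℍ → ℂ) ∣[(4 : ℤ)] g = ModularForm.E₄ :=
      SlashInvariantFormClass.slash_action_eq ModularForm.E₄ _ (hmem g)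
    have h6 : (ModularForm.E₆ : ℍ → ℂ) ∣[(6 : ℤ)] g = ModularForm.E₆ :=
      SlashInvariantFormClass.slash_action_eq ModularForm.E₆ _ (hmem g)
    rw [hH, SlashAction.add_slash, show (14 : ℤ) = 2 + 12 by norm_num, ModularForm.mul_slash_SL2,
      hD, h12, show (2 + 12 : ℤ) = (4 + 4) + 6 by norm_num, ModularForm.mul_slash_SL2,
      ModularForm.mul_slash_SL2, h4, h6]
  have hE6exp : Expands 1 (ModularForm.E₆ : ℍ → ℂ)
      (HahnSeries.ofPowerSeries ℤ ℂ (qExpansion 1 (ModularForm.E₆ : ℍ → ℂ))) := by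
    have := expands_qExpansion (h := 1) (f := (ModularForm.E₆ : ℍ → ℂ))
      (by
        simpa using SlashInvariantFormClass.periodic_comp_ofComplex ModularForm.E₆
          one_mem_strictPeriods_SL)
      (ModularFormClass.holo _) (by
        haveI : Fact (IsCusp OnePoint.infty (𝒮ℒ : Subgroup (GL (Fin 2) ℝ))) :=
          ⟨Subgroup.isCusp_of_mem_strictPeriods one_pos one_mem_strictPeriods_SL⟩
        exact ModularFormClass.bdd_at_infty _)
    rwa [Nat.cast_one] at this
  set y : LaurentSeries ℂ := euler (ModularCurve.jqModC ℂ) *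
      (HahnSeries.single 1 1 * HahnSeries.ofPowerSeries ℤ ℂ
        (ModularCurve.dedekindEtaUnit.map (Int.castRingHom ℂ))) +
      HahnSeries.ofPowerSeries ℤ ℂ (ModularCurve.eisenstein4.map (Int.castRingHom ℂ)) *
      HahnSeries.ofPowerSeries ℤ ℂ (ModularCurve.eisenstein4.map (Int.castRingHom ℂ)) *
      HahnSeries.ofPowerSeries ℤ ℂ (qExpansion 1 (ModularForm.E₆ : ℍ → ℂ)) with hy
  have hexp : Expands 1 H y :=
    ((expands_normalizedDeriv expands_jFun).mul (by
      simpa [CuspForm.coe_discriminant] using expands_discriminant)).add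
      ((expands_E₄.mul expands_E₄).mul hE6exp)
  have hj0 : ∀ i : ℤ, i < -1 → (ModularCurve.jqModC ℂ).coeff i = 0 := fun i hi => by
    rw [ModularCurve.jqModC, HahnSeries.coeff_single_mul, one_mul]
    exact ModularCurve.ofPowerSeries_coeff_of_neg _ (by omega)
  obtain ⟨P, hP⟩ : ∃ P : PowerSeries ℂ, euler (ModularCurve.jqModC ℂ) * HahnSeries.single (1 : ℤ) 1 =
      HahnSeries.ofPowerSeries ℤ ℂ P := by
    refine ⟨PowerSeries.mk fun n => (euler (ModularCurve.jqModC ℂ)).coeff ((n : ℤ) - 1), ?_⟩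
    ext i
    rw [HahnSeries.coeff_mul_single, mul_one]
    rcases le_or_gt 0 i with hi | hi
    · obtain ⟨n, rfl⟩ := Int.eq_ofNat_of_zero_le hi
      rw [HahnSeries.ofPowerSeries_apply_coeff, PowerSeries.coeff_mk]
    · rw [ModularCurve.ofPowerSeries_coeff_of_neg _ hi, euler_coeff, hj0 _ (by omega), mul_zero]
  have hP0 : PowerSeries.constantCoeff P = -1 := by
    have h := congrArg (fun z : LaurentSeries ℂ => z.coeff ((0 : ℕ) : ℤ)) hP
    simp only [HahnSeries.ofPowerSeries_apply_coeff, HahnSeries.coeff_mul_single, mul_one] at h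
    rw [← PowerSeries.coeff_zero_eq_constantCoeff, ← h]
    simp [ModularCurve.jqModC, HahnSeries.coeff_single_mul]
    rw [show (0 : ℤ) = ((0 : ℕ) : ℤ) from rfl, HahnSeries.ofPowerSeries_apply_coeff,
      PowerSeries.coeff_map, PowerSeries.coeff_zero_eq_constantCoeff,
      ModularCurve.constantCoeff_jNum, map_one]
  have hyQ : y = HahnSeries.ofPowerSeries ℤ ℂ
      (P * ModularCurve.dedekindEtaUnit.map (Int.castRingHom ℂ) +
        ModularCurve.eisenstein4.map (Int.castRingHom ℂ) *
          ModularCurve.eisenstein4.map (Int.castRingHom ℂ) *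
          qExpansion 1 (ModularForm.E₆ : ℍ → ℂ)) := by
    simp only [hy, map_add, map_mul, ← hP]
    ring
  have hy0 : y.coeff 0 = 0 := by
    rw [hyQ, show (0 : ℤ) = ((0 : ℕ) : ℤ) from rfl, HahnSeries.ofPowerSeries_apply_coeff,
      PowerSeries.coeff_zero_eq_constantCoeff, map_add, map_mul, map_mul, map_mul, hP0,
      ← PowerSeries.coeff_zero_eq_constantCoeff, PowerSeries.coeff_map, PowerSeries.coeff_map,
      EisensteinSeries.E_qExpansion_coeff_zero _ ⟨3, rfl⟩]
    simp [ModularCurve.constantCoeff_dedekindEtaUnit, ModularCurve.constantCoeff_eisenstein4,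
      PowerSeries.coeff_zero_eq_constantCoeff]
  have hzero : IsZeroAtImInfty H := by
    have := tendsto_of_expands hexp fun i hi => by
      rw [hyQ]; exact ModularCurve.ofPowerSeries_coeff_of_neg _ hi
    rwa [hy0] at this
  let f : CuspForm 𝒮ℒ 14 :=
    { toFun := H
      slash_action_eq' := fun _ ⟨g, hg⟩ => hg ▸ hinv g
      holo' := (hDmdiff.mul CuspForm.discriminant.holo').add
        (((ModularFormClass.holo ModularForm.E₄).mul (ModularFormClass.holo ModularForm.E₄)).mul
          (ModularFormClass.holo ModularForm.E₆))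
      zero_at_cusps' := fun {c} hc => by
        rw [Subgroup.IsArithmetic.isCusp_iff_isCusp_SL2Z] at hc
        rw [OnePoint.isZeroAt_iff_forall_SL2Z hc]
        intro g _
        show IsZeroAtImInfty (H ∣[(14 : ℤ)] g)
        rw [hinv g]
        exact hzero }
  have hf0 : CuspForm.discriminantEquiv f = 0 := by
    have h2 : Subsingleton (ModularForm 𝒮ℒ ((14 : ℤ) - 12)) := by
      rw [show (14 : ℤ) - 12 = 2 by norm_num]
      exact rank_zero_iff.mp ModularForm.levelOne_weight_two_rank_zero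
    exact Subsingleton.elim _ _
  have hf := congrArg (fun g : CuspForm 𝒮ℒ 14 => g τ)
    (CuspForm.discriminantEquiv.injective (hf0.trans (map_zero _).symm))
  have h0 : H τ = 0 := hf
  simp only [hH, Pi.add_apply, Pi.mul_apply, CuspForm.coe_discriminant] at h0
  linear_combination h0

end FLTAgent.Genus
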