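import Fermat.Agent.Genus.DiskExpand
import Fermat.Agent.Genus.JDeriv

/-!
The multiplicity of `j - a` at a point of `ℍ`.
-/

set_option autoImplicit false

noncomputable section

open Complex Filter Derivative
open UpperHalfPlane hiding I
open scoped Real Topology Manifold MatrixGroups ModularForm ComplexConjugate

namespace FLTAgent.Genus

open FLTAgent.ModPoly

theorem order_ofPowerSeries_nonneg (P : PowerSeries ℂ) :
    0 ≤ (HahnSeries.ofPowerSeries ℤ ℂ P).order := by
  by_contra h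
  push Not at h
  rcases eq_or_ne (HahnSeries.ofPowerSeries ℤ ℂ P) 0 with h0 | h0
  · simp [h0] at h
  · exact HahnSeries.coeff_order_eq_zero.not.mpr h0 (ModularCurve.ofPowerSeries_coeff_of_neg P h)

theorem coeff_diskSeries_zero (z₀ : ℍ) (g : ℍ → ℂ) : (diskSeries z₀ g).coeff 0 = g z₀ := by
  rw [diskSeries, show (0 : ℤ) = ((0 : ℕ) : ℤ) from rfl, HahnSeries.ofPowerSeries_apply_coeff,
    coeff_taylorPS]
  simp [diskPull_zero]

theorem order_diskSeries_nonneg (z₀ : ℍ) (g : ℍ → ℂ) : 0 ≤ (diskSeries z₀ g).order :=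
  order_ofPowerSeries_nonneg _

theorem order_diskSeries_eq_zero (z₀ : ℍ) {g : ℍ → ℂ} (h : g z₀ ≠ 0) :
    (diskSeries z₀ g).order = 0 ∧ diskSeries z₀ g ≠ 0 := by
  rw [← coeff_diskSeries_zero z₀ g] at h
  exact ⟨le_antisymm (HahnSeries.order_le_of_coeff_ne_zero h) (order_diskSeries_nonneg z₀ g),
    HahnSeries.ne_zero_of_coeff_ne_zero h⟩

theorem one_le_order_diskSeries (z₀ : ℍ) {g : ℍ → ℂ} (h : g z₀ = 0)
    (h0 : diskSeries z₀ g ≠ 0) : 1 ≤ (diskSeries z₀ g).order := by
  rcases lt_or_eq_of_le (order_diskSeries_nonneg z₀ g) with hlt | heq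
  · omega
  · refine absurd ?_ (HahnSeries.coeff_order_eq_zero.not.mpr h0)
    rw [← heq, coeff_diskSeries_zero, h]

theorem mdiff_jFun_sub (a : ℂ) : MDiff (fun z => jFun z - a) :=
  mdifferentiable_jFun.sub mdifferentiable_const

theorem mdiff_E₄ : MDiff (ModularForm.E₄ : ℍ → ℂ) := ModularFormClass.holo _

theorem mdiff_E₆ : MDiff (ModularForm.E₆ : ℍ → ℂ) := ModularFormClass.holo _

theorem mdiff_discriminant : MDiff (ModularForm.discriminant : ℍ → ℂ) :=
  CuspForm.coe_discriminant ▸ CuspForm.discriminant.holo'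

/-- The derivative identity in the disc coordinate. -/
theorem euler_diskSeries_jFun (z₀ : ℍ) (a : ℂ) :
    ∃ W : LaurentSeries ℂ, W ≠ 0 ∧ W.order = 1 ∧
      euler (diskSeries z₀ fun z => jFun z - a) * diskSeries z₀ ModularForm.discriminant =
        W * (diskSeries z₀ ModularForm.E₄ ^ 2 * diskSeries z₀ ModularForm.E₆) := by
  set c : ℂ := -(2 * π * I)
  set G : ℂ → ℂ := fun t => c * deriv (diskPoint z₀) t with hG
  have hpt : AnalyticAt ℂ (diskPoint z₀) 0 :=
    (differentiableOn_diskPoint z₀).analyticAt (Metric.ball_mem_nhds 0 one_pos)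
  have hGan : AnalyticAt ℂ G 0 := analyticAt_const.mul hpt.deriv
  have hG0 : G 0 ≠ 0 := by
    rw [hG]
    simp only [(hasDerivAt_diskPoint_zero z₀).deriv]
    refine mul_ne_zero (by simp [c, Real.pi_ne_zero]) fun h => ?_
    have := congrArg Complex.im h
    simp only [sub_im, conj_im, coe_im, zero_im] at this
    linarith [z₀.im_pos]
  have hcoeff : (HahnSeries.ofPowerSeries ℤ ℂ (taylorPS G)).coeff 0 ≠ 0 := by
    rw [show (0 : ℤ) = ((0 : ℕ) : ℤ) from rfl, HahnSeries.ofPowerSeries_apply_coeff,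
      coeff_taylorPS]
    simpa using hG0
  refine ⟨HahnSeries.single 1 1 * HahnSeries.ofPowerSeries ℤ ℂ (taylorPS G),
    mul_ne_zero (HahnSeries.single_ne_zero one_ne_zero)
      (HahnSeries.ne_zero_of_coeff_ne_zero hcoeff), ?_, ?_⟩
  · rw [HahnSeries.order_mul (HahnSeries.single_ne_zero one_ne_zero)
      (HahnSeries.ne_zero_of_coeff_ne_zero hcoeff), HahnSeries.order_single one_ne_zero,
      le_antisymm (HahnSeries.order_le_of_coeff_ne_zero hcoeff) (order_ofPowerSeries_nonneg _),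
      add_zero]
  set F := diskPull z₀ fun z => jFun z - a
  have hFd : AnalyticAt ℂ (deriv F) 0 := (analyticAt_diskPull z₀ (mdiff_jFun_sub a)).deriv
  have hΔ := analyticAt_diskPull z₀ mdiff_discriminant
  have h4 := analyticAt_diskPull z₀ mdiff_E₄
  have h6 := analyticAt_diskPull z₀ mdiff_E₆
  have hev : deriv F * diskPull z₀ ModularForm.discriminant =ᶠ[𝓝 0]
      G * (diskPull z₀ ModularForm.E₄ ^ 2 * diskPull z₀ ModularForm.E₆) := by
    filter_upwards [Metric.ball_mem_nhds (0 : ℂ) one_pos] with t ht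
    set τ : ℍ := ⟨diskPoint z₀ t, diskPoint_im_pos z₀ ht⟩ with hτ
    have hof : ofComplex (diskPoint z₀ t) = τ := ofComplex_apply τ
    have hd1 : HasDerivAt (diskPoint z₀) (deriv (diskPoint z₀) t) t :=
      ((differentiableOn_diskPoint z₀).differentiableAt
        (Metric.isOpen_ball.mem_nhds ht)).hasDerivAt
    have hd2 : HasDerivAt ((fun z => jFun z - a) ∘ ofComplex)
        (2 * π * I * normalizedDerivOfComplex jFun τ) (diskPoint z₀ t) := by
      have h := (mdifferentiableAt_iff.mp (mdifferentiable_jFun τ)).hasDerivAt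
      refine (h.sub_const a).congr_deriv ?_
      rw [normalizedDerivOfComplex]
      field_simp [Real.pi_ne_zero, Complex.I_ne_zero]
    have hF : deriv F t = 2 * π * I * normalizedDerivOfComplex jFun τ * deriv (diskPoint z₀) t :=
      (hd2.comp t hd1).deriv
    simp only [Pi.mul_apply, Pi.pow_apply, diskPull, Function.comp_apply, hof, hG, hF]
    linear_combination (2 * π * I * deriv (diskPoint z₀) t) * normalizedDeriv_jFun τ
  have h := congrArg (fun P => HahnSeries.single (1 : ℤ) (1 : ℂ) * HahnSeries.ofPowerSeries ℤ ℂ P)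
    (taylorPS_congr hev)
  simp only [taylorPS_mul hFd hΔ, taylorPS_mul hGan ((h4.pow 2).mul h6),
    taylorPS_mul (h4.pow 2) h6, taylorPS_pow h4, map_mul, map_pow] at h
  simp only [diskSeries, euler_ofPowerSeries_taylorPS]
  rw [mul_assoc, mul_assoc]
  exact h

theorem diskSeries_E₄_cube (z₀ : ℍ) :
    diskSeries z₀ ModularForm.E₄ ^ 3 =
      diskSeries z₀ (fun z => jFun z - 0) * diskSeries z₀ ModularForm.discriminant := by
  rw [← diskSeries_mul z₀ (mdiff_jFun_sub 0) mdiff_discriminant, pow_three,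
    ← diskSeries_mul z₀ mdiff_E₄ mdiff_E₄, ← diskSeries_mul z₀ mdiff_E₄ (mdiff_E₄.mul mdiff_E₄)]
  congr 1
  funext z
  simp [jFun, ModularForm.discriminant_ne_zero z]
  ring

theorem diskSeries_E₆_sq (z₀ : ℍ) :
    diskSeries z₀ ModularForm.E₆ ^ 2 =
      diskSeries z₀ (fun z => jFun z - 1728) * diskSeries z₀ ModularForm.discriminant := by
  rw [← diskSeries_mul z₀ (mdiff_jFun_sub 1728) mdiff_discriminant, sq,
    ← diskSeries_mul z₀ mdiff_E₆ mdiff_E₆]
  congr 1
  funext z
  simp only [Pi.mul_apply, jFun]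
  rw [sub_mul, div_mul_cancel₀ _ (ModularForm.discriminant_ne_zero z),
    ModularForm.discriminant_eq_E₄_cube_sub_E₆_sq]
  ring

theorem E₆_sq_eq (z : ℍ) :
    ModularForm.E₆ z ^ 2 = (jFun z - 1728) * ModularForm.discriminant z := by
  rw [jFun, sub_mul, div_mul_cancel₀ _ (ModularForm.discriminant_ne_zero z),
    ModularForm.discriminant_eq_E₄_cube_sub_E₆_sq]
  ring

/-- The multiplicity with which `j` takes the value `a`. -/
def jMult (a : ℂ) : ℕ := if a = 0 then 3 else if a = 1728 then 2 else 1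

theorem jMult_pos (a : ℂ) : 0 < jMult a := by
  unfold jMult
  split_ifs <;> norm_num

theorem order_diskSeries_jFun_sub (z₀ : ℍ) :
    (diskSeries z₀ fun z => jFun z - jFun z₀).order = jMult (jFun z₀) := by
  set S := diskSeries z₀ fun z => jFun z - jFun z₀ with hS
  set B4 := diskSeries z₀ ModularForm.E₄ with hB4
  set B6 := diskSeries z₀ ModularForm.E₆ with hB6
  set d := diskSeries z₀ ModularForm.discriminant with hd
  obtain ⟨W, hW0, hW, key⟩ := euler_diskSeries_jFun z₀ (jFun z₀)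
  rw [← hS, ← hB4, ← hB6, ← hd] at key
  have hdd := order_diskSeries_eq_zero z₀ (ModularForm.discriminant_ne_zero z₀)
  have h4ne : B4 ≠ 0 := fun h => by
    have h0 := congrArg (fun f : ℍ → ℂ => (qExpansion 1 f).coeff 0)
      (eq_zero_of_diskSeries_eq_zero z₀ mdiff_E₄ h)
    rw [EisensteinSeries.E_qExpansion_coeff_zero _ ⟨2, rfl⟩, qExpansion_zero] at h0
    simp at h0
  have h6ne : B6 ≠ 0 := fun h => by
    have h0 := congrArg (fun f : ℍ → ℂ => (qExpansion 1 f).coeff 0)
      (eq_zero_of_diskSeries_eq_zero z₀ mdiff_E₆ h)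
    rw [EisensteinSeries.E_qExpansion_coeff_zero _ ⟨3, rfl⟩, qExpansion_zero] at h0
    simp at h0
  have hrhs : W * (B4 ^ 2 * B6) ≠ 0 := mul_ne_zero hW0 (mul_ne_zero (pow_ne_zero _ h4ne) h6ne)
  have hS0 : S ≠ 0 := fun h => hrhs (by rw [← key, h, map_zero, zero_mul])
  have hS1 : 1 ≤ S.order := one_le_order_diskSeries z₀ (sub_self _) hS0
  obtain ⟨heS, heS0⟩ := order_euler S (by omega)
  have hm : S.order = 1 + (2 * B4.order + B6.order) := by
    have h := congrArg HahnSeries.order key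
    rw [HahnSeries.order_mul heS0 (hd ▸ hdd.2), heS, hd, hdd.1,
      HahnSeries.order_mul hW0 (mul_ne_zero (pow_ne_zero _ h4ne) h6ne), hW,
      HahnSeries.order_mul (pow_ne_zero _ h4ne) h6ne, HahnSeries.order_pow, add_zero] at h
    simpa [nsmul_eq_mul] using h
  have hE6 : jFun z₀ ≠ 1728 → B6.order = 0 := fun hne => by
    refine (order_diskSeries_eq_zero z₀ fun h0 => hne ?_).1
    have h := E₆_sq_eq z₀
    rw [h0] at h
    simpa [ModularForm.discriminant_ne_zero z₀, sub_eq_zero] using h.symm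
  have hE4 : jFun z₀ ≠ 0 → B4.order = 0 := fun hne => by
    refine (order_diskSeries_eq_zero z₀ fun h0 => hne ?_).1
    simp [jFun, h0]
  unfold jMult
  split_ifs with h0 h1
  · have h3 := congrArg HahnSeries.order (diskSeries_E₄_cube z₀)
    rw [← hB4, ← h0, ← hS, ← hd, HahnSeries.order_mul hS0 (hd ▸ hdd.2), HahnSeries.order_pow, hd,
      hdd.1, nsmul_eq_mul] at h3
    have := hE6 (by rw [h0]; norm_num)
    push_cast at h3 ⊢
    omega
  · have h2 := congrArg HahnSeries.order (diskSeries_E₆_sq z₀)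
    rw [← hB6, ← h1, ← hS, ← hd, HahnSeries.order_mul hS0 (hd ▸ hdd.2), HahnSeries.order_pow, hd,
      hdd.1, nsmul_eq_mul] at h2
    have := hE4 h0
    push_cast at h2 ⊢
    omega
  · have := hE4 h0
    have := hE6 h1
    push_cast
    omega

end FLTAgent.Genus
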