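import Fermat.Agent.ModPoly.Hermite
import Fermat.Agent.Genus.DiskOrder

/-!
Modular functions of level `N` moved by the cosets `SL(2, ℤ) ⧸ Γ₀(N)`.
-/

set_option autoImplicit false

noncomputable section

open Complex Filter CongruenceSubgroup
open UpperHalfPlane hiding I
open scoped Manifold MatrixGroups Topology

namespace FLTAgent.Genus

open FLTAgent.ModPoly

/-- The cosets of `Γ₀(N)`. -/
abbrev Cosets (N : ℕ) : Type := SL(2, ℤ) ⧸ CongruenceSubgroup.Gamma0 N

variable {N : ℕ}

theorem comp_inv_smul_eq_of_mk_eq {g : ℍ → ℂ} (hg : g ∈ modFunRing N) {a b : SL(2, ℤ)}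
    (h : (QuotientGroup.mk a : Cosets N) = QuotientGroup.mk b) (τ : ℍ) :
    g (a⁻¹ • τ) = g (b⁻¹ • τ) := by
  have hmem : a⁻¹ * b ∈ Gamma0 N := QuotientGroup.eq.mp h
  have := smul_eq_of_mem hg hmem (b⁻¹ • τ)
  rwa [← mul_smul, mul_assoc, mul_inv_cancel, mul_one] at this

/-- `g ∘ q⁻¹` for a coset `q`. -/
def cosetFun (q : Cosets N) (g : ℍ → ℂ) : ℍ → ℂ := fun τ => g (q.out⁻¹ • τ)

theorem cosetFun_mk {g : ℍ → ℂ} (hg : g ∈ modFunRing N) (a : SL(2, ℤ)) :
    cosetFun (QuotientGroup.mk a : Cosets N) g = fun τ => g (a⁻¹ • τ) :=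
  funext fun τ => comp_inv_smul_eq_of_mk_eq hg (QuotientGroup.out_eq' _) τ

theorem cosetFun_inv_smul {g : ℍ → ℂ} (hg : g ∈ modFunRing N) (γ : SL(2, ℤ)) (q : Cosets N) :
    cosetFun (γ⁻¹ • q) g = fun τ => cosetFun q g (γ • τ) := by
  induction q using QuotientGroup.induction_on with | _ a => ?_
  rw [MulAction.Quotient.smul_mk, cosetFun_mk hg]
  funext τ
  rw [cosetFun_mk hg]
  simp [mul_smul]

theorem mdiff_cosetFun {g : ℍ → ℂ} (hg : g ∈ modFunRing N) (q : Cosets N) :
    MDiff (cosetFun q g) :=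
  mdifferentiable_comp_smul hg.1 _

theorem cosetFun_jFun (q : Cosets N) : cosetFun q jFun = jFun :=
  funext fun _ => jFun_smul _ _

theorem jMul_comp_smul_eq_self [NeZero N] {γ : SL(2, ℤ)}
    (h : ∀ τ : ℍ, jMul N (γ • τ) = jMul N τ) : γ ∈ Gamma0 N := by
  obtain ⟨r, hr, hr1, hr2⟩ := exists_jConj_comp_smul (top_mem_hermiteSet N) γ
  have hr' : r = (N, 0) := jConj_injective hr (top_mem_hermiteSet N) <| funext fun τ => by
    rw [← hr2 τ, jConj_top]
    exact h τ
  subst hr'
  simp only [Nat.div_self (Nat.pos_of_ne_zero (NeZero.ne N)), Nat.cast_one, one_mul,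
    Nat.cast_zero, zero_mul, add_zero] at hr1
  rw [Gamma0_mem, ZMod.intCast_zmod_eq_zero_iff_dvd]
  exact (by exact_mod_cast hr1 ▸ Int.gcd_dvd_right _ _)

theorem cosetFun_jMul_injective [NeZero N] :
    Function.Injective fun q : Cosets N => cosetFun q (jMul N) := by
  intro p q h
  induction p using QuotientGroup.induction_on with | _ a => ?_
  induction q using QuotientGroup.induction_on with | _ b => ?_
  simp only [cosetFun_mk (jMul_mem (dvd_refl N))] at h
  refine QuotientGroup.eq.mpr (jMul_comp_smul_eq_self fun τ => ?_)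
  have := congrFun h (b • τ)
  simpa [mul_smul] using this

/-- Expansion at `z₀` of `g ∘ q⁻¹`. -/
def pointHom (z₀ : ℍ) (q : Cosets N) : modFunRing N →ₐ[ℂ] LaurentSeries ℂ where
  toFun g := diskSeries z₀ (cosetFun q g)
  map_one' := by
    show diskSeries z₀ (fun _ => (1 : ℂ)) = 1
    rw [diskSeries_const]
    rfl
  map_mul' f g := diskSeries_mul z₀ (mdiff_cosetFun f.2 q) (mdiff_cosetFun g.2 q)
  map_zero' := by
    show diskSeries z₀ (fun _ => (0 : ℂ)) = 0
    rw [diskSeries_const, HahnSeries.single_eq_zero]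
  map_add' f g := diskSeries_add z₀ (mdiff_cosetFun f.2 q) (mdiff_cosetFun g.2 q)
  commutes' c := by
    show diskSeries z₀ (fun _ => c) = _
    rw [diskSeries_const, ModularCurve.algebraMap_laurentSeries_eq_single]

theorem pointHom_apply (z₀ : ℍ) (q : Cosets N) (g : modFunRing N) :
    pointHom z₀ q g = diskSeries z₀ (cosetFun q g) := rfl

theorem pointHom_injective (z₀ : ℍ) (q : Cosets N) : Function.Injective (pointHom z₀ q) :=
  (injective_iff_map_eq_zero _).mpr fun g hg => Subtype.ext <| funext fun τ => by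
    have := congrFun (eq_zero_of_diskSeries_eq_zero z₀ (mdiff_cosetFun g.2 q) hg) (q.out • τ)
    simpa [cosetFun] using this

theorem pointHom_jFun [NeZero N] (z₀ : ℍ) (q : Cosets N) :
    pointHom z₀ q ⟨jFun, jFun_mem⟩ = diskSeries z₀ jFun := by
  rw [pointHom_apply, cosetFun_jFun]

theorem pointHom_inv_smul {z₀ : ℍ} {γ : SL(2, ℤ)} (hfix : γ • z₀ = z₀) (q : Cosets N)
    (g : modFunRing N) :
    pointHom z₀ (γ⁻¹ • q) g =
      rot (Units.mk0 (rotNum γ z₀) (rotNum_ne_zero γ z₀)) (pointHom z₀ q g) := by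
  rw [pointHom_apply, cosetFun_inv_smul g.2, diskSeries_smul hfix (mdiff_cosetFun g.2 q)]
  rfl

theorem pointHom_jMul_injective [NeZero N] (z₀ : ℍ) :
    Function.Injective fun q : Cosets N => pointHom z₀ q ⟨jMul N, jMul_mem dvd_rfl⟩ := by
  intro p q h
  refine cosetFun_jMul_injective (sub_eq_zero.mp ?_)
  have hp := mdiff_cosetFun (jMul_mem (dvd_refl N)) p
  have hq := mdiff_cosetFun (jMul_mem (dvd_refl N)) q
  refine eq_zero_of_diskSeries_eq_zero z₀ (hp.sub hq) ?_
  have e := diskSeries_add z₀ (hp.sub hq) hq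
  rw [sub_add_cancel] at e
  simp only [pointHom_apply] at h
  rw [h] at e
  exact left_eq_add.mp (by rw [add_comm]; exact e) 

/-- Expansion at `i∞` of `g ∘ q⁻¹`, in `exp (2πiτ/N)`. -/
def cuspHom [NeZero N] (q : Cosets N) : modFunRing N →ₐ[ℂ] LaurentSeries ℂ := qLAt N q.out⁻¹

theorem cuspHom_jFun [NeZero N] (q : Cosets N) :
    cuspHom q ⟨jFun, jFun_mem⟩ = ModularCurve.qExpand ℂ N (ModularCurve.jqModC ℂ) := by
  refine qLAt_eq_of_expands ?_
  simp only [jFun_smul]
  simpa using expands_jFun.width_mul (k := N)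

theorem rot_eq_twist (c : ℂˣ) (x : LaurentSeries ℂ) : rot c x = twist c x := rfl

theorem expands_comp_T [NeZero N] {f : ℍ → ℂ} {x : LaurentSeries ℂ} (hf : Expands N f x) :
    Expands N (fun τ : ℍ => f (ModularGroup.T • τ)) (rot (zetaC N) x) := by
  have him : ∀ τ : ℍ, (ModularGroup.T • τ : ℍ).im = τ.im := fun τ => by
    rw [UpperHalfPlane.modular_T_smul]
    simp
  have := hf.comp_scale (h' := N) (k := 1) (zetaC N) (φ := fun τ : ℍ => ModularGroup.T • τ)
    (by
      rw [atImInfty, tendsto_comap_iff]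
      exact (tendsto_comap).congr fun τ => (him τ).symm)
    fun τ => by
      rw [pow_one, zetaC, Units.val_mk0, UpperHalfPlane.modular_T_smul, coe_vadd,
        Function.Periodic.qParam, Function.Periodic.qParam, ← Complex.exp_add]
      congr 1
      push_cast
      ring
  rwa [ModularCurve.qExpand_one_apply, ← rot_eq_twist] at this

theorem cuspHom_inv_smul [NeZero N] (q : Cosets N) (g : modFunRing N) :
    cuspHom (ModularGroup.T⁻¹ • q) g = rot (zetaC N) (cuspHom q g) := by
  refine qLAt_eq_of_expands ?_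
  have h := expands_comp_T (expands_qLAt q.out⁻¹ g)
  have e := cosetFun_inv_smul g.2 ModularGroup.T q
  unfold cosetFun at e
  rw [e]
  exact h

theorem cuspHom_injective [NeZero N] (q : Cosets N) : Function.Injective (cuspHom q) :=
  qLAt_injective _

theorem cuspHom_jMul_injective [NeZero N] :
    Function.Injective fun q : Cosets N => cuspHom q ⟨jMul N, jMul_mem dvd_rfl⟩ := by
  intro p q h
  refine cosetFun_jMul_injective ?_
  exact eq_of_expands (mdiff_cosetFun (jMul_mem dvd_rfl) p) (mdiff_cosetFun (jMul_mem dvd_rfl) q)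
    (expands_qLAt p.out⁻¹ ⟨jMul N, jMul_mem dvd_rfl⟩) (by
      simp only [cuspHom] at h
      rw [h]
      exact expands_qLAt q.out⁻¹ ⟨jMul N, jMul_mem dvd_rfl⟩)

end FLTAgent.Genus
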