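import Mathlib.NumberTheory.Modular
import Mathlib.RingTheory.RootsOfUnity.PrimitiveRoots
import Fermat.Agent.Genus.DiskOrder

/-!
The two elliptic points.
-/

set_option autoImplicit false

noncomputable section

open Complex
open UpperHalfPlane hiding I
open scoped MatrixGroups ModularForm ComplexConjugate

namespace FLTAgent.Genus

open FLTAgent.ModPoly

theorem coe_S_mul_T :
    ((ModularGroup.S * ModularGroup.T : SL(2, ℤ)) : Matrix (Fin 2) (Fin 2) ℤ) = !![0, -1; 1, 1] := by
  rw [Matrix.SpecialLinearGroup.coe_mul, ModularGroup.coe_S, ModularGroup.coe_T]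
  decide

theorem rho_fix : (ModularGroup.S * ModularGroup.T) • UpperHalfPlane.ρ = UpperHalfPlane.ρ := by
  apply UpperHalfPlane.ext
  have hd := denom_int_ne_zero (ModularGroup.S * ModularGroup.T) UpperHalfPlane.ρ
  rw [UpperHalfPlane.coe_specialLinearGroup_apply]
  simp at hd ⊢
  field_simp
  linear_combination -UpperHalfPlane.ρ_sq

theorem I_fix : ModularGroup.S • UpperHalfPlane.I = UpperHalfPlane.I := by
  apply UpperHalfPlane.ext
  rw [UpperHalfPlane.coe_specialLinearGroup_apply]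
  simp [ModularGroup.S, UpperHalfPlane.I]

theorem rotNum_S : rotNum ModularGroup.S UpperHalfPlane.I = -1 := by
  simp [rotNum, ModularGroup.S, UpperHalfPlane.I]

theorem rotNum_ST_ne_one : rotNum (ModularGroup.S * ModularGroup.T) UpperHalfPlane.ρ ≠ 1 := by
  intro h
  rw [rotNum, div_eq_one_iff_eq (denom_int_ne_zero _ _)] at h
  simp [Complex.ext_iff, UpperHalfPlane.ρ] at h
  linarith [Real.sqrt_pos.mpr (show (0 : ℝ) < 3 by norm_num)]

theorem rotNum_ST_pow : rotNum (ModularGroup.S * ModularGroup.T) UpperHalfPlane.ρ ^ 3 = 1 := by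
  have hd := denom_int_ne_zero (ModularGroup.S * ModularGroup.T) UpperHalfPlane.ρ
  have h1 := UpperHalfPlane.ρ_sq
  have h2 : conj (UpperHalfPlane.ρ : ℂ) ^ 2 = -conj (UpperHalfPlane.ρ : ℂ) - 1 := by
    simpa using congrArg conj h1
  simp [rotNum] at hd ⊢
  rw [div_pow, div_eq_one_iff_eq (pow_ne_zero _ hd)]
  linear_combination (conj (UpperHalfPlane.ρ : ℂ) + 2) * h2 - ((UpperHalfPlane.ρ : ℂ) + 2) * h1

theorem isPrimitiveRoot_rot_S :
    IsPrimitiveRoot (Units.mk0 (rotNum ModularGroup.S UpperHalfPlane.I)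
      (rotNum_ne_zero _ _)) 2 := by
  haveI := Fact.mk Nat.prime_two
  rw [← orderOf_eq_prime (x := Units.mk0 (rotNum ModularGroup.S UpperHalfPlane.I)
      (rotNum_ne_zero _ _)) (p := 2) (Units.ext (by simp [rotNum_S]))
    (fun h => by
      have := congrArg Units.val h
      rw [Units.val_mk0, rotNum_S, Units.val_one] at this
      norm_num at this)]
  exact IsPrimitiveRoot.orderOf _

theorem isPrimitiveRoot_rot_ST :
    IsPrimitiveRoot (Units.mk0 (rotNum (ModularGroup.S * ModularGroup.T) UpperHalfPlane.ρ)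
      (rotNum_ne_zero _ _)) 3 := by
  haveI := Fact.mk Nat.prime_three
  rw [← orderOf_eq_prime (x := Units.mk0 (rotNum (ModularGroup.S * ModularGroup.T) UpperHalfPlane.ρ)
      (rotNum_ne_zero _ _)) (p := 3) (Units.ext (by simp [rotNum_ST_pow]))
    (fun h => rotNum_ST_ne_one (by simpa using congrArg Units.val h))]
  exact IsPrimitiveRoot.orderOf _

theorem slash_fix {F : Type*} [FunLike F ℍ ℂ] {k : ℤ} [SlashInvariantFormClass F 𝒮ℒ k] (f : F)
    {g : SL(2, ℤ)} {z : ℍ} (hz : g • z = z) : f z * denom g z ^ (-k) = f z := by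
  have h := congr_fun (SlashInvariantFormClass.slash_action_eq f (g : GL (Fin 2) ℝ) ⟨g, rfl⟩) z
  rw [← ModularForm.SL_slash, ModularForm.SL_slash_apply, hz] at h
  exact h

theorem E₆_I : ModularForm.E₆ UpperHalfPlane.I = 0 := by
  have h := slash_fix ModularForm.E₆ I_fix
  have hd : denom ModularGroup.S UpperHalfPlane.I = Complex.I := by
    rw [ModularGroup.denom_apply]
    simp [ModularGroup.S, UpperHalfPlane.I]
  rw [hd, zpow_neg, zpow_ofNat,
    show Complex.I ^ 6 = -1 by rw [show (6 : ℕ) = 2 * 3 from rfl, pow_mul, Complex.I_sq]; norm_num]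
    at h
  norm_num at h
  linear_combination -(1 / 2 : ℂ) * h

theorem E₄_rho : ModularForm.E₄ UpperHalfPlane.ρ = 0 := by
  have h := slash_fix ModularForm.E₄ rho_fix
  have hd : denom (ModularGroup.S * ModularGroup.T : SL(2, ℤ)) UpperHalfPlane.ρ =
      (UpperHalfPlane.ρ : ℂ) + 1 := by
    rw [ModularGroup.denom_apply, coe_S_mul_T]
    simp
  have h2 := UpperHalfPlane.ρ_sq
  rw [hd, zpow_neg, zpow_ofNat] at h
  have h4 : ((UpperHalfPlane.ρ : ℂ) + 1) ^ 4 = UpperHalfPlane.ρ ^ 2 * 1 := by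
    linear_combination ((UpperHalfPlane.ρ : ℂ) ^ 2 + 3 * UpperHalfPlane.ρ + 1) * h2
  by_contra hne
  have h5 : (((UpperHalfPlane.ρ : ℂ) + 1) ^ 4)⁻¹ = 1 := mul_left_cancel₀ hne (by rw [h, mul_one])
  rw [h4, mul_one, h2, inv_eq_one] at h5
  have := congrArg Complex.im h5
  simp only [sub_im, neg_im, one_im, coe_im] at this
  linarith [UpperHalfPlane.ρ.im_pos]

theorem jFun_I : jFun UpperHalfPlane.I = 1728 := by
  have h := E₆_sq_eq UpperHalfPlane.I
  rw [E₆_I] at h
  simpa [ModularForm.discriminant_ne_zero, sub_eq_zero] using h.symm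

theorem jFun_rho : jFun UpperHalfPlane.ρ = 0 := by simp [jFun, E₄_rho]

end FLTAgent.Genus
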