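import Fermat.Prelude.Def_AlgebraicCurve_Repartitions
import Fermat.Agent.Genus.LaurentOps

/-!
A field embedding `φ : F →+* C⸨t⸩` over `ι : K →+* C` induces a place of `F / K`; two embeddings
inducing the same place with the same value on `x` are determined by the leading coefficient of
the image of a uniformiser.
-/

set_option autoImplicit false

noncomputable section

open AlgebraicCurve

namespace FLTAgent.Genus

section PlaceFacts

variable {K F : Type*} [Field K] [Field F] [Algebra K F] (v : Place K F)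

theorem mem_iff_ord_nonneg (f : F) : f ∈ v.toValuationSubring ↔ 0 ≤ v.ord f := by
  rcases eq_or_ne f 0 with rfl | hf
  · simp [zero_mem]
  refine ⟨fun h => ?_, fun h => ?_⟩
  · exact (v.adicValuation_le_one_iff.mp (v.adicValuation_le_one_of_mem h)).resolve_left hf
  · obtain ⟨π, hπ⟩ := IsDiscreteValuationRing.exists_irreducible v.toValuationSubring
    obtain ⟨u, hu⟩ := v.exists_unit_mul_zpow hf hπ
    rw [hu]
    obtain ⟨n, hn⟩ := Int.eq_ofNat_of_zero_le h
    rw [hn, zpow_natCast]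
    exact mul_mem (u : v.toValuationSubring).2 (pow_mem π.2 n)

theorem exists_ord_eq_one : ∃ π : F, π ≠ 0 ∧ v.ord π = 1 := by
  obtain ⟨π, hπ⟩ := IsDiscreteValuationRing.exists_irreducible v.toValuationSubring
  exact ⟨π, fun h => by simpa [h] using v.ord_coe_irreducible hπ, v.ord_coe_irreducible hπ⟩

theorem ord_pow (f : F) (n : ℕ) : v.ord (f ^ n) = n * v.ord f := by
  rw [← zpow_natCast, v.ord_zpow]

theorem ord_div' {f g : F} (hf : f ≠ 0) (hg : g ≠ 0) : v.ord (f / g) = v.ord f - v.ord g := by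
  rw [div_eq_mul_inv, v.ord_mul hf (inv_ne_zero hg), v.ord_inv]
  ring

/-- Every integral element is a constant modulo the maximal ideal. -/
def HasResidueK : Prop :=
  ∀ u : F, 0 ≤ v.ord u → ∃ c : K, u = algebraMap K F c ∨ 0 < v.ord (u - algebraMap K F c)

theorem exists_polynomial_expansion (hres : HasResidueK v) {π : F} (hπ : π ≠ 0)
    (hπ1 : v.ord π = 1) (g : F) (hg : 0 ≤ v.ord g) (n : ℕ) :
    ∃ (p : Polynomial K) (gn : F), 0 ≤ v.ord gn ∧
      g = Polynomial.aeval π p + π ^ n * gn := by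
  induction n with
  | zero => exact ⟨0, g, hg, by simp⟩
  | succ n ih =>
      obtain ⟨p, gn, hgn, hgeq⟩ := ih
      obtain ⟨c, hc⟩ := hres gn hgn
      refine ⟨p + Polynomial.C c * Polynomial.X ^ n, (gn - algebraMap K F c) / π, ?_, ?_⟩
      · rcases eq_or_ne (gn - algebraMap K F c) 0 with h0 | h0
        · simp [h0]
        · rw [ord_div' v h0 hπ, hπ1]
          rcases hc with hc | hc
          · exact absurd (sub_eq_zero.mpr hc) h0
          · omega
      · rw [hgeq, map_add, map_mul, Polynomial.aeval_C, Polynomial.aeval_X_pow, pow_succ,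
          mul_assoc, mul_div_cancel₀ _ hπ]
        ring

end PlaceFacts

variable {K F C : Type*} [Field K] [Field F] [Algebra K F] [Field C]

/-- `φ` restricts to `ι` on the constants. -/
def Over (ι : K →+* C) (φ : F →+* LaurentSeries C) : Prop :=
  ∀ a : K, φ (algebraMap K F a) = HahnSeries.single (0 : ℤ) (ι a)

/-- `φ` induces `v`, with ramification `k` of the `t`-adic valuation over `v`. -/
def Induces (φ : F →+* LaurentSeries C) (v : Place K F) (k : ℤ) : Prop :=
  0 < k ∧ ∀ f : F, (φ f).order = k * v.ord f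

/-- The valuation ring of the elements of nonnegative order under `φ`. -/
def embSubring (φ : F →+* LaurentSeries C) : ValuationSubring F where
  carrier := {f | 0 ≤ (φ f).order}
  zero_mem' := by simp
  one_mem' := by simp
  add_mem' {a b} ha hb := by
    show 0 ≤ (φ (a + b)).order
    rcases eq_or_ne (φ a + φ b) 0 with h | h
    · simp [h]
    · rw [map_add]
      exact le_trans (le_min ha hb) (HahnSeries.min_order_le_order_add h)
  neg_mem' {a} ha := by simpa using ha
  mul_mem' {a b} ha hb := by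
    show 0 ≤ (φ (a * b)).order
    rcases eq_or_ne a 0 with rfl | ha0
    · simp
    rcases eq_or_ne b 0 with rfl | hb0
    · simp
    rw [map_mul, HahnSeries.order_mul ((map_ne_zero φ).mpr ha0) ((map_ne_zero φ).mpr hb0)]
    exact add_nonneg ha hb
  mem_or_inv_mem' a := by
    show 0 ≤ (φ a).order ∨ 0 ≤ (φ a⁻¹).order
    rw [map_inv₀, order_inv']
    omega

theorem mem_embSubring (φ : F →+* LaurentSeries C) (f : F) :
    f ∈ embSubring φ ↔ 0 ≤ (φ f).order := Iff.rfl

theorem embSubring_isPrincipalIdealRing (φ : F →+* LaurentSeries C) :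
    IsPrincipalIdealRing (embSubring φ) := by
  classical
  refine ⟨fun I => ?_⟩
  rcases eq_or_ne I ⊥ with rfl | hI
  · exact ⟨⟨0, by simp⟩⟩
  obtain ⟨a, haI, ha0⟩ := Submodule.exists_mem_ne_zero_of_ne_bot hI
  have hne : ∃ n : ℕ, ∃ y ∈ I, y ≠ 0 ∧ (φ (y : F)).order = n := by
    refine ⟨(φ (a : F)).order.toNat, a, haI, ha0, ?_⟩
    have := (mem_embSubring φ (a : F)).mp a.2
    omega
  obtain ⟨y, hyI, hy0, hyord⟩ := Nat.find_spec hne
  refine ⟨⟨y, le_antisymm (fun z hz => ?_) ((Ideal.span_singleton_le_iff_mem I).mpr hyI)⟩⟩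
  show z ∈ Ideal.span {y}
  rw [Ideal.mem_span_singleton]
  rcases eq_or_ne z 0 with rfl | hz0
  · exact dvd_zero _
  have hy0' : (y : F) ≠ 0 := fun h => hy0 (Subtype.ext h)
  have hz0' : (z : F) ≠ 0 := fun h => hz0 (Subtype.ext h)
  have hmem : ((z : F) / y) ∈ embSubring φ := by
    rw [mem_embSubring, map_div₀, div_eq_mul_inv,
      HahnSeries.order_mul ((map_ne_zero φ).mpr hz0') (inv_ne_zero ((map_ne_zero φ).mpr hy0')),
      order_inv', hyord]
    have h0 := (mem_embSubring φ (z : F)).mp z.2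
    have := Nat.find_min' hne (m := (φ (z : F)).order.toNat) ⟨z, hz, hz0, by omega⟩
    omega
  exact ⟨⟨_, hmem⟩, Subtype.ext (by simp [mul_div_cancel₀ _ hy0'])⟩

/-- The place induced by a nonconstant embedding over `K`. -/
def placeOfEmb {ι : K →+* C} (φ : F →+* LaurentSeries C) (hφ : Over ι φ)
    (hx : ∃ f : F, 0 < (φ f).order) : Place K F where
  toValuationSubring := embSubring φ
  algebraMap_mem' a := by
    rw [mem_embSubring, hφ a, order_single_zero]
  ne_top' h := by
    obtain ⟨f, hf⟩ := hx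
    have : f⁻¹ ∈ embSubring φ := h ▸ ValuationSubring.mem_top _
    rw [mem_embSubring, map_inv₀, order_inv'] at this
    omega
  isPrincipalIdealRing' := embSubring_isPrincipalIdealRing φ

theorem exists_induces_placeOfEmb {ι : K →+* C} (φ : F →+* LaurentSeries C) (hφ : Over ι φ)
    (hx : ∃ f : F, 0 < (φ f).order) : ∃ k, Induces φ (placeOfEmb φ hφ hx) k := by
  set v := placeOfEmb φ hφ hx with hv
  obtain ⟨π, hπ0, hπ⟩ := exists_ord_eq_one v
  have key : ∀ f : F, 0 ≤ (φ f).order ↔ 0 ≤ v.ord f := fun f => mem_iff_ord_nonneg v f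
  have unit : ∀ f : F, v.ord f = 0 → (φ f).order = 0 := fun f hf => by
    have h1 := (key f).mpr hf.ge
    have h2 := (key f⁻¹).mpr (by rw [v.ord_inv, hf]; simp)
    rw [map_inv₀, order_inv'] at h2
    omega
  refine ⟨(φ π).order, ?_, fun f => ?_⟩
  · have h : ¬ 0 ≤ (φ π⁻¹).order := fun h => by
      have := (key _).mp h
      rw [v.ord_inv, hπ] at this
      omega
    rw [map_inv₀, order_inv'] at h
    omega
  · rcases eq_or_ne f 0 with rfl | hf
    · simp
    have hpow : π ^ v.ord f ≠ 0 := zpow_ne_zero _ hπ0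
    have hu : v.ord (f / π ^ v.ord f) = 0 := by
      rw [ord_div' v hf hpow, v.ord_zpow, hπ]
      ring
    have hdiv : f / π ^ v.ord f ≠ 0 := div_ne_zero hf hpow
    conv_lhs => rw [show f = (f / π ^ v.ord f) * π ^ v.ord f by field_simp]
    rw [map_mul, HahnSeries.order_mul ((map_ne_zero φ).mpr hdiv) ((map_ne_zero φ).mpr hpow),
      unit _ hu, map_zpow₀, order_zpow', zero_add, mul_comm]

theorem placeOfEmb_eq_of_induces {ι : K →+* C} {φ : F →+* LaurentSeries C} {hφ : Over ι φ}
    {hx : ∃ f : F, 0 < (φ f).order} {v : Place K F} {k : ℤ} (h : Induces φ v k) :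
    placeOfEmb φ hφ hx = v := by
  refine Place.ext (SetLike.ext fun f => ?_)
  show f ∈ embSubring φ ↔ _
  rw [mem_embSubring, mem_iff_ord_nonneg, h.2 f]
  exact ⟨fun h0 => nonneg_of_mul_nonneg_right h0 h.1, fun h0 => mul_nonneg h.1.le h0⟩

section Compare

variable {ι : K →+* C} {φ ψ : F →+* LaurentSeries C} {v : Place K F} {k : ℤ}

/-- `r ≤` the order of `x`, with `x = 0` allowed. -/
def OrdGE (r : ℤ) (x : LaurentSeries C) : Prop := ∀ i < r, x.coeff i = 0

theorem OrdGE.of_order {r : ℤ} {x : LaurentSeries C} (h : x ≠ 0 → r ≤ x.order) : OrdGE r x := by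
  intro i hi
  rcases eq_or_ne x 0 with rfl | hx
  · simp
  · exact HahnSeries.coeff_eq_zero_of_lt_order (lt_of_lt_of_le hi (h hx))

theorem OrdGE.le_order {r : ℤ} {x : LaurentSeries C} (h : OrdGE r x) (hx : x ≠ 0) :
    r ≤ x.order :=
  (HahnSeries.le_order_iff_forall hx).mpr h

theorem OrdGE.add {r : ℤ} {x y : LaurentSeries C} (hx : OrdGE r x) (hy : OrdGE r y) :
    OrdGE r (x + y) := fun i hi => by simp [hx i hi, hy i hi]

theorem OrdGE.mono {r s : ℤ} {x : LaurentSeries C} (h : OrdGE r x) (hs : s ≤ r) : OrdGE s x :=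
  fun i hi => h i (lt_of_lt_of_le hi hs)

theorem OrdGE.mul {r s : ℤ} {x y : LaurentSeries C} (hx : OrdGE r x) (hy : OrdGE s y) :
    OrdGE (r + s) (x * y) := by
  refine OrdGE.of_order fun h => ?_
  obtain ⟨hx0, hy0⟩ := mul_ne_zero_iff.mp h
  rw [HahnSeries.order_mul hx0 hy0]
  exact add_le_add (hx.le_order hx0) (hy.le_order hy0)

theorem ordGE_sub_aeval (hφ : Over ι φ) (hψ : Over ι ψ) {π : F} {r : ℤ}
    (hr : OrdGE r (φ π - ψ π)) (hP : OrdGE 0 (φ π)) (hQ : OrdGE 0 (ψ π)) (p : Polynomial K) :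
    OrdGE r (φ (Polynomial.aeval π p) - ψ (Polynomial.aeval π p)) ∧
      OrdGE 0 (ψ (Polynomial.aeval π p)) := by
  induction p using Polynomial.induction_on with
  | C a =>
      rw [Polynomial.aeval_C, hφ a, hψ a, sub_self]
      exact ⟨fun i _ => by simp, OrdGE.of_order fun _ => (order_single_zero _).ge⟩
  | add p q hp hq =>
      simp only [map_add, add_sub_add_comm]
      exact ⟨hp.1.add hq.1, hp.2.add hq.2⟩
  | monomial n a h =>
      rw [pow_succ, ← mul_assoc, map_mul (Polynomial.aeval π), Polynomial.aeval_X, map_mul φ, map_mul ψ]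
      refine ⟨?_, by simpa using h.2.mul hQ⟩
      rw [show ∀ a b c d : LaurentSeries C, a * b - c * d = (a - c) * b + c * (b - d) from
        fun a b c d => by ring]
      exact OrdGE.add (by simpa using h.1.mul hP) (by simpa using h.2.mul hr)

theorem Induces.ordGE (h : Induces φ v k) {f : F} {n : ℤ} (hf : n ≤ v.ord f) :
    OrdGE (k * n) (φ f) := by
  refine OrdGE.of_order fun _ => ?_
  rw [h.2 f]
  exact mul_le_mul_of_nonneg_left hf h.1.le

theorem ordGE_sub (hres : HasResidueK v) (hφ : Over ι φ) (hψ : Over ι ψ)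
    (hvφ : Induces φ v k) (hvψ : Induces ψ v k) {π : F} (hπ0 : π ≠ 0) (hπ1 : v.ord π = 1)
    {r : ℤ} (hr : OrdGE r (φ π - ψ π)) (g : F) (hg : 0 ≤ v.ord g) :
    OrdGE r (φ g - ψ g) := by
  obtain ⟨p, gn, hgn, rfl⟩ := exists_polynomial_expansion v hres hπ0 hπ1 g hg r.toNat
  have hP : OrdGE 0 (φ π) := by simpa using hvφ.ordGE (n := 0) (f := π) (by omega)
  have hQ : OrdGE 0 (ψ π) := by simpa using hvψ.ordGE (n := 0) (f := π) (by omega)
  have hrem : (r.toNat : ℤ) ≤ v.ord (π ^ r.toNat * gn) ∨ gn = 0 := by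
    rcases eq_or_ne gn 0 with h | h
    · exact Or.inr h
    · refine Or.inl ?_
      rw [v.ord_mul (pow_ne_zero _ hπ0) h, ord_pow, hπ1]
      omega
  have hk : r ≤ k * r.toNat := by
    have := hvφ.1
    nlinarith [Int.self_le_toNat r, Int.natCast_nonneg r.toNat]
  rw [map_add φ, map_add ψ, add_sub_add_comm]
  refine (ordGE_sub_aeval hφ hψ hr hP hQ p).1.add ?_
  rcases hrem with h | h
  · rw [sub_eq_add_neg, ← map_neg ψ]
    refine ((hvφ.ordGE h).mono hk).add ?_
    intro i hi
    rw [map_neg, HahnSeries.coeff_neg, ((hvψ.ordGE h).mono hk) i hi, neg_zero]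
  · intro i _
    simp [h]

theorem leadingCoeff_pow_uniformizer (hres : HasResidueK v) (hvφ : Induces φ v k) (hφ : Over ι φ)
    {π x : F} {e : ℕ} (hπ0 : π ≠ 0) (hπ1 : v.ord π = 1) (hx0 : x ≠ 0) (he : v.ord x = e) :
    ∃ c : K, c ≠ 0 ∧ (∀ ψ : F →+* LaurentSeries C, Over ι ψ → Induces ψ v k →
      (ψ x).leadingCoeff = (ψ π).leadingCoeff ^ e * ι c) := by
  set u := x / π ^ e with hu
  have hπe : π ^ e ≠ 0 := pow_ne_zero _ hπ0
  have hu0 : v.ord u = 0 := by
    rw [hu, ord_div' v hx0 hπe, ord_pow, hπ1, he]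
    ring
  obtain ⟨c, hc⟩ := hres u hu0.ge
  have hune : u ≠ 0 := div_ne_zero hx0 hπe
  have hlead : ∀ ψ : F →+* LaurentSeries C, Over ι ψ → Induces ψ v k →
      (ψ u).leadingCoeff = ι c := by
    intro ψ hψ hvψ
    rw [HahnSeries.leadingCoeff_eq, hvψ.2 u, hu0, mul_zero]
    rcases hc with hc | hc
    · rw [hc, hψ c, HahnSeries.coeff_single_same]
    · have h1 := hvψ.ordGE (n := 1) (f := u - algebraMap K F c) hc
      have h2 := h1 0 (by have := hvψ.1; linarith)
      rw [map_sub, hψ c, HahnSeries.coeff_sub, HahnSeries.coeff_single_same, sub_eq_zero] at h2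
      exact h2
  refine ⟨c, fun h0 => ?_, fun ψ hψ hvψ => ?_⟩
  · have := hlead φ hφ hvφ
    rw [h0, map_zero, HahnSeries.leadingCoeff_eq_zero, map_eq_zero] at this
    exact hune this
  · rw [← hlead ψ hψ hvψ]
    conv_lhs => rw [show x = π ^ e * u by rw [hu, mul_div_cancel₀ _ hπe]]
    rw [map_mul, HahnSeries.leadingCoeff_mul, map_pow, leadingCoeff_pow']

theorem eq_of_leadingCoeff_eq [CharZero C] (hres : HasResidueK v) (hφ : Over ι φ)
    (hψ : Over ι ψ) (hvφ : Induces φ v k) (hvψ : Induces ψ v k) {π x : F} {e : ℕ}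
    (hπ0 : π ≠ 0) (hπ1 : v.ord π = 1) (hx0 : x ≠ 0) (he : v.ord x = e) (he0 : 0 < e)
    (hxeq : φ x = ψ x) (hlead : (φ π).leadingCoeff = (ψ π).leadingCoeff) : φ = ψ := by
  set u := x / π ^ e with hu
  have hπe : π ^ e ≠ 0 := pow_ne_zero _ hπ0
  have hu0 : v.ord u = 0 := by
    rw [hu, ord_div' v hx0 hπe, ord_pow, hπ1, he]
    ring
  have hune : u ≠ 0 := div_ne_zero hx0 hπe
  have hPQ : φ π = ψ π := by
    by_contra hne
    set d := φ π - ψ π with hd
    have hd0 : d ≠ 0 := sub_ne_zero.mpr hne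
    have hr : OrdGE d.order d := OrdGE.of_order fun _ => le_rfl
    have hsub := ordGE_sub hres hφ hψ hvφ hvψ hπ0 hπ1 hr u hu0.ge
    have hP : (φ π).order = k := by rw [hvφ.2, hπ1, mul_one]
    have hQ : (ψ π).order = k := by rw [hvψ.2, hπ1, mul_one]
    set S := ∑ i ∈ Finset.range e, φ π ^ i * ψ π ^ (e - 1 - i) with hS
    have hScoeff : S.coeff (((e : ℤ) - 1) * k) = e * (φ π).leadingCoeff ^ (e - 1) := by
      rw [hS, HahnSeries.coeff_sum]
      rw [Finset.sum_congr rfl (g := fun _ => (φ π).leadingCoeff ^ (e - 1))]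
      · simp
      intro i hi
      rw [Finset.mem_range] at hi
      have hne1 : φ π ≠ 0 := (map_ne_zero φ).mpr hπ0
      have hne2 : ψ π ≠ 0 := (map_ne_zero ψ).mpr hπ0
      have hord : (φ π ^ i * ψ π ^ (e - 1 - i)).order = ((e : ℤ) - 1) * k := by
        rw [HahnSeries.order_mul (pow_ne_zero _ hne1) (pow_ne_zero _ hne2), HahnSeries.order_pow,
          HahnSeries.order_pow, hP, hQ, nsmul_eq_mul, nsmul_eq_mul, Nat.cast_sub (by omega),
          Nat.cast_sub (by omega)]
        ring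
      rw [← hord, ← HahnSeries.leadingCoeff_eq, HahnSeries.leadingCoeff_mul]
      rw [leadingCoeff_pow', leadingCoeff_pow', ← hlead, ← pow_add]
      congr 1
      omega
    have hlne : (φ π).leadingCoeff ≠ 0 :=
      HahnSeries.leadingCoeff_ne_zero.mpr ((map_ne_zero φ).mpr hπ0)
    have hSne : S.coeff (((e : ℤ) - 1) * k) ≠ 0 := by
      rw [hScoeff]
      exact mul_ne_zero (Nat.cast_ne_zero.mpr he0.ne') (pow_ne_zero _ hlne)
    have hS0 : S ≠ 0 := HahnSeries.ne_zero_of_coeff_ne_zero hSne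
    have hSord : S.order ≤ ((e : ℤ) - 1) * k := HahnSeries.order_le_of_coeff_ne_zero hSne
    have hgeom : S * d = φ π ^ e - ψ π ^ e := geom_sum₂_mul _ _ _
    have heq : S * d * φ u = ψ (π ^ e) * (ψ u - φ u) := by
      rw [hgeom, map_pow, mul_sub, sub_mul, ← map_pow φ, ← map_pow ψ, ← map_mul φ, ← map_mul ψ,
        show π ^ e * u = x by rw [hu, mul_div_cancel₀ _ hπe], hxeq]
    have hneg : OrdGE d.order (ψ u - φ u) := fun i hi => by
      rw [← neg_sub, HahnSeries.coeff_neg, hsub i hi, neg_zero]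
    have hrhs : OrdGE (k * e + d.order) (ψ (π ^ e) * (ψ u - φ u)) :=
      (hvψ.ordGE (n := e) (by rw [ord_pow, hπ1, mul_one])).mul hneg
    have hune' : φ u ≠ 0 := (map_ne_zero φ).mpr hune
    have h := hrhs.le_order (heq ▸ mul_ne_zero (mul_ne_zero hS0 hd0) hune')
    rw [← heq, HahnSeries.order_mul (mul_ne_zero hS0 hd0) hune', HahnSeries.order_mul hS0 hd0,
      hvφ.2 u, hu0] at h
    nlinarith [hvφ.1, hSord, h]
  have key : ∀ g : F, 0 ≤ v.ord g → φ g = ψ g := by
    intro g hg
    ext i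
    have := ordGE_sub hres hφ hψ hvφ hvψ hπ0 hπ1 (r := i + 1) (fun j _ => by simp [hPQ]) g hg i
      (by omega)
    rwa [HahnSeries.coeff_sub, sub_eq_zero] at this
  refine RingHom.ext fun g => ?_
  rcases le_total 0 (v.ord g) with hg | hg
  · exact key g hg
  · have := key g⁻¹ (by rw [v.ord_inv]; omega)
    rw [map_inv₀, map_inv₀, inv_inj] at this
    exact this

end Compare

end FLTAgent.Genus
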