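import Mathlib.FieldTheory.IntermediateField.Adjoin.Algebra
import Mathlib.RingTheory.Localization.FractionRing
import Fermat.Prelude.Def_ModularCurve_JqCoeff
import Fermat.Agent.ModPoly.Hermite
import Fermat.Agent.Genus.EmbPlace

/-!
An injective expansion of `modFunRing N` gives an embedding of the modular function field over
any `K ⊆ ℂ`.
-/

set_option autoImplicit false

noncomputable section

open ModularCurve

namespace FLTAgent.Genus

open FLTAgent.ModPoly

variable {N : ℕ} [NeZero N] {K : Type*} [Field K]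

theorem coeffMap_qExpand {R S : Type*} [CommRing R] [CommRing S] (f : R →+* S) (d : ℕ) [NeZero d]
    (x : LaurentSeries R) : coeffMap f (qExpand R d x) = qExpand S d (coeffMap f x) := by
  ext k
  rw [coeffMap_coeff]
  by_cases h : (d : ℤ) ∣ k
  · obtain ⟨m, rfl⟩ := h
    rw [qExpand_coeff_mul, qExpand_coeff_mul, coeffMap_coeff]
  · rw [qExpand_coeff_of_not_dvd d _ h, qExpand_coeff_of_not_dvd d _ h, map_zero]

theorem coeffMap_jqModC (ι : K →+* ℂ) : coeffMap ι (jqModC K) = jqModC ℂ := map_jqModC ι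

theorem coeffMap_jqNModC (ι : K →+* ℂ) :
    coeffMap ι (jqNModC K N) = qExpand ℂ N (jqModC ℂ) := by
  rw [jqNModC, coeffMap_qExpand, coeffMap_jqModC]

/-- `j` in the modular function field. -/
def jEl (K : Type*) [Field K] (N : ℕ) [NeZero N] : modularFunctionFieldC K N :=
  ⟨jqModC K, jqModC_mem K N⟩

/-- `j(Nτ)` in the modular function field. -/
def jNEl (K : Type*) [Field K] (N : ℕ) [NeZero N] : modularFunctionFieldC K N :=
  ⟨jqNModC K N, jqNModC_mem K N⟩

theorem algebraMap_field_coe (a : K) :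
    ((algebraMap K (modularFunctionFieldC K N) a : modularFunctionFieldC K N) : LaurentSeries K) =
      HahnSeries.single (0 : ℤ) a :=
  algebraMap_laurentSeries_eq_single K a

/-- The elements of the field which are expansions of holomorphic modular functions. -/
def holoPart (ι : K →+* ℂ) : Subalgebra K (modularFunctionFieldC K N) where
  carrier := {x | ∃ g : modFunRing N, qL N g = coeffMap ι (x : LaurentSeries K)}
  mul_mem' := fun ⟨g, hg⟩ ⟨h, hh⟩ => ⟨g * h, by rw [map_mul, hg, hh]; simp⟩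
  add_mem' := fun ⟨g, hg⟩ ⟨h, hh⟩ => ⟨g + h, by rw [map_add, hg, hh]; simp⟩
  algebraMap_mem' a := ⟨algebraMap ℂ _ (ι a), by
    rw [AlgHom.commutes, algebraMap_field_coe, coeffMap_single,
      algebraMap_laurentSeries_eq_single]⟩

theorem jEl_mem_holoPart (ι : K →+* ℂ) : jEl K N ∈ holoPart ι :=
  ⟨⟨jFun, jFun_mem⟩, by rw [qL_jFun]; exact (coeffMap_jqModC ι).symm⟩

theorem jNEl_mem_holoPart (ι : K →+* ℂ) : jNEl K N ∈ holoPart ι :=
  ⟨⟨jMul N, jMul_mem dvd_rfl⟩, by rw [qL_jMul dvd_rfl]; exact (coeffMap_jqNModC ι).symm⟩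

open scoped IntermediateField.algebraAdjoinAdjoin in
theorem exists_div_holoPart (ι : K →+* ℂ) (z : modularFunctionFieldC K N) :
    ∃ x y : holoPart (N := N) ι, z = (x : modularFunctionFieldC K N) / y := by
  set S : Set (LaurentSeries K) := {jqModC K, jqNModC K N} with hS
  have hz : (z : LaurentSeries K) ∈ IntermediateField.adjoin K S := z.2
  obtain ⟨r, hr, s, hs, hrs⟩ := IntermediateField.mem_adjoin_iff_div.mp hz
  have key : ∀ r ∈ Algebra.adjoin K S, ∃ x : holoPart (N := N) ι,
      ((x : modularFunctionFieldC K N) : LaurentSeries K) = r := by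
    intro r hr
    induction hr using Algebra.adjoin_induction with
    | mem x hx =>
        rcases hx with rfl | rfl
        · exact ⟨⟨jEl K N, jEl_mem_holoPart ι⟩, rfl⟩
        · exact ⟨⟨jNEl K N, jNEl_mem_holoPart ι⟩, rfl⟩
    | algebraMap a => exact ⟨algebraMap K _ a, rfl⟩
    | add x y _ _ hx hy =>
        obtain ⟨a, rfl⟩ := hx
        obtain ⟨b, rfl⟩ := hy
        exact ⟨a + b, rfl⟩
    | mul x y _ _ hx hy =>
        obtain ⟨a, rfl⟩ := hx
        obtain ⟨b, rfl⟩ := hy
        exact ⟨a * b, rfl⟩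
  obtain ⟨a, ha⟩ := key r hr
  obtain ⟨b, hb⟩ := key s hs
  refine ⟨a, b, Subtype.ext ?_⟩
  rw [hrs]
  push_cast
  rw [ha, hb]

/-- The holomorphic function with the given expansion. -/
def holoFun (ι : K →+* ℂ) : holoPart (N := N) ι →+* modFunRing N where
  toFun x := x.2.choose
  map_one' := qL_injective (by
    rw [(1 : holoPart (N := N) ι).2.choose_spec, map_one]
    simp)
  map_mul' x y := qL_injective (by
    rw [(x * y).2.choose_spec, map_mul, x.2.choose_spec, y.2.choose_spec]
    simp)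
  map_zero' := qL_injective (by
    rw [(0 : holoPart (N := N) ι).2.choose_spec, map_zero]
    simp)
  map_add' x y := qL_injective (by
    rw [(x + y).2.choose_spec, map_add, x.2.choose_spec, y.2.choose_spec]
    simp)

theorem qL_holoFun (ι : K →+* ℂ) (x : holoPart (N := N) ι) :
    qL N (holoFun ι x) = coeffMap ι ((x : modularFunctionFieldC K N) : LaurentSeries K) :=
  x.2.choose_spec

theorem holoFun_injective (ι : K →+* ℂ) : Function.Injective (holoFun (N := N) ι) := by
  intro x y h
  have h' := congrArg (qL N) h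
  rw [qL_holoFun, qL_holoFun] at h'
  have hinj : Function.Injective (coeffMap ι) := (coeffMap ι).injective
  exact Subtype.ext (Subtype.ext (hinj h'))

/-- An injective expansion of `modFunRing N` extends to the modular function field. -/
theorem exists_emb (ι : K →+* ℂ) (χ : modFunRing N →ₐ[ℂ] LaurentSeries ℂ)
    (hχ : Function.Injective χ) :
    ∃ φ : modularFunctionFieldC K N →+* LaurentSeries ℂ, Over ι φ ∧
      ∀ (x : modularFunctionFieldC K N) (g : modFunRing N),
        qL N g = coeffMap ι (x : LaurentSeries K) → φ x = χ g := by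
  haveI : IsFractionRing (holoPart (N := N) ι) (modularFunctionFieldC K N) :=
    IsFractionRing.of_field _ _ fun z => by
      obtain ⟨x, y, h⟩ := exists_div_holoPart ι z
      exact ⟨x, y, h⟩
  set ψ : holoPart (N := N) ι →+* LaurentSeries ℂ := χ.toRingHom.comp (holoFun ι) with hψ
  have hψinj : Function.Injective ψ := hχ.comp (holoFun_injective ι)
  refine ⟨IsFractionRing.lift (A := holoPart (N := N) ι) hψinj, fun a => ?_, fun x g hg => ?_⟩
  · show IsFractionRing.lift hψinj (algebraMap (holoPart (N := N) ι) _ (algebraMap K _ a)) = _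
    rw [IsFractionRing.lift_algebraMap, hψ, RingHom.comp_apply]
    have h : holoFun ι (algebraMap K (holoPart (N := N) ι) a) = algebraMap ℂ _ (ι a) := by
      refine qL_injective ?_
      rw [qL_holoFun, AlgHom.commutes, algebraMap_laurentSeries_eq_single]
      show coeffMap ι ((algebraMap K (modularFunctionFieldC K N) a : _) : LaurentSeries K) = _
      rw [algebraMap_field_coe, coeffMap_single]
    rw [h]
    exact (χ.commutes _).trans (algebraMap_laurentSeries_eq_single ℂ _)
  · show IsFractionRing.lift hψinj (algebraMap (holoPart (N := N) ι) _ ⟨x, g, hg⟩) = _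
    rw [IsFractionRing.lift_algebraMap, hψ, RingHom.comp_apply]
    have h : holoFun ι ⟨x, g, hg⟩ = g := qL_injective (by rw [qL_holoFun, hg])
    rw [h]
    rfl

/-- The embedding given by an injective expansion of `modFunRing N`. -/
def fieldEmb (ι : K →+* ℂ) (χ : modFunRing N →ₐ[ℂ] LaurentSeries ℂ) (hχ : Function.Injective χ) :
    modularFunctionFieldC K N →+* LaurentSeries ℂ :=
  (exists_emb ι χ hχ).choose

theorem over_fieldEmb (ι : K →+* ℂ) (χ : modFunRing N →ₐ[ℂ] LaurentSeries ℂ)
    (hχ : Function.Injective χ) : Over ι (fieldEmb ι χ hχ) :=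
  (exists_emb ι χ hχ).choose_spec.1

theorem fieldEmb_eq (ι : K →+* ℂ) (χ : modFunRing N →ₐ[ℂ] LaurentSeries ℂ)
    (hχ : Function.Injective χ) {x : modularFunctionFieldC K N} {g : modFunRing N}
    (h : qL N g = coeffMap ι (x : LaurentSeries K)) : fieldEmb ι χ hχ x = χ g :=
  (exists_emb ι χ hχ).choose_spec.2 x g h

theorem fieldEmb_jEl (ι : K →+* ℂ) (χ : modFunRing N →ₐ[ℂ] LaurentSeries ℂ)
    (hχ : Function.Injective χ) : fieldEmb ι χ hχ (jEl K N) = χ ⟨jFun, jFun_mem⟩ :=
  fieldEmb_eq ι χ hχ (by rw [qL_jFun]; exact (coeffMap_jqModC ι).symm)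

theorem fieldEmb_jNEl (ι : K →+* ℂ) (χ : modFunRing N →ₐ[ℂ] LaurentSeries ℂ)
    (hχ : Function.Injective χ) :
    fieldEmb ι χ hχ (jNEl K N) = χ ⟨jMul N, jMul_mem dvd_rfl⟩ :=
  fieldEmb_eq ι χ hχ (by rw [qL_jMul dvd_rfl]; exact (coeffMap_jqNModC ι).symm)

theorem fieldEmb_ext {ι : K →+* ℂ} {φ ψ : modularFunctionFieldC K N →+* LaurentSeries ℂ}
    (hφ : Over ι φ) (hψ : Over ι ψ) (h1 : φ (jEl K N) = ψ (jEl K N))
    (h2 : φ (jNEl K N) = ψ (jNEl K N)) : φ = ψ := by
  refine RingHom.ext fun z => ?_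
  obtain ⟨z, hz⟩ := z
  induction hz using IntermediateField.adjoin_induction with
  | mem x hx =>
      rcases hx with rfl | rfl
      · exact h1
      · exact h2
  | algebraMap a => exact (hφ a).trans (hψ a).symm
  | add x y hx hy ihx ihy =>
      show φ ((⟨x, hx⟩ : modularFunctionFieldC K N) + ⟨y, hy⟩) = ψ (⟨x, hx⟩ + ⟨y, hy⟩)
      rw [map_add, map_add]
      exact congrArg₂ (· + ·) ihx ihy
  | inv x hx ihx =>
      show φ (⟨x, hx⟩ : modularFunctionFieldC K N)⁻¹ = ψ (⟨x, hx⟩)⁻¹
      rw [map_inv₀, map_inv₀]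
      exact congrArg (·⁻¹) ihx
  | mul x y hx hy ihx ihy =>
      show φ ((⟨x, hx⟩ : modularFunctionFieldC K N) * ⟨y, hy⟩) = ψ (⟨x, hx⟩ * ⟨y, hy⟩)
      rw [map_mul, map_mul]
      exact congrArg₂ (· * ·) ihx ihy

end FLTAgent.Genus
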