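import Fermat.Agent.FunctionField.Principal
import Fermat.Agent.ModPoly.Rational
import Fermat.Agent.Genus.FieldEmb

/-!
The modular function field as a function field of degree at most `ψ(N)` over `j`.
-/

set_option autoImplicit false

noncomputable section

open ModularCurve IntermediateField Polynomial

namespace FLTAgent.Genus

open FLTAgent.ModPoly

variable {N : ℕ} [NeZero N] {K : Type*} [Field K]

theorem adjoin_jEl_jNEl :
    IntermediateField.adjoin K ({jEl K N, jNEl K N} : Set (modularFunctionFieldC K N)) = ⊤ := by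
  refine IntermediateField.map_injective (modularFunctionFieldC K N).val ?_
  rw [adjoin_map, ← AlgHom.fieldRange_eq_map, fieldRange_val, Set.image_pair]
  rfl

theorem transcendental_jEl : Transcendental K (jEl K N) := by
  intro h
  obtain ⟨p, hp, hp0⟩ := h
  refine hp (aeval_jqModC_injective K ?_)
  rw [map_zero]
  have := congrArg (modularFunctionFieldC K N).val hp0
  rw [← aeval_algHom_apply, map_zero] at this
  exact this

theorem finite_adjoin_of_relation {F : Type*} [Field F] [Algebra K F] {x y : F}
    (htop : IntermediateField.adjoin K ({x, y} : Set F) = ⊤) {Φ : K[X][X]} (hΦ : Φ.Monic)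
    (h : ev2 x y Φ = 0) :
    FiniteDimensional K⟮x⟯ F ∧ Module.finrank K⟮x⟯ F ≤ Φ.natDegree := by
  set g : K[X] →ₐ[K] K⟮x⟯ := aeval (⟨x, mem_adjoin_simple_self K x⟩ : K⟮x⟯)
  set P := Φ.map (g : K[X] →+* K⟮x⟯) with hP
  have hroot : aeval y P = 0 := by
    rw [hP, aeval_def, eval₂_map]
    have hg : (algebraMap K⟮x⟯ F).comp (g : K[X] →+* K⟮x⟯) =
        ((aeval x : K[X] →ₐ[K] F) : K[X] →+* F) := by
      refine RingHom.ext fun p => ?_
      show (K⟮x⟯.val.comp g) p = aeval x p
      congr 1
      refine Polynomial.algHom_ext ?_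
      simp [g]
    rw [hg]
    exact h
  have hint : IsIntegral K⟮x⟯ y := ⟨P, hΦ.map _, hroot⟩
  have htop' : K⟮x⟯⟮y⟯ = ⊤ := by
    refine IntermediateField.restrictScalars_injective K ?_
    rw [IntermediateField.adjoin_adjoin_left, IntermediateField.restrictScalars_top,
      Set.singleton_union]
    exact htop
  have hfin := IntermediateField.adjoin.finiteDimensional hint
  have hrank := IntermediateField.adjoin.finrank hint
  rw [htop'] at hfin hrank
  rw [IntermediateField.finrank_top'] at hrank
  refine ⟨Module.Finite.equiv IntermediateField.topEquiv.toLinearEquiv, hrank ▸ ?_⟩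
  exact (natDegree_le_of_dvd (minpoly.dvd _ _ hroot) (hΦ.map _).ne_zero).trans natDegree_map_le

theorem finite_adjoin_jEl [Algebra ℚ K] :
    FiniteDimensional K⟮jEl K N⟯ (modularFunctionFieldC K N) ∧
      Module.finrank K⟮jEl K N⟯ (modularFunctionFieldC K N) ≤ dedekindPsi N := by
  have h : ev2 (jEl K N) (jNEl K N) (phiK N K) = 0 := by
    refine (modularFunctionFieldC K N).val.injective ?_
    refine ((map_ev2 (modularFunctionFieldC K N).val _ _ _).trans ?_).trans (map_zero _).symm
    exact ev2_phiK N K
  have := finite_adjoin_of_relation adjoin_jEl_jNEl (phiK_monic N K) h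
  rwa [natDegree_phiK N K] at this

theorem isFunctionField_modularFunctionFieldC [Algebra ℚ K] :
    FunctionField.IsFunctionField K (modularFunctionFieldC K N) :=
  ⟨jEl K N, transcendental_jEl, finite_adjoin_jEl.1⟩

theorem adjoin_sub_eq (a : K) :
    K⟮jEl K N - algebraMap K _ a⟯ = K⟮jEl K N⟯ := by
  apply le_antisymm <;> rw [adjoin_simple_le_iff]
  · exact sub_mem (mem_adjoin_simple_self K _) (IntermediateField.algebraMap_mem _ _)
  · have := add_mem (mem_adjoin_simple_self K (jEl K N - algebraMap K _ a))
      (IntermediateField.algebraMap_mem _ a)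
    rwa [sub_add_cancel] at this

theorem adjoin_inv_eq : K⟮(jEl K N)⁻¹⟯ = K⟮jEl K N⟯ := by
  apply le_antisymm <;> rw [adjoin_simple_le_iff]
  · exact inv_mem (mem_adjoin_simple_self K _)
  · have := inv_mem (mem_adjoin_simple_self K (jEl K N)⁻¹)
    rwa [inv_inv] at this

theorem transcendental_sub (a : K) :
    Transcendental K (jEl K N - algebraMap K _ a) := fun h =>
  transcendental_jEl (K := K) (N := N) <| by simpa using h.add (isAlgebraic_algebraMap a)

theorem transcendental_inv : Transcendental K (jEl K N)⁻¹ := fun h =>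
  transcendental_jEl (K := K) (N := N) <| by simpa using h.inv

end FLTAgent.Genus
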