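import Mathlib.RingTheory.RootsOfUnity.PrimitiveRoots
import Mathlib.GroupTheory.Perm.Cycle.Basic
import Mathlib.Data.Fintype.Quotient
import Fermat.Agent.Genus.EmbPlace

/-!
The places over a point: `n` distinct embeddings into Laurent series, permuted by a rotation,
give all the places, one for each orbit, with ramification index the orbit size.
-/

set_option autoImplicit false

noncomputable section

open AlgebraicCurve

namespace FLTAgent.Genus

/-- `n = #X` embeddings of `F` in `C⸨t⸩` sending `x` to a fixed series of order `m`, permuted by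
the rotation of order `m`. -/
structure RamData {K F C : Type*} [Field K] [Field F] [Algebra K F] [Field C] (ι : K →+* C)
    (x : F) (X : Type*) where
  Φ : X → F →+* LaurentSeries C
  overK : ∀ i, Over ι (Φ i)
  inj : Function.Injective Φ
  ξ : LaurentSeries C
  map_x : ∀ i, Φ i x = ξ
  m : ℕ
  m_pos : 0 < m
  order_ξ : ξ.order = m
  w : Cˣ
  prim : IsPrimitiveRoot w m
  σ : Equiv.Perm X
  equivariant : ∀ i, Φ (σ i) = (rot w).comp (Φ i)

namespace RamData

variable {K F C : Type*} [Field K] [Field F] [Algebra K F] [Field C] {ι : K →+* C}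
  {x : F} {X : Type*} (R : RamData ι x X)

theorem exists_pos (i : X) : ∃ f : F, 0 < (R.Φ i f).order :=
  ⟨x, by rw [R.map_x, R.order_ξ]; exact_mod_cast R.m_pos⟩

include R in
theorem x_ne_zero (i : X) : x ≠ 0 := by
  rintro rfl
  have h := R.order_ξ
  rw [← R.map_x i, map_zero, HahnSeries.order_zero] at h
  have := R.m_pos
  omega

/-- The place induced by the `i`-th embedding. -/
def place (i : X) : Place K F := placeOfEmb (R.Φ i) (R.overK i) (R.exists_pos i)

theorem exists_k (i : X) : ∃ k, Induces (R.Φ i) (R.place i) k :=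
  exists_induces_placeOfEmb _ _ _

/-- The index of the `t`-adic valuation over the induced place. -/
def k (i : X) : ℤ := (R.exists_k i).choose

theorem induces (i : X) : Induces (R.Φ i) (R.place i) (R.k i) := (R.exists_k i).choose_spec

theorem k_mul_ord (i : X) : R.k i * (R.place i).ord x = R.m := by
  rw [← (R.induces i).2, R.map_x, R.order_ξ]

theorem ord_pos (i : X) : 0 < (R.place i).ord x :=
  pos_of_mul_pos_right (by rw [R.k_mul_ord]; exact_mod_cast R.m_pos) (R.induces i).1.le

theorem k_eq_of_place_eq {i i' : X} (h : R.place i' = R.place i) : R.k i' = R.k i := by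
  have h1 := R.k_mul_ord i'
  rw [h, ← R.k_mul_ord i] at h1
  exact mul_right_cancel₀ (R.ord_pos i).ne' h1

theorem pow_apply_Φ (n : ℕ) (i : X) : R.Φ ((R.σ ^ n) i) = (rot (R.w ^ n)).comp (R.Φ i) := by
  induction n with
  | zero => exact RingHom.ext fun f => by simp [rot_one]
  | succ n ih =>
      rw [pow_succ', Equiv.Perm.mul_apply, R.equivariant, ih]
      exact RingHom.ext fun f => by simp [rot_rot, pow_succ']

theorem induces_pow (n : ℕ) (i : X) :
    Induces (R.Φ ((R.σ ^ n) i)) (R.place i) (R.k i) := by
  refine ⟨(R.induces i).1, fun f => ?_⟩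
  rw [R.pow_apply_Φ, RingHom.comp_apply, order_rot, (R.induces i).2]

theorem place_pow (n : ℕ) (i : X) : R.place ((R.σ ^ n) i) = R.place i :=
  placeOfEmb_eq_of_induces (R.induces_pow n i)

theorem ord_dvd (i : X) : (R.place i).ord x ∣ R.m :=
  ⟨R.k i, by rw [mul_comm]; exact (R.k_mul_ord i).symm⟩

variable [CharZero C] (hres : ∀ v : Place K F, HasResidueK v) [Fintype X]

include hres

open Classical in
theorem fibre_eq (i : X) :
    (Finset.univ.filter fun i' => R.place i' = R.place i) =
        (Finset.range ((R.place i).ord x).toNat).image (fun n => (R.σ ^ n) i) ∧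
      ((Finset.univ.filter fun i' => R.place i' = R.place i).card : ℤ) = (R.place i).ord x := by
  set v := R.place i with hv
  set e := (v.ord x).toNat with he
  have hev : v.ord x = e := by rw [he, Int.toNat_of_nonneg (R.ord_pos i).le]
  have he0 : 0 < e := by have := R.ord_pos i; rw [← hv] at this; omega
  obtain ⟨π, hπ0, hπ1⟩ := exists_ord_eq_one v
  obtain ⟨k', hk'⟩ : ∃ k' : ℕ, R.k i = k' :=
    Int.eq_ofNat_of_zero_le (R.induces i).1.le
  have hk0 : 0 < k' := by have := (R.induces i).1; omega
  have hm : k' * e = R.m := by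
    have := R.k_mul_ord i
    rw [← hv, hk', hev] at this
    exact_mod_cast this
  set s := Finset.univ.filter fun i' => R.place i' = v with hs
  set T := (Finset.range e).image (fun n => (R.σ ^ n) i) with hT
  have hsub : T ⊆ s := fun a ha => by
    obtain ⟨n, -, rfl⟩ := Finset.mem_image.mp ha
    exact Finset.mem_filter.mpr ⟨Finset.mem_univ _, R.place_pow n i⟩
  have hTcard : T.card = e := by
    rw [hT, Finset.card_image_of_injOn, Finset.card_range]
    intro a ha b hb hab
    simp only [Finset.coe_range, Set.mem_Iio] at ha hb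
    have h := congrArg (fun y => (R.Φ y π).leadingCoeff) hab
    simp only [R.pow_apply_Φ, RingHom.comp_apply, leadingCoeff_rot, (R.induces i).2, ← hv, hπ1,
      mul_one, hk', zpow_natCast] at h
    have hne : (R.Φ i π).leadingCoeff ≠ 0 :=
      HahnSeries.leadingCoeff_ne_zero.mpr ((map_ne_zero _).mpr hπ0)
    have h' := Units.val_injective (mul_right_cancel₀ hne h)
    rw [← pow_mul, ← pow_mul] at h'
    have hlt : ∀ c : ℕ, c < e → c * k' < R.m := fun c hc => by
      rw [← hm, mul_comm k' e]
      exact Nat.mul_lt_mul_of_pos_right hc hk0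
    exact Nat.eq_of_mul_eq_mul_right hk0 (R.prim.pow_inj (hlt a ha) (hlt b hb) h')
  obtain ⟨c, hc0, hc⟩ := leadingCoeff_pow_uniformizer (hres v) (R.induces i) (R.overK i) hπ0 hπ1
    (R.x_ne_zero i) hev
  have hscard : s.card ≤ e := by
    refine le_trans ?_ (le_trans (Multiset.toFinset_card_le _)
      (Polynomial.card_nthRoots e (R.ξ.leadingCoeff / ι c)))
    refine Finset.card_le_card_of_injOn (fun i' => (R.Φ i' π).leadingCoeff) ?_ ?_
    · intro i' hi'
      simp only [hs, Finset.coe_filter, Finset.mem_univ, true_and, Set.mem_ofPred_eq] at hi'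
      have hind : Induces (R.Φ i') v (R.k i) := by
        have := R.induces i'
        rwa [hi', R.k_eq_of_place_eq hi'] at this
      simp only [Finset.mem_coe, Multiset.mem_toFinset, Polynomial.mem_nthRoots he0]
      rw [eq_div_iff ((map_ne_zero ι).mpr hc0), ← R.map_x i', hc _ (R.overK i') hind]
    · intro a ha b hb hab
      simp only [hs, Finset.coe_filter, Finset.mem_univ, true_and, Set.mem_ofPred_eq] at ha hb
      have hind : ∀ a', R.place a' = v → Induces (R.Φ a') v (R.k i) := fun a' h => by
        have := R.induces a'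
        rwa [h, R.k_eq_of_place_eq h] at this
      exact R.inj (eq_of_leadingCoeff_eq (hres v) (R.overK a) (R.overK b) (hind a ha) (hind b hb)
        hπ0 hπ1 (R.x_ne_zero i) hev he0 (by rw [R.map_x, R.map_x]) hab)
  have heq : T = s := Finset.eq_of_subset_of_card_le hsub (by omega)
  exact ⟨heq.symm, by rw [← heq, hTcard, hev]⟩

theorem place_eq_iff (i i' : X) : R.place i = R.place i' ↔ ∃ n : ℕ, (R.σ ^ n) i = i' := by
  classical
  refine ⟨fun h => ?_, fun ⟨n, hn⟩ => hn ▸ (R.place_pow n i).symm⟩
  have hmem : i' ∈ Finset.univ.filter fun a => R.place a = R.place i :=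
    Finset.mem_filter.mpr ⟨Finset.mem_univ _, h.symm⟩
  rw [(R.fibre_eq hres i).1] at hmem
  obtain ⟨n, -, hn⟩ := Finset.mem_image.mp hmem
  exact ⟨n, hn⟩

theorem ord_eq_one_iff (i : X) : (R.place i).ord x = 1 ↔ R.σ i = i := by
  classical
  constructor
  · intro h
    have hmem : R.σ i ∈ Finset.univ.filter fun a => R.place a = R.place i :=
      Finset.mem_filter.mpr ⟨Finset.mem_univ _, by simpa using R.place_pow 1 i⟩
    rw [(R.fibre_eq hres i).1, h] at hmem
    simpa using hmem
  · intro h
    have hfix : ∀ n : ℕ, (R.σ ^ n) i = i := fun n => by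
      induction n with
      | zero => rfl
      | succ n ih => rw [pow_succ, Equiv.Perm.mul_apply, h, ih]
    have h2 := (R.fibre_eq hres i).2
    rw [(R.fibre_eq hres i).1, show (fun n : ℕ => (R.σ ^ n) i) = fun _ => i from funext hfix,
      Finset.image_const (Finset.nonempty_range_iff.mpr (by have := R.ord_pos i; omega)),
      Finset.card_singleton] at h2
    exact h2.symm

omit hres in
/-- The finite set of places induced by the embeddings. -/
def placesOver : Finset (Place K F) :=
  letI := Classical.decEq (Place K F)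
  Finset.univ.image R.place

theorem sum_ord : ∑ v ∈ R.placesOver, v.ord x = Fintype.card X := by
  classical
  rw [placesOver, ← Finset.card_univ,
    Finset.card_eq_sum_card_image R.place (Finset.univ : Finset X), Nat.cast_sum]
  refine Finset.sum_congr (by congr) fun v hv => ?_
  obtain ⟨i, -, rfl⟩ := Finset.mem_image.mp hv
  exact ((R.fibre_eq hres i).2).symm

variable (hcard : ∀ S : Finset (Place K F), (∀ v ∈ S, 0 < v.ord x) →
  ∑ v ∈ S, v.ord x ≤ Fintype.card X)

include hcard

theorem mem_placesOver_iff (v : Place K F) : v ∈ R.placesOver ↔ 0 < v.ord x := by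
  classical
  constructor
  · intro h
    obtain ⟨i, -, rfl⟩ := Finset.mem_image.mp h
    exact R.ord_pos i
  · intro h
    by_contra hv
    have h1 := hcard (insert v R.placesOver) fun w hw => by
      rcases Finset.mem_insert.mp hw with rfl | hw
      · exact h
      · obtain ⟨i, -, rfl⟩ := Finset.mem_image.mp hw
        exact R.ord_pos i
    rw [Finset.sum_insert hv, R.sum_ord hres] at h1
    omega

theorem exists_place_eq {v : Place K F} (h : 0 < v.ord x) : ∃ i, R.place i = v := by
  classical
  obtain ⟨i, -, hi⟩ := Finset.mem_image.mp ((R.mem_placesOver_iff hres hcard v).mpr h)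
  exact ⟨i, hi⟩

/-- Places over the point correspond to the orbits of the rotation. -/
def orbitEquiv : Quotient (Equiv.Perm.SameCycle.setoid R.σ) ≃ {v : Place K F // 0 < v.ord x} :=
  Equiv.ofBijective
    (Quotient.lift (fun i => (⟨R.place i, R.ord_pos i⟩ : {v : Place K F // 0 < v.ord x}))
      fun a b h => Subtype.ext <| by
        obtain ⟨n, -, hn⟩ := Equiv.Perm.SameCycle.exists_pow_eq' (f := R.σ) (x := a) (y := b) h
        exact hn ▸ (R.place_pow n a).symm)
    ⟨fun a b h => by
      induction a using Quotient.inductionOn with | _ a => ?_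
      induction b using Quotient.inductionOn with | _ b => ?_
      obtain ⟨n, hn⟩ := (R.place_eq_iff hres a b).mp (congrArg Subtype.val h)
      exact Quotient.sound ⟨(n : ℤ), by rw [zpow_natCast]; exact hn⟩,
    fun ⟨v, hv⟩ => by
      obtain ⟨i, hi⟩ := R.exists_place_eq hres hcard hv
      exact ⟨Quotient.mk _ i, Subtype.ext hi⟩⟩

theorem card_placesOver :
    R.placesOver.card = Nat.card (Quotient (Equiv.Perm.SameCycle.setoid R.σ)) := by
  rw [Nat.card_congr (R.orbitEquiv hres hcard),
    Nat.card_congr (Equiv.subtypeEquivRight (fun v => (R.mem_placesOver_iff hres hcard v).symm)),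
    Nat.card_eq_finsetCard]

theorem sum_ord_sub_one :
    ∑ v ∈ R.placesOver, (v.ord x - 1) =
      (Fintype.card X : ℤ) - Nat.card (Quotient (Equiv.Perm.SameCycle.setoid R.σ)) := by
  rw [Finset.sum_sub_distrib, R.sum_ord hres, Finset.sum_const, R.card_placesOver hres hcard]
  simp

omit hcard in
theorem prime_sum_ord_sub_one (hp : R.m.Prime) :
    (R.m : ℤ) * ∑ v ∈ R.placesOver, (v.ord x - 1) =
      ((R.m : ℤ) - 1) * ((Fintype.card X : ℤ) - Nat.card {i // R.σ i = i}) := by
  classical
  have hcases : ∀ i, (R.place i).ord x = 1 ∨ (R.place i).ord x = R.m := fun i => by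
    have h := R.ord_pos i
    obtain ⟨n, hn⟩ := Int.eq_ofNat_of_zero_le h.le
    have hd := R.ord_dvd i
    rw [hn, Int.natCast_dvd_natCast] at hd
    rcases (Nat.dvd_prime hp).mp hd with h1 | h1 <;> simp [hn, h1]
  have hfix : (Nat.card {i // R.σ i = i} : ℤ) =
      ∑ v ∈ R.placesOver, if v.ord x = 1 then (1 : ℤ) else 0 := by
    rw [Finset.sum_boole]
    norm_cast
    rw [Nat.card_eq_fintype_card, Fintype.card_subtype]
    refine Finset.card_bij (fun i _ => R.place i) ?_ ?_ ?_
    · intro i hi
      simp only [Finset.mem_filter, Finset.mem_univ, true_and] at hi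
      simp [placesOver, (R.ord_eq_one_iff hres i).mpr hi]
    · intro a ha b _ hab
      simp only [Finset.mem_filter, Finset.mem_univ, true_and] at ha
      obtain ⟨n, hn⟩ := (R.place_eq_iff hres a b).mp hab
      have hfix : ∀ l : ℕ, (R.σ ^ l) a = a := fun l => by
        induction l with
        | zero => rfl
        | succ l ih => rw [pow_succ, Equiv.Perm.mul_apply, ha, ih]
      rw [← hn, hfix]
    · intro v hv
      simp only [Finset.mem_filter] at hv
      obtain ⟨i, -, rfl⟩ := Finset.mem_image.mp hv.1
      exact ⟨i, by simp [(R.ord_eq_one_iff hres i).mp hv.2], rfl⟩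
  rw [hfix, ← R.sum_ord hres, ← Finset.sum_sub_distrib, Finset.mul_sum, Finset.mul_sum]
  refine Finset.sum_congr rfl fun v hv => ?_
  obtain ⟨i, -, rfl⟩ := Finset.mem_image.mp hv
  rcases hcases i with h | h
  · simp [h]
  · rw [h, if_neg (by exact_mod_cast hp.one_lt.ne')]
    ring

end RamData

end FLTAgent.Genus
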