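import Fermat.Agent.FunctionField.Principal
import Fermat.Agent.Genus.Fibres
import Mathlib.GroupTheory.GroupAction.Defs

/-!
The hypotheses of the fibre theorem in a function field over an algebraically closed field.
-/

set_option autoImplicit false

noncomputable section

open AlgebraicCurve IntermediateField

namespace FLTAgent.Genus

section FunctionField

variable {K F : Type*} [Field K] [Field F] [Algebra K F] [IsAlgClosed K]
  [FunctionField.IsFunctionField K F]

theorem hasResidueK (v : Place K F) : HasResidueK v := by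
  intro u hu
  haveI := FunctionField.finite_residueField v
  haveI : Algebra.IsIntegral K v.ResidueField := Algebra.IsIntegral.of_finite K v.ResidueField
  obtain ⟨c, hc⟩ := (IsAlgClosed.algebraMap_bijective_of_isIntegral (k := K)
    (K := v.ResidueField)).2 (IsLocalRing.residue _ ⟨u, (mem_iff_ord_nonneg v u).mpr hu⟩)
  refine ⟨c, ?_⟩
  rcases eq_or_ne (u - algebraMap K F c) 0 with h | h
  · exact Or.inl (sub_eq_zero.mp h)
  right
  rw [← FunctionField.residue_algebraMap v c] at hc
  have h1 : IsLocalRing.residue v.toValuationSubring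
      (⟨u, (mem_iff_ord_nonneg v u).mpr hu⟩ - algebraMap K v.toValuationSubring c) = 0 := by
    rw [map_sub, sub_eq_zero]
    exact hc.symm
  have h2 := (FunctionField.residue_eq_zero_iff (v := v)).mp h1
  have h3 := FunctionField.OrdGe.le_ord (v := v) h2 (by simpa using h)
  simpa using (show (0 : ℤ) < _ from lt_of_lt_of_le one_pos h3)

theorem sum_ord_le_finrank {x : F} (hx : Transcendental K x) (s : Finset (Place K F))
    (hs : ∀ v ∈ s, 0 < v.ord x) : ∑ v ∈ s, v.ord x ≤ Module.finrank K⟮x⟯ F := by
  refine le_trans ?_ (Nat.cast_le.mpr (FunctionField.sum_ord_mul_deg_le hx s hs))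
  rw [Nat.cast_sum]
  refine Finset.sum_le_sum fun v hv => ?_
  rw [FunctionField.deg_eq_one v, mul_one, Int.toNat_of_nonneg (hs v hv).le]

end FunctionField

section Orbits

variable {G X : Type*} [Group G] [MulAction G X]

theorem sameCycle_toPerm_iff (g : G) (a b : X) :
    Equiv.Perm.SameCycle (MulAction.toPerm g : Equiv.Perm X) a b ↔
      MulAction.orbitRel (Subgroup.zpowers g) X a b := by
  have hpow : ∀ i : ℤ, ((MulAction.toPerm g : Equiv.Perm X) ^ i) a = g ^ i • a := fun i => by
    rw [← MulAction.toPermHom_apply, ← map_zpow]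
    rfl
  rw [MulAction.orbitRel_apply, MulAction.mem_orbit_iff]
  constructor
  · rintro ⟨i, hi⟩
    refine ⟨⟨g ^ (-i), Subgroup.zpow_mem_zpowers g (-i)⟩, ?_⟩
    rw [← hi, hpow, Subgroup.mk_smul, smul_smul, ← zpow_add, neg_add_cancel, zpow_zero, one_smul]
  · rintro ⟨⟨h, hh⟩, rfl⟩
    obtain ⟨i, rfl⟩ := Subgroup.mem_zpowers_iff.mp hh
    refine ⟨-i, ?_⟩
    have := hpow (-i)
    rw [Subgroup.mk_smul] at this ⊢
    rw [← MulAction.toPermHom_apply, ← map_zpow]
    show g ^ (-i) • g ^ i • b = b
    rw [smul_smul, ← zpow_add, neg_add_cancel, zpow_zero, one_smul]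

theorem card_sameCycle_inv (g : G) :
    Nat.card (Quotient (Equiv.Perm.SameCycle.setoid (MulAction.toPerm g⁻¹ : Equiv.Perm X))) =
      Nat.card (MulAction.orbitRel.Quotient (Subgroup.zpowers g) X) :=
  Nat.card_congr <| Quotient.congr (Equiv.refl X) fun a b => by
    show Equiv.Perm.SameCycle _ a b ↔ _
    rw [sameCycle_toPerm_iff, Subgroup.zpowers_inv]
    rfl

theorem card_fixed_inv (g : G) :
    Nat.card {q : X // (MulAction.toPerm g⁻¹ : Equiv.Perm X) q = q} =
      Nat.card {q : X // g • q = q} :=
  Nat.card_congr <| Equiv.subtypeEquivRight fun q => by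
    rw [MulAction.toPerm_apply, inv_smul_eq_iff, eq_comm]

end Orbits

end FLTAgent.Genus
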