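import Fermat.Agent.Dim.Gamma0Cosets
import Fermat.Agent.Genus.EllipticPts
import Fermat.Agent.Genus.Cosets
import Fermat.Agent.Genus.FieldBasic
import Fermat.Agent.Genus.RamHelpers

/-!
The embedding data over `j = a` and over the cusps.
-/

set_option autoImplicit false

noncomputable section

open ModularCurve Complex AlgebraicCurve
open UpperHalfPlane hiding I
open scoped MatrixGroups Manifold

namespace FLTAgent.Genus

open FLTAgent.ModPoly

/-- `j : ℍ → ℂ` is surjective. -/
theorem exists_jFun_eq (a : ℂ) : ∃ z : ℍ, jFun z = a := by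
  by_contra h
  push Not at h
  set y : LaurentSeries ℂ := jqModC ℂ - HahnSeries.C a with hy
  have hcoef : y.coeff (-1) = 1 := by
    rw [hy, HahnSeries.coeff_sub, HahnSeries.C_apply, HahnSeries.coeff_single_of_ne (by norm_num),
      sub_zero]
    simpa using coeff_jqModC_pow_self ℂ 1
  have hy0 : y ≠ 0 := HahnSeries.ne_zero_of_coeff_ne_zero (by rw [hcoef]; exact one_ne_zero)
  have hord : y.order ≤ -1 :=
    HahnSeries.order_le_of_coeff_ne_zero (by rw [hcoef]; exact one_ne_zero)
  have hexp : Expands 1 (jFun - fun _ => a)⁻¹ y⁻¹ :=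
    (expands_jFun.sub (Expands.const 1 a)).inv hy0
  obtain ⟨c, hc⟩ := exists_eq_const_of_bounded (g := (jFun - fun _ => a)⁻¹)
    (by
      have := (mdifferentiable_const (c := (1 : ℂ))).div (mdiff_jFun_sub a)
        fun z => sub_ne_zero.mpr (h z)
      rw [show (jFun - fun _ => a)⁻¹ = (fun _ => (1 : ℂ)) / fun z => jFun z - a from
        funext fun z => by simp]
      exact this)
    (fun γ τ => by simp only [Pi.inv_apply, Pi.sub_apply, jFun_smul])
    (hexp.isBoundedAtImInfty fun k hk =>
      HahnSeries.coeff_eq_zero_of_lt_order (by rw [order_inv']; omega))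
  have h1 : y⁻¹ = HahnSeries.C c := hexp.unique (hc ▸ Expands.const 1 c)
  have h2 := congrArg HahnSeries.order h1
  rw [order_inv', HahnSeries.order_C] at h2
  omega

variable {N : ℕ} [NeZero N]

instance finite_cosets : Finite (Cosets N) :=
  Nat.finite_of_card_ne_zero (by
    rw [← Subgroup.index_eq_card]
    exact Subgroup.FiniteIndex.index_ne_zero)

/-- The cosets form a finite type. -/
instance fintype_cosets : Fintype (Cosets N) := Fintype.ofFinite _

theorem card_cosets : Fintype.card (Cosets N) = dedekindPsi N := by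
  rw [← Nat.card_eq_fintype_card, ← Subgroup.index_eq_card, Dim.index_gamma0]

variable {K : Type*} [Field K] (ι : K →+* ℂ)

theorem over_rot_comp {F : Type*} [Field F] [Algebra K F] {φ : F →+* LaurentSeries ℂ}
    (hφ : Over ι φ) (w : ℂˣ) : Over ι ((rot w).comp φ) := fun a => by
  rw [RingHom.comp_apply, hφ a, rot_single_zero]

theorem diskSeries_sub_const (z₀ : ℍ) (c : ℂ) :
    diskSeries z₀ jFun - HahnSeries.single 0 c = diskSeries z₀ (fun z => jFun z - c) := by
  have h := diskSeries_add z₀ (mdiff_jFun_sub c) (mdifferentiable_const (c := c))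
  rw [diskSeries_const, show ((fun z => jFun z - c) + fun _ => c) = jFun from
    funext fun z => by simp] at h
  rw [h, add_sub_cancel_right]

/-- The data over `j = a`. -/
def pointData (a : K) (z₀ : ℍ) (hz : jFun z₀ = ι a) (γ : SL(2, ℤ)) (hfix : γ • z₀ = z₀)
    (hprim : IsPrimitiveRoot (Units.mk0 (rotNum γ z₀) (rotNum_ne_zero γ z₀)) (jMult (ι a))) :
    RamData ι (jEl K N - algebraMap K (modularFunctionFieldC K N) a) (Cosets N) where
  Φ q := fieldEmb ι (pointHom z₀ q) (pointHom_injective z₀ q)
  overK q := over_fieldEmb ι _ _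
  inj p q h := pointHom_jMul_injective z₀ (by
    have := congrArg (fun φ : modularFunctionFieldC K N →+* _ => φ (jNEl K N)) h
    simpa only [fieldEmb_jNEl] using this)
  ξ := diskSeries z₀ fun z => jFun z - ι a
  map_x q := by
    rw [map_sub, fieldEmb_jEl, over_fieldEmb ι _ _ a, pointHom_jFun, diskSeries_sub_const]
  m := jMult (ι a)
  m_pos := jMult_pos _
  order_ξ := by
    rw [← hz]
    exact order_diskSeries_jFun_sub z₀
  w := _
  prim := hprim
  σ := MulAction.toPerm γ⁻¹
  equivariant q := by
    refine fieldEmb_ext (over_fieldEmb ι _ _) (over_rot_comp ι (over_fieldEmb ι _ _) _) ?_ ?_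
    · rw [RingHom.comp_apply, fieldEmb_jEl, fieldEmb_jEl, MulAction.toPerm_apply,
        pointHom_inv_smul hfix]
    · rw [RingHom.comp_apply, fieldEmb_jNEl, fieldEmb_jNEl, MulAction.toPerm_apply,
        pointHom_inv_smul hfix]

theorem order_qExpand_jqModC (N : ℕ) [NeZero N] :
    (qExpand ℂ N (jqModC ℂ)).order = -(N : ℤ) := by
  have h1 : (qExpand ℂ N (jqModC ℂ)).coeff (-(N : ℤ)) = 1 := by
    rw [show -(N : ℤ) = (N : ℤ) * (-1) by ring, qExpand_coeff_mul]
    simpa using coeff_jqModC_pow_self ℂ 1
  refine le_antisymm (HahnSeries.order_le_of_coeff_ne_zero (by rw [h1]; exact one_ne_zero))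
    ((HahnSeries.le_order_iff_forall
      (HahnSeries.ne_zero_of_coeff_ne_zero (by rw [h1]; exact one_ne_zero))).mpr fun m hm => ?_)
  by_cases hd : (N : ℤ) ∣ m
  · obtain ⟨c, rfl⟩ := hd
    rw [qExpand_coeff_mul]
    have := coeff_jqModC_pow_of_lt ℂ (b := 1) (m := c)
      (by have := Int.natCast_nonneg N; push_cast; nlinarith)
    simpa using this
  · exact qExpand_coeff_of_not_dvd N _ hd

/-- The data over the cusps. -/
def cuspData : RamData ι (jEl K N)⁻¹ (Cosets N) where
  Φ q := fieldEmb ι (cuspHom q) (cuspHom_injective q)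
  overK q := over_fieldEmb ι _ _
  inj p q h := cuspHom_jMul_injective (by
    have := congrArg (fun φ : modularFunctionFieldC K N →+* _ => φ (jNEl K N)) h
    simpa only [fieldEmb_jNEl] using this)
  ξ := (qExpand ℂ N (jqModC ℂ))⁻¹
  map_x q := by rw [map_inv₀, fieldEmb_jEl, cuspHom_jFun]
  m := N
  m_pos := Nat.pos_of_ne_zero (NeZero.ne N)
  order_ξ := by rw [order_inv', order_qExpand_jqModC, neg_neg]
  w := zetaC N
  prim := isPrimitiveRoot_zetaC N
  σ := MulAction.toPerm ModularGroup.T⁻¹
  equivariant q := by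
    refine fieldEmb_ext (over_fieldEmb ι _ _) (over_rot_comp ι (over_fieldEmb ι _ _) _) ?_ ?_
    · rw [RingHom.comp_apply, fieldEmb_jEl, fieldEmb_jEl, MulAction.toPerm_apply,
        cuspHom_inv_smul]
    · rw [RingHom.comp_apply, fieldEmb_jNEl, fieldEmb_jNEl, MulAction.toPerm_apply,
        cuspHom_inv_smul]

section

variable [IsAlgClosed K] [Algebra ℚ K]

theorem hasResidueK_modular (v : Place K (modularFunctionFieldC K N)) : HasResidueK v :=
  haveI := isFunctionField_modularFunctionFieldC (K := K) (N := N)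
  hasResidueK v

theorem sum_ord_le_card (a : K) (S : Finset (Place K (modularFunctionFieldC K N)))
    (hS : ∀ v ∈ S, 0 < v.ord (jEl K N - algebraMap K _ a)) :
    ∑ v ∈ S, v.ord (jEl K N - algebraMap K _ a) ≤ Fintype.card (Cosets N) := by
  haveI := isFunctionField_modularFunctionFieldC (K := K) (N := N)
  refine le_trans (sum_ord_le_finrank (transcendental_sub a) S hS) ?_
  rw [card_cosets, adjoin_sub_eq]
  exact_mod_cast finite_adjoin_jEl.2

theorem sum_ord_inv_le_card (S : Finset (Place K (modularFunctionFieldC K N)))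
    (hS : ∀ v ∈ S, 0 < v.ord (jEl K N)⁻¹) :
    ∑ v ∈ S, v.ord (jEl K N)⁻¹ ≤ Fintype.card (Cosets N) := by
  haveI := isFunctionField_modularFunctionFieldC (K := K) (N := N)
  refine le_trans (sum_ord_le_finrank transcendental_inv S hS) ?_
  rw [card_cosets, adjoin_inv_eq]
  exact_mod_cast finite_adjoin_jEl.2

end

end FLTAgent.Genus
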