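import Fermat.Agent.Genus.Points

/-!
The places of the modular function field above `j = a` and above the cusps.
-/

set_option autoImplicit false

noncomputable section

open ModularCurve Complex AlgebraicCurve IntermediateField
open UpperHalfPlane hiding I
open scoped MatrixGroups

namespace FLTAgent.Genus

open FLTAgent.ModPoly

variable {N : ℕ} [NeZero N] {K : Type*} [Field K]

theorem exists_pointData (ι : K →+* ℂ) (a : K) :
    ∃ R : RamData ι (jEl K N - algebraMap K (modularFunctionFieldC K N) a) (Cosets N),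
      R.m = jMult (ι a) ∧
      (ι a = 0 → Nat.card {q : Cosets N // R.σ q = q} = nuThree N) ∧
      (ι a = 1728 → Nat.card {q : Cosets N // R.σ q = q} = nuTwo N) := by
  by_cases h0 : ι a = 0
  · refine ⟨pointData ι a UpperHalfPlane.ρ (by rw [h0, jFun_rho]) _ rho_fix (by
        rw [h0, show jMult (0 : ℂ) = 3 by simp [jMult]]
        exact isPrimitiveRoot_rot_ST), rfl, fun _ => ?_, fun h => ?_⟩
    · exact (card_fixed_inv _).trans (Dim.card_fixed_ST N)
    · rw [h0] at h
      norm_num at h
  by_cases h1 : ι a = 1728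
  · refine ⟨pointData ι a UpperHalfPlane.I (by rw [h1, jFun_I]) _ I_fix (by
        rw [h1, show jMult (1728 : ℂ) = 2 by simp [jMult]]
        exact isPrimitiveRoot_rot_S), rfl, fun h => absurd h h0, fun _ => ?_⟩
    exact (card_fixed_inv _).trans (Dim.card_fixed_S N)
  obtain ⟨z, hz⟩ := exists_jFun_eq (ι a)
  refine ⟨pointData ι a z hz 1 (one_smul _ _) ?_, rfl, fun h => absurd h h0, fun h => absurd h h1⟩
  rw [show jMult (ι a) = 1 by simp [jMult, h0, h1]]
  exact IsPrimitiveRoot.one_right_iff.mpr (Units.ext (by simp [rotNum]))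

variable [IsAlgClosed K] [Algebra ℚ K]

/-- Chosen data over `j = a`. -/
def pointRam (ι : K →+* ℂ) (a : K) :
    RamData ι (jEl K N - algebraMap K (modularFunctionFieldC K N) a) (Cosets N) :=
  (exists_pointData ι a).choose

theorem mem_pointPlaces (ι : K →+* ℂ) (a : K) (v : Place K (modularFunctionFieldC K N)) :
    v ∈ (pointRam ι a).placesOver ↔ 0 < v.ord (jEl K N - algebraMap K _ a) :=
  (pointRam ι a).mem_placesOver_iff hasResidueK_modular (sum_ord_le_card a) v

theorem mem_cuspPlaces (ι : K →+* ℂ) (v : Place K (modularFunctionFieldC K N)) :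
    v ∈ (cuspData ι).placesOver ↔ 0 < v.ord (jEl K N)⁻¹ :=
  (cuspData ι).mem_placesOver_iff hasResidueK_modular sum_ord_inv_le_card v

theorem sum_zero_places (ι : K →+* ℂ) :
    3 * ∑ v ∈ (pointRam (N := N) ι 0).placesOver, (v.ord (jEl K N - algebraMap K _ (0 : K)) - 1) =
      2 * ((dedekindPsi N : ℤ) - nuThree N) := by
  obtain ⟨hm, hfix, -⟩ := (exists_pointData (N := N) ι 0).choose_spec
  have h3 : jMult (ι 0) = 3 := by simp [jMult]
  have := (pointRam (N := N) ι 0).prime_sum_ord_sub_one hasResidueK_modular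
    (by rw [show (pointRam (N := N) ι 0).m = 3 from hm.trans h3]; exact Nat.prime_three)
  rw [show (pointRam (N := N) ι 0).m = 3 from hm.trans h3, card_cosets] at this
  rw [show Nat.card {q : Cosets N // (pointRam (N := N) ι 0).σ q = q} = nuThree N from
    hfix (map_zero ι)] at this
  simpa using this

theorem sum_1728_places (ι : K →+* ℂ) :
    2 * ∑ v ∈ (pointRam (N := N) ι 1728).placesOver,
        (v.ord (jEl K N - algebraMap K _ (1728 : K)) - 1) =
      (dedekindPsi N : ℤ) - nuTwo N := by
  obtain ⟨hm, -, hfix⟩ := (exists_pointData (N := N) ι 1728).choose_spec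
  have h2 : jMult (ι 1728) = 2 := by simp [jMult, map_ofNat]
  have := (pointRam (N := N) ι 1728).prime_sum_ord_sub_one hasResidueK_modular
    (by rw [show (pointRam (N := N) ι 1728).m = 2 from hm.trans h2]; exact Nat.prime_two)
  rw [show (pointRam (N := N) ι 1728).m = 2 from hm.trans h2, card_cosets] at this
  rw [show Nat.card {q : Cosets N // (pointRam (N := N) ι 1728).σ q = q} = nuTwo N from
    hfix (map_ofNat ι 1728)] at this
  simpa using this

theorem card_cusp_places (ι : K →+* ℂ) :
    (cuspData (N := N) ι).placesOver.card = cuspCount N := by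
  rw [(cuspData (N := N) ι).card_placesOver hasResidueK_modular sum_ord_inv_le_card]
  exact (card_sameCycle_inv _).trans (Dim.card_T_orbits N)

theorem sum_cusp_places (ι : K →+* ℂ) :
    ∑ v ∈ (cuspData (N := N) ι).placesOver, (-(v.ord (jEl K N)⁻¹ + 1)) =
      -((dedekindPsi N : ℤ) + cuspCount N) := by
  rw [Finset.sum_neg_distrib, Finset.sum_add_distrib, (cuspData ι).sum_ord hasResidueK_modular,
    card_cosets, Finset.sum_const, card_cusp_places]
  simp

/-- Outside `0`, `1728` nothing is ramified. -/
theorem ord_eq_one_of_ne (ι : K →+* ℂ) {a : K} (h0 : a ≠ 0) (h1 : a ≠ 1728)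
    {v : Place K (modularFunctionFieldC K N)} (hv : 0 < v.ord (jEl K N - algebraMap K _ a)) :
    v.ord (jEl K N - algebraMap K _ a) = 1 := by
  obtain ⟨i, hi⟩ := (pointRam ι a).exists_place_eq hasResidueK_modular (sum_ord_le_card a) hv
  have hm : (pointRam (N := N) ι a).m = 1 := by
    rw [show (pointRam (N := N) ι a).m = jMult (ι a) from (exists_pointData ι a).choose_spec.1]
    unfold jMult
    rw [if_neg (fun h => h0 ((map_eq_zero ι).mp h)),
      if_neg (fun h => h1 (ι.injective (h.trans (map_ofNat ι 1728).symm)))]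
  have hd := (pointRam ι a).ord_dvd i
  rw [hi, hm] at hd
  exact Int.eq_one_of_dvd_one hv.le hd

theorem place_cases (v : Place K (modularFunctionFieldC K N)) :
    0 < v.ord (jEl K N)⁻¹ ∨ ∃ a : K, 0 < v.ord (jEl K N - algebraMap K _ a) := by
  rcases lt_or_ge (v.ord (jEl K N)) 0 with h | h
  · exact Or.inl (by rw [v.ord_inv]; omega)
  · obtain ⟨c, hc | hc⟩ := hasResidueK_modular v _ h
    · exact absurd (hc ▸ isAlgebraic_algebraMap c) transcendental_jEl
    · exact Or.inr ⟨c, hc⟩

end FLTAgent.Genus
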