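import Mathlib.NumberTheory.ModularForms.SlashActions
import Mathlib.Analysis.Complex.UpperHalfPlane.Manifold
import Fermat.Agent.ModPoly.Expands
import Fermat.Agent.Genus.LaurentOps

/-!
Expansion of a holomorphic function on `ℍ` in the disc coordinate `(z - z₀) / (z - conj z₀)`.
-/

set_option autoImplicit false

noncomputable section

open Complex Filter
open UpperHalfPlane hiding I
open scoped Manifold MatrixGroups Topology ComplexConjugate

namespace FLTAgent.Genus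

/-- The inverse of the disc coordinate at `z₀`. -/
def diskPoint (z₀ : ℍ) (t : ℂ) : ℂ := ((z₀ : ℂ) - t * conj (z₀ : ℂ)) / (1 - t)

theorem diskPoint_zero (z₀ : ℍ) : diskPoint z₀ 0 = z₀ := by simp [diskPoint]

theorem one_sub_ne_zero {t : ℂ} (ht : t ∈ Metric.ball (0 : ℂ) 1) : 1 - t ≠ 0 := fun h => by
  rw [Metric.mem_ball, dist_zero_right, ← sub_eq_zero.mp h, norm_one] at ht
  exact lt_irrefl _ ht

theorem diskPoint_im_pos (z₀ : ℍ) {t : ℂ} (ht : t ∈ Metric.ball (0 : ℂ) 1) :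
    0 < (diskPoint z₀ t).im := by
  have hne := Complex.normSq_pos.mpr (one_sub_ne_zero ht)
  have ht' : t.re * t.re + t.im * t.im < 1 := by
    rw [← Complex.normSq_apply, Complex.normSq_eq_norm_sq]
    rw [Metric.mem_ball, dist_zero_right] at ht
    nlinarith [norm_nonneg t]
  rw [diskPoint, Complex.div_im, ← sub_div]
  refine div_pos ?_ hne
  simp only [sub_im, sub_re, mul_im, mul_re, conj_re, conj_im, one_re, one_im, coe_re, coe_im]
  nlinarith [mul_pos z₀.im_pos (sub_pos.mpr ht')]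

theorem differentiableOn_diskPoint (z₀ : ℍ) :
    DifferentiableOn ℂ (diskPoint z₀) (Metric.ball 0 1) :=
  DifferentiableOn.div (by fun_prop) (by fun_prop) fun _ ht => one_sub_ne_zero ht

theorem hasDerivAt_diskPoint_zero (z₀ : ℍ) :
    HasDerivAt (diskPoint z₀) ((z₀ : ℂ) - conj (z₀ : ℂ)) 0 := by
  have h1 : HasDerivAt (fun t : ℂ => (z₀ : ℂ) - t * conj (z₀ : ℂ)) (-conj (z₀ : ℂ)) 0 := by
    simpa using ((hasDerivAt_id (0 : ℂ)).mul_const (conj (z₀ : ℂ))).const_sub (z₀ : ℂ)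
  have h2 : HasDerivAt (fun t : ℂ => 1 - t) (-1) 0 := by
    simpa using (hasDerivAt_id (0 : ℂ)).const_sub 1
  refine (h1.div h2 (by simp)).congr_deriv ?_
  simp
  ring

theorem exists_diskPoint_eq (z₀ z : ℍ) :
    ∃ t ∈ Metric.ball (0 : ℂ) 1, diskPoint z₀ t = z := by
  have hne : (z : ℂ) - conj (z₀ : ℂ) ≠ 0 := fun h => by
    have := congrArg Complex.im h
    simp only [sub_im, conj_im, coe_im, zero_im] at this
    linarith [z.im_pos, z₀.im_pos]
  refine ⟨((z : ℂ) - z₀) / ((z : ℂ) - conj (z₀ : ℂ)), ?_, ?_⟩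
  · rw [Metric.mem_ball, dist_zero_right, norm_div, div_lt_one (norm_pos_iff.mpr hne),
      Complex.norm_def, Complex.norm_def]
    apply Real.sqrt_lt_sqrt (Complex.normSq_nonneg _)
    simp only [Complex.normSq_apply, sub_re, sub_im, conj_re, conj_im, coe_re, coe_im]
    nlinarith [mul_pos z.im_pos z₀.im_pos]
  · have hd : (z₀ : ℂ) - conj (z₀ : ℂ) ≠ 0 := fun h => by
      have := congrArg Complex.im h
      simp only [sub_im, conj_im, coe_im, zero_im] at this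
      linarith [z₀.im_pos]
    rw [diskPoint]
    field_simp
    rw [div_eq_iff (by simpa using hd)]
    ring

/-- `g` in the disc coordinate at `z₀`. -/
def diskPull (z₀ : ℍ) (g : ℍ → ℂ) : ℂ → ℂ := fun t => (g ∘ ofComplex) (diskPoint z₀ t)

theorem diskPull_zero (z₀ : ℍ) (g : ℍ → ℂ) : diskPull z₀ g 0 = g z₀ := by
  simp [diskPull, diskPoint_zero]

theorem differentiableOn_diskPull (z₀ : ℍ) {g : ℍ → ℂ} (hg : MDiff g) :
    DifferentiableOn ℂ (diskPull z₀ g) (Metric.ball 0 1) :=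
  (UpperHalfPlane.mdifferentiable_iff.mp hg).comp (differentiableOn_diskPoint z₀)
    fun _ ht => diskPoint_im_pos z₀ ht

theorem analyticAt_diskPull (z₀ : ℍ) {g : ℍ → ℂ} (hg : MDiff g) :
    AnalyticAt ℂ (diskPull z₀ g) 0 :=
  (differentiableOn_diskPull z₀ hg).analyticAt (Metric.ball_mem_nhds 0 one_pos)

/-- The expansion of `g` in the disc coordinate at `z₀`. -/
def diskSeries (z₀ : ℍ) (g : ℍ → ℂ) : LaurentSeries ℂ :=
  HahnSeries.ofPowerSeries ℤ ℂ (ModPoly.taylorPS (diskPull z₀ g))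

theorem diskSeries_const (z₀ : ℍ) (c : ℂ) :
    diskSeries z₀ (fun _ => c) = HahnSeries.single 0 c := by
  rw [diskSeries, show diskPull z₀ (fun _ => c) = fun _ => c from rfl, ModPoly.taylorPS_const,
    HahnSeries.ofPowerSeries_C]
  rfl

theorem diskSeries_add (z₀ : ℍ) {f g : ℍ → ℂ} (hf : MDiff f) (hg : MDiff g) :
    diskSeries z₀ (f + g) = diskSeries z₀ f + diskSeries z₀ g := by
  rw [diskSeries, show diskPull z₀ (f + g) = diskPull z₀ f + diskPull z₀ g from rfl,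
    ModPoly.taylorPS_add (analyticAt_diskPull z₀ hf) (analyticAt_diskPull z₀ hg), map_add]
  rfl

theorem diskSeries_mul (z₀ : ℍ) {f g : ℍ → ℂ} (hf : MDiff f) (hg : MDiff g) :
    diskSeries z₀ (f * g) = diskSeries z₀ f * diskSeries z₀ g := by
  rw [diskSeries, show diskPull z₀ (f * g) = diskPull z₀ f * diskPull z₀ g from rfl,
    ModPoly.taylorPS_mul (analyticAt_diskPull z₀ hf) (analyticAt_diskPull z₀ hg), map_mul]
  rfl

theorem eq_zero_of_diskSeries_eq_zero (z₀ : ℍ) {g : ℍ → ℂ} (hg : MDiff g)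
    (h : diskSeries z₀ g = 0) : g = 0 := by
  have h0 : ModPoly.taylorPS (diskPull z₀ g) = 0 :=
    HahnSeries.ofPowerSeries_injective (h.trans (map_zero _).symm)
  have key := ((differentiableOn_diskPull z₀ hg).analyticOnNhd Metric.isOpen_ball)
    |>.eqOn_zero_of_preconnected_of_eventuallyEq_zero (convex_ball (0 : ℂ) 1).isPreconnected
      (Metric.mem_ball_self one_pos)
      (ModPoly.eq_zero_of_taylorPS_eq_zero (analyticAt_diskPull z₀ hg) h0)
  funext z
  obtain ⟨t, ht, htz⟩ := exists_diskPoint_eq z₀ z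
  have := key ht
  simpa [diskPull, htz] using this

/-- The disc expansion as an algebra map on an algebra of holomorphic functions. -/
def diskHom (A : Subalgebra ℂ (ℍ → ℂ)) (hA : ∀ g ∈ A, MDiff g) (z₀ : ℍ) :
    A →ₐ[ℂ] LaurentSeries ℂ where
  toFun g := diskSeries z₀ g
  map_one' := by
    show diskSeries z₀ (fun _ => (1 : ℂ)) = 1
    rw [diskSeries_const]
    rfl
  map_mul' f g := diskSeries_mul z₀ (hA _ f.2) (hA _ g.2)
  map_zero' := by
    show diskSeries z₀ (fun _ => (0 : ℂ)) = 0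
    rw [diskSeries_const, HahnSeries.single_eq_zero]
  map_add' f g := diskSeries_add z₀ (hA _ f.2) (hA _ g.2)
  commutes' c := by
    show diskSeries z₀ (fun _ => c) = _
    rw [diskSeries_const, ModularCurve.algebraMap_laurentSeries_eq_single]

theorem diskHom_apply (A : Subalgebra ℂ (ℍ → ℂ)) (hA : ∀ g ∈ A, MDiff g) (z₀ : ℍ) (g : A) :
    diskHom A hA z₀ g = diskSeries z₀ g := rfl

theorem diskHom_injective (A : Subalgebra ℂ (ℍ → ℂ)) (hA : ∀ g ∈ A, MDiff g) (z₀ : ℍ) :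
    Function.Injective (diskHom A hA z₀) :=
  (injective_iff_map_eq_zero _).mpr fun g hg =>
    Subtype.ext (eq_zero_of_diskSeries_eq_zero z₀ (hA _ g.2) hg)

/-- The rotation number at `z₀` of a matrix fixing `z₀`. -/
def rotNum (γ : SL(2, ℤ)) (z₀ : ℍ) : ℂ :=
  ((γ 1 0 : ℂ) * conj (z₀ : ℂ) + γ 1 1) / ((γ 1 0 : ℂ) * z₀ + γ 1 1)

theorem denom_int_ne_zero (γ : SL(2, ℤ)) (z₀ : ℍ) : (γ 1 0 : ℂ) * z₀ + γ 1 1 ≠ 0 := by
  simpa [ModularGroup.denom_apply] using UpperHalfPlane.denom_ne_zero γ z₀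

theorem rotNum_ne_zero (γ : SL(2, ℤ)) (z₀ : ℍ) : rotNum γ z₀ ≠ 0 := by
  refine div_ne_zero (fun h => denom_int_ne_zero γ z₀ ?_) (denom_int_ne_zero γ z₀)
  have := congrArg conj h
  simpa [map_add, map_mul] using this

theorem norm_rotNum (γ : SL(2, ℤ)) (z₀ : ℍ) : ‖rotNum γ z₀‖ = 1 := by
  rw [rotNum, norm_div, ← Complex.norm_conj, map_add, map_mul, conj_conj, map_intCast,
    map_intCast, div_self (norm_ne_zero_iff.mpr (denom_int_ne_zero γ z₀))]

theorem smul_diskPoint {γ : SL(2, ℤ)} {z₀ : ℍ} (hfix : γ • z₀ = z₀) {t : ℂ}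
    (ht : t ∈ Metric.ball (0 : ℂ) 1) :
    ((γ • (⟨diskPoint z₀ t, diskPoint_im_pos z₀ ht⟩ : ℍ) : ℍ) : ℂ) =
      diskPoint z₀ (rotNum γ z₀ * t) := by
  have hd := denom_int_ne_zero γ z₀
  have hnum : (γ 0 0 : ℂ) * z₀ + γ 0 1 = z₀ * ((γ 1 0 : ℂ) * z₀ + γ 1 1) := by
    have h := congrArg (fun w : ℍ => (w : ℂ)) hfix
    simp only [UpperHalfPlane.coe_specialLinearGroup_apply] at h
    simp at h
    rw [div_eq_iff (by simpa [mul_comm] using hd)] at h
    linear_combination h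
  have hnum' : (γ 0 0 : ℂ) * conj (z₀ : ℂ) + γ 0 1 =
      conj (z₀ : ℂ) * ((γ 1 0 : ℂ) * conj (z₀ : ℂ) + γ 1 1) := by
    simpa using congrArg conj hnum
  have ht' : rotNum γ z₀ * t ∈ Metric.ball (0 : ℂ) 1 := by
    simpa [norm_rotNum] using ht
  have hd' : (γ 1 0 : ℂ) * diskPoint z₀ t + γ 1 1 ≠ 0 :=
    denom_int_ne_zero γ ⟨diskPoint z₀ t, diskPoint_im_pos z₀ ht⟩
  rw [UpperHalfPlane.coe_specialLinearGroup_apply]
  simp only [algebraMap_int_eq, eq_intCast, ofReal_intCast]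
  show ((γ 0 0 : ℂ) * diskPoint z₀ t + γ 0 1) / ((γ 1 0 : ℂ) * diskPoint z₀ t + γ 1 1) = _
  have h1 := one_sub_ne_zero ht
  have h2 := one_sub_ne_zero ht'
  have he1 : diskPoint z₀ t * (1 - t) = (z₀ : ℂ) - t * conj (z₀ : ℂ) := div_mul_cancel₀ _ h1
  have he2 : rotNum γ z₀ * ((γ 1 0 : ℂ) * z₀ + γ 1 1) = (γ 1 0 : ℂ) * conj (z₀ : ℂ) + γ 1 1 :=
    div_mul_cancel₀ _ hd
  have he3 : diskPoint z₀ (rotNum γ z₀ * t) * (1 - rotNum γ z₀ * t) =
      (z₀ : ℂ) - rotNum γ z₀ * t * conj (z₀ : ℂ) := div_mul_cancel₀ _ h2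
  rw [div_eq_iff hd']
  refine mul_right_cancel₀ h1 (mul_right_cancel₀ h2 ?_)
  linear_combination (γ 0 0 - diskPoint z₀ (rotNum γ z₀ * t) * γ 1 0 : ℂ) *
      (1 - rotNum γ z₀ * t) * he1
    + (1 - rotNum γ z₀ * t) * hnum - t * (1 - rotNum γ z₀ * t) * hnum'
    - ((γ 1 0 : ℂ) * z₀ + γ 1 1 - t * ((γ 1 0 : ℂ) * conj (z₀ : ℂ) + γ 1 1)) * he3
    + t * (conj (z₀ : ℂ) - z₀) * he2

theorem diskSeries_smul {γ : SL(2, ℤ)} {z₀ : ℍ} (hfix : γ • z₀ = z₀) {g : ℍ → ℂ}
    (hg : MDiff g) :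
    diskSeries z₀ (fun z => g (γ • z)) =
      rot (Units.mk0 (rotNum γ z₀) (rotNum_ne_zero γ z₀)) (diskSeries z₀ g) := by
  set w := rotNum γ z₀
  set F := diskPull z₀ g with hF
  have hev : diskPull z₀ (fun z => g (γ • z)) =ᶠ[𝓝 0] fun t => F (w * t) := by
    filter_upwards [Metric.ball_mem_nhds (0 : ℂ) one_pos] with t ht
    simp only [hF, diskPull, Function.comp_apply]
    rw [← smul_diskPoint hfix ht, ofComplex_apply, ofComplex_apply_of_im_pos (diskPoint_im_pos z₀ ht)]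
  obtain ⟨-, hps⟩ := ModPoly.taylorPS_eq_of_eventually_hasSum
    (p := PowerSeries.mk fun n => w ^ n * (ModPoly.taylorPS F).coeff n) (F := fun t => F (w * t))
    (by
      have hc : Tendsto (fun t : ℂ => w * t) (𝓝 0) (𝓝 0) := by
        simpa using (continuous_const_mul w).tendsto 0
      filter_upwards [hc.eventually (ModPoly.eventually_hasSum_taylorPS (analyticAt_diskPull z₀ hg))]
        with q hq
      refine hq.congr_fun fun n => ?_
      rw [PowerSeries.coeff_mk, mul_pow]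
      ring)
  ext i
  rw [diskSeries, ModPoly.taylorPS_congr hev, hps, rot_coeff, diskSeries, ← hF]
  rcases le_or_gt 0 i with hi | hi
  · obtain ⟨n, rfl⟩ := Int.eq_ofNat_of_zero_le hi
    rw [HahnSeries.ofPowerSeries_apply_coeff, HahnSeries.ofPowerSeries_apply_coeff,
      PowerSeries.coeff_mk, zpow_natCast, Units.val_pow_eq_pow_val, Units.val_mk0]
  · rw [ModularCurve.ofPowerSeries_coeff_of_neg _ hi, ModularCurve.ofPowerSeries_coeff_of_neg _ hi,
      mul_zero]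

end FLTAgent.Genus
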