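import Mathlib.FieldTheory.Separable
import Mathlib.RingTheory.Kaehler.Basic
import Fermat.Prelude.Def_AlgebraicCurve_CanonicalDivisor
import Fermat.Agent.Genus.EmbPlace

/-!
Order of `dx` at a place induced by an embedding into Laurent series.
-/

set_option autoImplicit false

noncomputable section

open AlgebraicCurve KaehlerDifferential IntermediateField

namespace FLTAgent.Genus

variable {K F : Type*} [Field K] [Field F] [Algebra K F]

/-- In characteristic zero `d x` spans the differentials of a field algebraic over `K(x)`. -/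
theorem span_D_eq_top [CharZero K] (x : F) [Algebra.IsAlgebraic K⟮x⟯ F] :
    Submodule.span F {D K F x} = ⊤ := by
  set W := Submodule.span F {D K F x} with hW
  let S : IntermediateField K F :=
    { carrier := {y | D K F y ∈ W}
      zero_mem' := by simp
      one_mem' := by simp
      add_mem' := fun {a b} ha hb => by simpa using W.add_mem ha hb
      mul_mem' := fun {a b} ha hb => by
        simpa [Derivation.leibniz] using W.add_mem (W.smul_mem a hb) (W.smul_mem b ha)
      algebraMap_mem' := fun a => by simp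
      inv_mem' := fun a ha => by
        show D K F a⁻¹ ∈ W
        rw [Derivation.leibniz_inv]
        exact W.smul_mem _ ha }
  have hx : K⟮x⟯ ≤ S := adjoin_simple_le_iff.mpr (Submodule.subset_span rfl)
  refine top_le_iff.mp (le_of_eq_of_le (KaehlerDifferential.span_range_derivation K F).symm ?_)
  rw [Submodule.span_le]
  rintro _ ⟨y, rfl⟩
  have hy : IsIntegral K⟮x⟯ y := (Algebra.IsAlgebraic.isAlgebraic y).isIntegral
  set P := (minpoly K⟮x⟯ y).map (algebraMap K⟮x⟯ F) with hP
  have hroot : P.eval y = 0 := by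
    rw [hP, Polynomial.eval_map, ← Polynomial.aeval_def, minpoly.aeval]
  have hsep : P.derivative.eval y ≠ 0 := by
    haveI : CharZero K⟮x⟯ := charZero_of_injective_algebraMap (algebraMap K K⟮x⟯).injective
    rw [hP, Polynomial.derivative_map, Polynomial.eval_map, ← Polynomial.aeval_def]
    exact (minpoly.irreducible hy).separable.aeval_derivative_ne_zero (minpoly.aeval _ _)
  have key : ∀ Q : Polynomial F, (∀ n, Q.coeff n ∈ S) →
      D K F (Q.eval y) - Q.derivative.eval y • D K F y ∈ W := by
    intro Q hQ
    have hterm : ∀ n, D K F (Q.coeff n * y ^ n) - (Q.coeff n * n * y ^ (n - 1)) • D K F y ∈ W := by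
      intro n
      rw [Derivation.leibniz, Derivation.leibniz_pow, ← Nat.cast_smul_eq_nsmul F, smul_smul,
        smul_smul, add_sub_cancel_left]
      exact W.smul_mem _ (hQ n)
    rw [Polynomial.eval_eq_sum_range, Polynomial.derivative_eval,
      Polynomial.sum_over_range _ (fun n => by simp), map_sum, Finset.sum_smul,
      ← Finset.sum_sub_distrib]
    exact W.sum_mem fun n _ => hterm n
  have hc : ∀ n, P.coeff n ∈ S := fun n => by
    rw [hP, Polynomial.coeff_map]
    exact hx ((minpoly K⟮x⟯ y).coeff n).2
  have := key P hc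
  rw [hroot, map_zero, zero_sub, Submodule.neg_mem_iff] at this
  exact (Submodule.smul_mem_iff W hsep).mp this

theorem exists_dCoord_eq (v : Place K F) :
    ∃ π : F, v.ord π = 1 ∧ v.dCoord = D K F π :=
  ⟨_, v.ord_coe_irreducible
    (IsDiscreteValuationRing.exists_irreducible v.toValuationSubring).choose_spec, rfl⟩

variable {C : Type*} [Field C]

theorem euler_Over {ι : K →+* C} {φ : F →+* LaurentSeries C} (hφ : Over ι φ) (a : K) :
    euler (φ (algebraMap K F a)) = 0 := by rw [hφ a, euler_single_zero]

/-- The derivation `f ↦ t d/dt (φ f)` on differentials. -/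
theorem exists_eulerLift {ι : K →+* C} {φ : F →+* LaurentSeries C} (hφ : Over ι φ) :
    ∃ θ : Ω[F⁄K] → LaurentSeries C, θ 0 = 0 ∧
      ∀ f g : F, θ (f • D K F g) = φ f * euler (φ g) := by
  letI : Algebra F (LaurentSeries C) := φ.toAlgebra
  letI : Module K (LaurentSeries C) := Module.compHom _ (algebraMap K F)
  haveI : IsScalarTower K F (LaurentSeries C) := ⟨fun a b c => by
    show (a • b) • c = algebraMap K F a • (b • c)
    show φ (a • b) * c = φ (algebraMap K F a) * (φ b * c)
    rw [Algebra.smul_def, map_mul, mul_assoc]⟩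
  let d : Derivation K F (LaurentSeries C) :=
    { toFun := fun f => euler (φ f)
      map_add' := fun a b => by simp
      map_smul' := fun a b => by
        show euler (φ (a • b)) = φ (algebraMap K F a) * euler (φ b)
        rw [Algebra.smul_def, map_mul, euler_mul, euler_Over hφ, zero_mul, zero_add]
      map_one_eq_zero' := by
        show euler (φ 1) = 0
        simpa using euler_Over hφ 1
      leibniz' := fun a b => by
        show euler (φ (a * b)) = φ a * euler (φ b) + φ b * euler (φ a)
        rw [map_mul, euler_mul]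
        ring }
  refine ⟨d.liftKaehlerDifferential, map_zero _, fun f g => ?_⟩
  rw [map_smul, Derivation.liftKaehlerDifferential_comp_D]
  rfl

/-- At a place induced by an embedding, with `ord x = e ≠ 0`, the order of `dx` is `e - 1`. -/
theorem ordDifferential_D [CharZero C] {ι : K →+* C} {φ : F →+* LaurentSeries C} {v : Place K F}
    {k : ℤ} (hφ : Over ι φ) (hv : Induces φ v k) {x : F} (hx : v.ord x ≠ 0)
    (hspan : Submodule.span F {D K F x} = ⊤) :
    v.DCoordGenerates ∧ Nontrivial Ω[F⁄K] ∧ v.differentialCoeff (D K F x) ≠ 0 ∧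
      v.ordDifferential (D K F x) = v.ord x - 1 := by
  obtain ⟨θ, hθ0, hθ⟩ := exists_eulerLift hφ
  obtain ⟨π, hπ, hd⟩ := exists_dCoord_eq v
  have hne : ∀ {g : F}, v.ord g ≠ 0 → θ (D K F g) ≠ 0 := fun {g} hg => by
    rw [← one_smul F (D K F g), hθ, map_one, one_mul]
    exact (order_euler _ (by rw [hv.2]; exact mul_ne_zero hv.1.ne' hg)).2
  haveI hnt : Nontrivial Ω[F⁄K] :=
    ⟨⟨D K F x, 0, fun h => hne hx (by rw [h, hθ0])⟩⟩
  obtain ⟨g, hg⟩ := Submodule.mem_span_singleton.mp
    (hspan ▸ Submodule.mem_top : D K F π ∈ Submodule.span F {D K F x})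
  have hg0 : g ≠ 0 := fun h => hne (g := π) (by omega) (by rw [← hg, h, zero_smul, hθ0])
  haveI hgen : v.DCoordGenerates := ⟨by
    rw [eq_top_iff, ← hspan, Submodule.span_singleton_le_iff_mem, hd, ← hg,
      Submodule.mem_span_singleton]
    exact ⟨g⁻¹, by rw [smul_smul, inv_mul_cancel₀ hg0, one_smul]⟩⟩
  have hcoeff : v.differentialCoeff (D K F x) = g⁻¹ :=
    v.differentialCoeff_unique (by rw [hd, ← hg, smul_smul, inv_mul_cancel₀ hg0, one_smul])
  refine ⟨hgen, hnt, hcoeff ▸ inv_ne_zero hg0, ?_⟩
  rw [Place.ordDifferential, hcoeff, v.ord_inv]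
  have h := congrArg (fun y => (θ y).order) hg
  simp only [hθ] at h
  rw [← one_smul F (D K F π), hθ, map_one, one_mul] at h
  have hx' : (φ x).order ≠ 0 := by rw [hv.2]; exact mul_ne_zero hv.1.ne' hx
  have hπ' : (φ π).order ≠ 0 := by rw [hv.2, hπ, mul_one]; exact hv.1.ne'
  rw [HahnSeries.order_mul ((map_ne_zero φ).mpr hg0) (order_euler _ hx').2, (order_euler _ hx').1,
    (order_euler _ hπ').1, hv.2, hv.2, hv.2, hπ] at h
  have h2 : v.ord g + v.ord x = 1 := mul_left_cancel₀ hv.1.ne' (by linarith)
  omega

end FLTAgent.Genus
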