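import Fermat.Prelude.Def_AlgebraicCurve_CanonicalDivisor
import Fermat.Agent.Genus.Differential
import Fermat.Agent.Genus.RamHelpers
import Fermat.Agent.FunctionField.Principal

/-!
The degree of a canonical divisor from the ramification over `j`.
-/

set_option autoImplicit false

noncomputable section

open AlgebraicCurve KaehlerDifferential IntermediateField

namespace FLTAgent.Genus

variable {K F C : Type*} [Field K] [Field F] [Algebra K F] [Field C] [CharZero C] {ι : K →+* C}
  {X : Type*} [Fintype X] {j : F}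

theorem ordDifferential_point (hspan : Submodule.span F {D K F j} = ⊤) {a : K}
    (R : RamData ι (j - algebraMap K F a) X) (hres : ∀ v : Place K F, HasResidueK v)
    (hcard : ∀ S : Finset (Place K F), (∀ v ∈ S, 0 < v.ord (j - algebraMap K F a)) →
      ∑ v ∈ S, v.ord (j - algebraMap K F a) ≤ Fintype.card X)
    {v : Place K F} (hv : 0 < v.ord (j - algebraMap K F a)) :
    v.DCoordGenerates ∧ Nontrivial Ω[F⁄K] ∧ v.differentialCoeff (D K F j) ≠ 0 ∧
      v.ordDifferential (D K F j) = v.ord (j - algebraMap K F a) - 1 := by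
  obtain ⟨i, hi⟩ := R.exists_place_eq hres hcard hv
  have hind := R.induces i
  rw [hi] at hind
  have hD : D K F (j - algebraMap K F a) = D K F j := by
    rw [map_sub, Derivation.map_algebraMap, sub_zero]
  obtain ⟨h1, hnt, h2, h3⟩ := ordDifferential_D (R.overK i) hind hv.ne' (by rw [hD]; exact hspan)
  rw [hD] at h2 h3
  exact ⟨h1, hnt, h2, h3⟩

theorem ordDifferential_cusp (hspan : Submodule.span F {D K F j} = ⊤)
    (R : RamData ι j⁻¹ X) (hres : ∀ v : Place K F, HasResidueK v)
    (hcard : ∀ S : Finset (Place K F), (∀ v ∈ S, 0 < v.ord j⁻¹) →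
      ∑ v ∈ S, v.ord j⁻¹ ≤ Fintype.card X)
    {v : Place K F} (hv : 0 < v.ord j⁻¹) :
    v.DCoordGenerates ∧ Nontrivial Ω[F⁄K] ∧ v.differentialCoeff (D K F j) ≠ 0 ∧
      v.ordDifferential (D K F j) = -(v.ord j⁻¹ + 1) := by
  have hj : j ≠ 0 := by rintro rfl; simp at hv
  obtain ⟨i, hi⟩ := R.exists_place_eq hres hcard hv
  have hind := R.induces i
  rw [hi] at hind
  have hD : D K F j⁻¹ = (-j⁻¹ ^ 2) • D K F j := by rw [Derivation.leibniz_inv]
  have hc : -j⁻¹ ^ 2 ≠ 0 := neg_ne_zero.mpr (pow_ne_zero _ (inv_ne_zero hj))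
  obtain ⟨h1, hnt, h2, h3⟩ := ordDifferential_D (R.overK i) hind hv.ne' (by
    rw [hD, Submodule.span_singleton_smul_eq (IsUnit.mk0 _ hc)]
    exact hspan)
  rw [hD, v.differentialCoeff_smul] at h2
  have hne := right_ne_zero_of_mul h2
  rw [hD, v.ordDifferential_smul hc hne, FunctionField.ord_neg, ord_pow, v.ord_inv] at h3
  refine ⟨h1, hnt, hne, ?_⟩
  rw [v.ord_inv]
  omega

theorem place_cases_of_transcendental (htr : Transcendental K j)
    (hres : ∀ v : Place K F, HasResidueK v) (v : Place K F) :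
    0 < v.ord j⁻¹ ∨ ∃ a : K, 0 < v.ord (j - algebraMap K F a) := by
  rcases lt_or_ge (v.ord j) 0 with h | h
  · exact Or.inl (by rw [v.ord_inv]; omega)
  · obtain ⟨c, hc | hc⟩ := hres v _ h
    · exact absurd (hc ▸ isAlgebraic_algebraMap c) htr
    · exact Or.inr ⟨c, hc⟩

theorem eq_of_ord_sub_pos {v : Place K F} {a b : K} (ha : 0 < v.ord (j - algebraMap K F a))
    (hb : 0 < v.ord (j - algebraMap K F b)) : a = b := by
  by_contra hne
  have h : v.ord ((j - algebraMap K F b) + -(j - algebraMap K F a)) = 0 := by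
    rw [show (j - algebraMap K F b) + -(j - algebraMap K F a) = algebraMap K F (a - b) by
      rw [map_sub]; ring]
    exact FunctionField.ord_algebraMap (v := v) (a - b)
  have hne' : (j - algebraMap K F b) + -(j - algebraMap K F a) ≠ 0 := by
    rw [show (j - algebraMap K F b) + -(j - algebraMap K F a) = algebraMap K F (a - b) by
      rw [map_sub]; ring]
    exact fun h0 => hne (sub_eq_zero.mp ((map_eq_zero _).mp h0))
  have hle := FunctionField.min_ord_le_ord_add (v := v) hne'
  rw [h, FunctionField.ord_neg] at hle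
  omega

theorem ord_sub_eq_of_ord_neg {v : Place K F} (hv : 0 < v.ord j⁻¹) (a : K) :
    v.ord (j - algebraMap K F a) ≤ 0 := by
  by_contra h
  push Not at h
  rw [v.ord_inv] at hv
  have hle := FunctionField.min_ord_le_ord_add (v := v)
    (f := j - algebraMap K F a) (g := algebraMap K F a)
    (by rw [sub_add_cancel]; intro hj; simp [hj] at hv)
  rw [sub_add_cancel, FunctionField.ord_algebraMap] at hle
  omega

/-- The genus from the ramification of `j`, branched only over `a₀`, `a₁` and `∞`. -/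
theorem genus_eq [FunctionField.IsFunctionField K F] [IsAlgClosed K]
    [HasCanonicalDivisor (K := K) (F := F)] (htr : Transcendental K j)
    (hspan : Submodule.span F {D K F j} = ⊤)
    (P : ∀ a : K, RamData ι (j - algebraMap K F a) X) (Q : RamData ι j⁻¹ X)
    (hcardP : ∀ (a : K) (S : Finset (Place K F)), (∀ v ∈ S, 0 < v.ord (j - algebraMap K F a)) →
      ∑ v ∈ S, v.ord (j - algebraMap K F a) ≤ Fintype.card X)
    (hcardQ : ∀ S : Finset (Place K F), (∀ v ∈ S, 0 < v.ord j⁻¹) →
      ∑ v ∈ S, v.ord j⁻¹ ≤ Fintype.card X)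
    {a₀ a₁ : K} (hne : a₀ ≠ a₁)
    (hunr : ∀ a : K, a ≠ a₀ → a ≠ a₁ → ∀ v : Place K F,
      0 < v.ord (j - algebraMap K F a) → v.ord (j - algebraMap K F a) = 1)
    {S₀ S₁ S₂ : ℤ}
    (h₀ : ∑ v ∈ (P a₀).placesOver, (v.ord (j - algebraMap K F a₀) - 1) = S₀)
    (h₁ : ∑ v ∈ (P a₁).placesOver, (v.ord (j - algebraMap K F a₁) - 1) = S₁)
    (h₂ : ∑ v ∈ Q.placesOver, (-(v.ord j⁻¹ + 1)) = S₂) :
    genus K F = (S₀ + S₁ + S₂ + 2).toNat / 2 := by
  classical
  have hres : ∀ v : Place K F, HasResidueK v := hasResidueK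
  have hfacts : ∀ v : Place K F, v.DCoordGenerates ∧ Nontrivial Ω[F⁄K] ∧
      v.differentialCoeff (D K F j) ≠ 0 := fun v => by
    rcases place_cases_of_transcendental htr hres v with hv | ⟨a, hv⟩
    · obtain ⟨h1, h2, h3, -⟩ := ordDifferential_cusp hspan Q hres hcardQ hv
      exact ⟨h1, h2, h3⟩
    · obtain ⟨h1, h2, h3, -⟩ := ordDifferential_point hspan (P a) hres (hcardP a) hv
      exact ⟨h1, h2, h3⟩
  set E : Divisor K F :=
    (∑ v ∈ (P a₀).placesOver, Finsupp.single v (v.ord (j - algebraMap K F a₀) - 1)) +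
      (∑ v ∈ (P a₁).placesOver, Finsupp.single v (v.ord (j - algebraMap K F a₁) - 1)) +
      ∑ v ∈ Q.placesOver, Finsupp.single v (-(v.ord j⁻¹ + 1)) with hE
  have hsum : ∀ (s : Finset (Place K F)) (f : Place K F → ℤ) (v : Place K F),
      (∑ w ∈ s, Finsupp.single w (f w)) v = if v ∈ s then f v else 0 := fun s f v => by
    rw [Finsupp.finsetSum_apply]
    simp [Finsupp.single_apply]
  have hEv : ∀ v : Place K F, E v = v.ordDifferential (D K F j) := by
    intro v
    simp only [hE, Finsupp.add_apply, hsum, (P a₀).mem_placesOver_iff hres (hcardP a₀),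
      (P a₁).mem_placesOver_iff hres (hcardP a₁), Q.mem_placesOver_iff hres hcardQ]
    rcases place_cases_of_transcendental htr hres v with hv | ⟨a, hv⟩
    · rw [(ordDifferential_cusp hspan Q hres hcardQ hv).2.2.2, if_pos hv,
        if_neg (not_lt.mpr (ord_sub_eq_of_ord_neg hv a₀)),
        if_neg (not_lt.mpr (ord_sub_eq_of_ord_neg hv a₁))]
      ring
    · have hnc : ¬ 0 < v.ord j⁻¹ := fun h => absurd hv (not_lt.mpr (ord_sub_eq_of_ord_neg h a))
      rw [(ordDifferential_point hspan (P a) hres (hcardP a) hv).2.2.2, if_neg hnc]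
      by_cases hA : a = a₀
      · subst hA
        rw [if_pos hv, if_neg fun h => hne (eq_of_ord_sub_pos hv h)]
        ring
      rw [if_neg fun h => hA (eq_of_ord_sub_pos hv h)]
      by_cases hB : a = a₁
      · subst hB
        rw [if_pos hv]
        ring
      rw [if_neg fun h => hB (eq_of_ord_sub_pos hv h), hunr a hA hB v hv]
      ring
  have hdegE : Divisor.degree E = S₀ + S₁ + S₂ := by
    simp only [hE, map_add, map_sum, Divisor.degree_single, FunctionField.deg_eq_one,
      Nat.cast_one, mul_one, h₀, h₁, h₂]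
  obtain ⟨v₀⟩ := FunctionField.exists_place (K := K) (F := F)
  haveI := (hfacts v₀).2.1
  obtain ⟨ω₀, hω₀⟩ := exists_ne (0 : Ω[F⁄K])
  have hω : ∃ ω : Ω[F⁄K], ω ≠ 0 := ⟨ω₀, hω₀⟩
  rw [genus, dif_pos hω]
  set ω := hω.choose with hωdef
  obtain ⟨g, hg⟩ := Submodule.mem_span_singleton.mp
    (hspan ▸ Submodule.mem_top : ω ∈ Submodule.span F {D K F j})
  have hg0 : g ≠ 0 := fun h => hω.choose_spec (by rw [← hωdef, ← hg, h, zero_smul])
  have hD : canonicalDivisorOf hω.choose_spec = FunctionField.divisorOf g + E := by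
    ext v
    haveI := (hfacts v).1
    rw [canonicalDivisorOf_apply, Finsupp.add_apply, FunctionField.divisorOf_apply, hEv,
      ← v.ordDifferential_smul hg0 (hfacts v).2.2, hg]
  rw [hD, map_add, FunctionField.degree_divisorOf, zero_add, hdegE]

end FLTAgent.Genus
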