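import Fermat.Agent.ModPoly.Generation
import Fermat.Agent.Genus.Places

/-!
Places of the modular function field are induced by expansions at points and cusps; ramification
indices over `j`.
-/

set_option autoImplicit false

noncomputable section

open ModularCurve Complex AlgebraicCurve
open UpperHalfPlane hiding I
open scoped MatrixGroups

namespace FLTAgent.Genus

open FLTAgent.ModPoly

variable {N : ℕ} [NeZero N] {K : Type*} [Field K] [IsAlgClosed K] [Algebra ℚ K]

/-- Ramification indices over `j = a` divide `jMult`. -/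
theorem ord_sub_dvd_jMult (ι : K →+* ℂ) {a : K} {v : Place K (modularFunctionFieldC K N)}
    (hv : 0 < v.ord (jEl K N - algebraMap K _ a)) :
    v.ord (jEl K N - algebraMap K _ a) ∣ (jMult (ι a) : ℤ) := by
  obtain ⟨i, hi⟩ := (pointRam ι a).exists_place_eq hasResidueK_modular (sum_ord_le_card a) hv
  have hd := (pointRam ι a).ord_dvd i
  rwa [hi, show (pointRam (N := N) ι a).m = jMult (ι a) from
    (exists_pointData ι a).choose_spec.1] at hd

theorem ord_jEl_dvd_three (ι : K →+* ℂ) {v : Place K (modularFunctionFieldC K N)}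
    (hv : 0 < v.ord (jEl K N - algebraMap K _ (0 : K))) :
    v.ord (jEl K N - algebraMap K _ (0 : K)) ∣ 3 := by
  have := ord_sub_dvd_jMult ι hv
  simpa [jMult] using this

theorem ord_sub_1728_dvd_two (ι : K →+* ℂ) {v : Place K (modularFunctionFieldC K N)}
    (hv : 0 < v.ord (jEl K N - algebraMap K _ (1728 : K))) :
    v.ord (jEl K N - algebraMap K _ (1728 : K)) ∣ 2 := by
  have := ord_sub_dvd_jMult ι hv
  simpa [jMult, map_ofNat] using this

theorem ord_eq_three_of_nuThree_eq_zero (ι : K →+* ℂ) (h : nuThree N = 0)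
    {v : Place K (modularFunctionFieldC K N)}
    (hv : 0 < v.ord (jEl K N - algebraMap K _ (0 : K))) :
    v.ord (jEl K N - algebraMap K _ (0 : K)) = 3 := by
  obtain ⟨i, hi⟩ := (pointRam ι (0 : K)).exists_place_eq hasResidueK_modular (sum_ord_le_card 0) hv
  obtain ⟨n, hn⟩ := Int.eq_ofNat_of_zero_le hv.le
  have hd := ord_jEl_dvd_three ι hv
  rw [hn] at hd ⊢
  rcases (Nat.dvd_prime Nat.prime_three).mp (Int.natCast_dvd_natCast.mp hd) with h1 | h1
  · exfalso
    have hfix := ((pointRam ι (0 : K)).ord_eq_one_iff hasResidueK_modular i).mp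
      (by rw [hi, hn, h1]; rfl)
    have hz : Nat.card {q : Cosets N // (pointRam (N := N) ι (0 : K)).σ q = q} = 0 :=
      ((exists_pointData (N := N) ι (0 : K)).choose_spec.2.1 (map_zero ι)).trans h
    rcases Nat.card_eq_zero.mp hz with h0 | h0
    · exact h0.false ⟨i, hfix⟩
    · exact not_finite {q : Cosets N // (pointRam (N := N) ι (0 : K)).σ q = q}
  · rw [h1]; rfl

theorem ord_eq_two_of_nuTwo_eq_zero (ι : K →+* ℂ) (h : nuTwo N = 0)
    {v : Place K (modularFunctionFieldC K N)}
    (hv : 0 < v.ord (jEl K N - algebraMap K _ (1728 : K))) :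
    v.ord (jEl K N - algebraMap K _ (1728 : K)) = 2 := by
  obtain ⟨i, hi⟩ := (pointRam ι (1728 : K)).exists_place_eq hasResidueK_modular
    (sum_ord_le_card 1728) hv
  obtain ⟨n, hn⟩ := Int.eq_ofNat_of_zero_le hv.le
  have hd := ord_sub_1728_dvd_two ι hv
  rw [hn] at hd ⊢
  rcases (Nat.dvd_prime Nat.prime_two).mp (Int.natCast_dvd_natCast.mp hd) with h1 | h1
  · exfalso
    have hfix := ((pointRam ι (1728 : K)).ord_eq_one_iff hasResidueK_modular i).mp
      (by rw [hi, hn, h1]; rfl)
    have hz : Nat.card {q : Cosets N // (pointRam (N := N) ι (1728 : K)).σ q = q} = 0 :=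
      ((exists_pointData (N := N) ι (1728 : K)).choose_spec.2.2 (map_ofNat ι 1728)).trans h
    rcases Nat.card_eq_zero.mp hz with h0 | h0
    · exact h0.false ⟨i, hfix⟩
    · exact not_finite {q : Cosets N // (pointRam (N := N) ι (1728 : K)).σ q = q}
  · rw [h1]; rfl

/-- Every place is a point `(z, q)` with `j z` algebraic or a cusp: the expansion there is a
positive multiple of its order. -/
theorem exists_point_or_cusp (ι : K →+* ℂ) (v : Place K (modularFunctionFieldC K N)) :
    (∃ (a : K) (z : ℍ) (q : Cosets N) (k : ℤ), jFun z = ι a ∧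
      Induces (fieldEmb ι (pointHom z q) (pointHom_injective z q)) v k) ∨
    ∃ (q : Cosets N) (k : ℤ), Induces (fieldEmb ι (cuspHom q) (cuspHom_injective q)) v k := by
  rcases place_cases v with hv | ⟨a, hv⟩
  · obtain ⟨q, hq⟩ := (cuspData ι).exists_place_eq hasResidueK_modular sum_ord_inv_le_card hv
    exact Or.inr ⟨q, _, hq ▸ (cuspData ι).induces q⟩
  · left
    by_cases h0 : ι a = 0
    · have hz : jFun UpperHalfPlane.ρ = ι a := by rw [h0, jFun_rho]
      obtain ⟨q, hq⟩ := (pointData ι a UpperHalfPlane.ρ hz _ rho_fix (by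
        rw [h0, show jMult (0 : ℂ) = 3 by simp [jMult]]
        exact isPrimitiveRoot_rot_ST)).exists_place_eq hasResidueK_modular (sum_ord_le_card a) hv
      exact ⟨a, _, q, _, hz, hq ▸ RamData.induces _ q⟩
    by_cases h1 : ι a = 1728
    · have hz : jFun UpperHalfPlane.I = ι a := by rw [h1, jFun_I]
      obtain ⟨q, hq⟩ := (pointData ι a UpperHalfPlane.I hz _ I_fix (by
        rw [h1, show jMult (1728 : ℂ) = 2 by simp [jMult]]
        exact isPrimitiveRoot_rot_S)).exists_place_eq hasResidueK_modular (sum_ord_le_card a) hv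
      exact ⟨a, _, q, _, hz, hq ▸ RamData.induces _ q⟩
    obtain ⟨z, hz⟩ := exists_jFun_eq (ι a)
    have hp : IsPrimitiveRoot (Units.mk0 (rotNum 1 z) (rotNum_ne_zero 1 z)) (jMult (ι a)) := by
      rw [show jMult (ι a) = 1 by simp [jMult, h0, h1]]
      exact IsPrimitiveRoot.one_right_iff.mpr (Units.ext (by simp [rotNum]))
    obtain ⟨q, hq⟩ := (pointData ι a z hz 1 (one_smul _ _) hp).exists_place_eq hasResidueK_modular
      (sum_ord_le_card a) hv
    exact ⟨a, z, q, _, hz, hq ▸ RamData.induces _ q⟩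

/-- Every point with algebraic `j` gives a place at which `j - a` vanishes. -/
theorem exists_induces_point (ι : K →+* ℂ) {a : K} {z : ℍ} (hz : jFun z = ι a) (q : Cosets N) :
    ∃ (v : Place K (modularFunctionFieldC K N)) (k : ℤ),
      Induces (fieldEmb ι (pointHom z q) (pointHom_injective z q)) v k ∧
      k * v.ord (jEl K N - algebraMap K _ a) = jMult (ι a) := by
  have hord : (fieldEmb ι (pointHom z q) (pointHom_injective z q)
      (jEl K N - algebraMap K _ a)).order = jMult (ι a) := by
    rw [map_sub, fieldEmb_jEl, over_fieldEmb ι _ _ a, pointHom_jFun, diskSeries_sub_const, ← hz]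
    exact order_diskSeries_jFun_sub z
  obtain ⟨k, hk⟩ := exists_induces_placeOfEmb (fieldEmb ι (pointHom z q) (pointHom_injective z q))
    (over_fieldEmb ι _ _) ⟨jEl K N - algebraMap K _ a, by
      rw [hord]; exact_mod_cast jMult_pos _⟩
  exact ⟨_, k, hk, (hk.2 _).symm.trans hord⟩

end FLTAgent.Genus
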