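import Fermat.Prelude.Def_ModularCurve_ArithmeticGalois
import Fermat.Prelude.Def_ModularCurve_GenusNumerics
import Fermat.Agent.S20
import Fermat.Agent.ModPoly.Generation
import Fermat.Agent.Genus.Abstract
import Fermat.Agent.Genus.Places

/-!
The genus of the modular function field.
-/

set_option autoImplicit false

noncomputable section

open ModularCurve AlgebraicCurve IntermediateField

namespace FLTAgent.Genus

set_option synthInstance.maxHeartbeats 400000

theorem genus_modularFunctionFieldC (N : ℕ) [NeZero N] {K : Type*} [Field K] [IsAlgClosed K]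
    [Algebra ℚ K] (ι : K →+* ℂ)
    [HasCanonicalDivisor (K := K) (F := modularFunctionFieldC K N)] :
    (genus K (modularFunctionFieldC K N) : ℚ) = genusFormula N := by
  haveI : CharZero K := Algebra.charZero_of_charZero ℚ K
  haveI := isFunctionField_modularFunctionFieldC (K := K) (N := N)
  haveI := (finite_adjoin_jEl (K := K) (N := N)).1
  haveI : Algebra.IsAlgebraic K⟮jEl K N⟯ (modularFunctionFieldC K N) :=
    Algebra.IsAlgebraic.of_finite _ _
  have h0 := sum_zero_places (N := N) ι
  have h1 := sum_1728_places (N := N) ι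
  have h2 := sum_cusp_places (N := N) ι
  obtain ⟨S₀, hS₀⟩ : ∃ S, ∑ v ∈ (pointRam (N := N) ι 0).placesOver,
      (v.ord (jEl K N - algebraMap K _ (0 : K)) - 1) = S := ⟨_, rfl⟩
  obtain ⟨S₁, hS₁⟩ : ∃ S, ∑ v ∈ (pointRam (N := N) ι 1728).placesOver,
      (v.ord (jEl K N - algebraMap K _ (1728 : K)) - 1) = S := ⟨_, rfl⟩
  rw [hS₀] at h0
  rw [hS₁] at h1
  rw [genus_eq (j := jEl K N) transcendental_jEl (span_D_eq_top (jEl K N)) (pointRam ι)
    (cuspData ι) sum_ord_le_card sum_ord_inv_le_card (a₀ := 0) (a₁ := 1728)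
    (by norm_num) (fun a ha hb v hv => ord_eq_one_of_ne ι ha hb hv) hS₀ hS₁ h2]
  set g := Module.finrank ℂ (CuspForm (CongruenceSubgroup.Gamma0 N) 2)
  have hg : (g : ℚ) = genusFormula N := Fermat.Agent.S20.result N
  have hsum : S₀ + S₁ + -((dedekindPsi N : ℤ) + cuspCount N) + 2 = 2 * (g : ℤ) := by
    have e0 : (3 : ℚ) * S₀ = 2 * ((dedekindPsi N : ℚ) - nuThree N) := by exact_mod_cast h0
    have e1 : (2 : ℚ) * S₁ = (dedekindPsi N : ℚ) - nuTwo N := by exact_mod_cast h1
    have key : (S₀ : ℚ) + S₁ + -((dedekindPsi N : ℚ) + cuspCount N) + 2 = 2 * (g : ℚ) := by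
      rw [hg, genusFormula]
      linear_combination (1 / 3 : ℚ) * e0 + (1 / 2 : ℚ) * e1
    exact_mod_cast key
  rw [hsum, show (2 * (g : ℤ)).toNat / 2 = g by omega, hg]

theorem genus_eq_genusFormula_of_eq (N : ℕ) [NeZero N] {K : Type*} [Field K] [IsAlgClosed K]
    [Algebra ℚ K] (ι : K →+* ℂ) (E : IntermediateField K (LaurentSeries K))
    (hE : E = modularFunctionFieldC K N) [HasCanonicalDivisor (K := K) (F := E)] :
    (genus K E : ℚ) = genusFormula N := by
  subst hE
  exact genus_modularFunctionFieldC N ι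

end FLTAgent.Genus
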