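import Fermat.Agent.Genus.Hurwitz
import Fermat.Agent.Genus.Main

/-!
# The repartition genus of the modular function field

`genusFF = genusFormula` at every level, by Riemann-Hurwitz for `j`.
-/

set_option autoImplicit false
set_option linter.style.haveILetI false

noncomputable section

open ModularCurve AlgebraicCurve IntermediateField

namespace FLTAgent.Genus

open FLTAgent.FunctionField

set_option synthInstance.maxHeartbeats 400000

theorem degree_ramPart_zeroDivisor {K F : Type*} [Field K] [Field F] [Algebra K F]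
    [IsFunctionField K F] [IsAlgClosed K] (f : F) (s : Finset (Place K F))
    (hs : ∀ v, v ∈ s ↔ 0 < v.ord f) :
    Divisor.degree (ramPart (zeroDivisor (K := K) f)) = ∑ v ∈ s, (v.ord f - 1) := by
  classical
  rw [GoodRed.degree_eq_sum_apply, Finset.sum_subset (s₂ := s) ?_ ?_]
  · refine Finset.sum_congr rfl fun v hv => ?_
    have := (hs v).1 hv
    rw [ramPart_apply, zeroDivisor_apply]
    omega
  · intro v hv
    rw [Finsupp.mem_support_iff, ramPart_apply, zeroDivisor_apply] at hv
    exact (hs v).2 (by omega)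
  · exact fun v _ hv => Finsupp.notMem_support_iff.1 hv

theorem finrank_adjoin_eq_sum {K F : Type*} [Field K] [Field F] [Algebra K F]
    [IsFunctionField K F] [IsAlgClosed K] {x : F} (hx : Transcendental K x)
    (s : Finset (Place K F)) (hs : ∀ v, v ∈ s ↔ 0 < v.ord x⁻¹) :
    (Module.finrank K⟮x⟯ F : ℤ) = ∑ v ∈ s, v.ord x⁻¹ := by
  classical
  rw [← GoodRed.adjoin_inv_sub x (0 : K), map_zero, sub_zero,
    ← degree_zeroDivisor (K := K) (x := x⁻¹) fun h => hx (by simpa using h.inv),
    GoodRed.degree_eq_sum_apply, Finset.sum_subset (s₂ := s) ?_ ?_]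
  · refine Finset.sum_congr rfl fun v hv => ?_
    have := (hs v).1 hv
    rw [zeroDivisor_apply]
    omega
  · intro v hv
    rw [Finsupp.mem_support_iff, zeroDivisor_apply] at hv
    exact (hs v).2 (by omega)
  · exact fun v _ hv => Finsupp.notMem_support_iff.1 hv

/-- Riemann-Hurwitz for a function branched over two points and infinity. -/
theorem two_mul_genusFF_add_two {K F : Type*} [Field K] [Field F] [Algebra K F]
    [IsFunctionField K F] [IsAlgClosed K] [CharZero K] {x : F} (hx : Transcendental K x)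
    {a b : K} (hab : a ≠ b)
    (hunr : ∀ c, c ≠ a → c ≠ b → ∀ v : Place K F, 0 < v.ord (x - algebraMap K F c) →
      v.ord (x - algebraMap K F c) = 1)
    (s sa sb : Finset (Place K F)) (hs : ∀ v, v ∈ s ↔ 0 < v.ord x⁻¹)
    (hsa : ∀ v, v ∈ sa ↔ 0 < v.ord (x - algebraMap K F a))
    (hsb : ∀ v, v ∈ sb ↔ 0 < v.ord (x - algebraMap K F b)) :
    2 * (genusFF K F : ℤ) + 2 * ∑ v ∈ s, v.ord x⁻¹ =
      2 + ((∑ v ∈ s, v.ord x⁻¹ - s.card) +
        (∑ v ∈ sa, (v.ord (x - algebraMap K F a) - 1) +
          ∑ v ∈ sb, (v.ord (x - algebraMap K F b) - 1))) := by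
  classical
  haveI := finiteDimensional_adjoin_of_transcendental hx
  haveI : Algebra.IsAlgebraic K⟮x⟯ F := Algebra.IsAlgebraic.of_finite _ _
  have h := two_mul_genusFF_add hx {a, b} fun c hc v hv =>
    hunr c (fun h0 => hc (by simp [h0])) (fun h0 => hc (by simp [h0])) v hv
  rw [ramDiv, Finset.sum_pair hab, map_add, map_add, degree_ramPart_zeroDivisor _ _ hs,
    degree_ramPart_zeroDivisor _ _ hsa, degree_ramPart_zeroDivisor _ _ hsb,
    finrank_adjoin_eq_sum hx s hs, Finset.sum_sub_distrib, Finset.sum_const] at h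
  simpa using h

theorem genusFF_modularFunctionFieldC (N : ℕ) [NeZero N] {K : Type*} [Field K] [IsAlgClosed K]
    [Algebra ℚ K] (ι : K →+* ℂ) :
    (genusFF K (modularFunctionFieldC K N) : ℚ) = genusFormula N := by
  classical
  haveI : CharZero K := Algebra.charZero_of_charZero ℚ K
  haveI := isFunctionField_modularFunctionFieldC (K := K) (N := N)
  have hne : (0 : K) ≠ 1728 := by norm_num
  have hsum : ∑ v ∈ (cuspData (N := N) ι).placesOver, v.ord (jEl K N)⁻¹ = (dedekindPsi N : ℤ) := by
    rw [(cuspData (N := N) ι).sum_ord hasResidueK_modular, card_cosets]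
  have h := two_mul_genusFF_add_two (transcendental_jEl (K := K) (N := N)) hne
    (fun c h0 h1 v hv => ord_eq_one_of_ne ι h0 h1 hv) (cuspData (N := N) ι).placesOver
    (pointRam ι 0).placesOver (pointRam ι 1728).placesOver
    (fun v => (cuspData (N := N) ι).mem_placesOver_iff hasResidueK_modular sum_ord_inv_le_card v)
    (fun v => mem_pointPlaces ι 0 v) (fun v => mem_pointPlaces ι 1728 v)
  rw [hsum, card_cusp_places] at h
  have h0 := congrArg (fun z : ℤ => (z : ℚ)) (sum_zero_places (N := N) ι)
  have h1 := congrArg (fun z : ℤ => (z : ℚ)) (sum_1728_places (N := N) ι)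
  have h' := congrArg (fun z : ℤ => (z : ℚ)) h
  simp only [Int.cast_mul, Int.cast_add, Int.cast_sub, Int.cast_ofNat, Int.cast_natCast] at h' h0 h1
  rw [genusFormula]
  linear_combination (1 / 2 : ℚ) * h' + (1 / 6 : ℚ) * h0 + (1 / 4 : ℚ) * h1

theorem genusFF_eq_genusFormula_of_eq (N : ℕ) [NeZero N] {K : Type*} [Field K] [IsAlgClosed K]
    [Algebra ℚ K] (ι : K →+* ℂ) (E : IntermediateField K (LaurentSeries K))
    (hE : E = modularFunctionFieldC K N) :
    (genusFF K E : ℚ) = genusFormula N := by
  subst hE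
  exact genusFF_modularFunctionFieldC N ι

/-- The genus of `X₀(N)` over `ℚ̄`. -/
theorem genusFF_eq_genusFormula (N : ℕ) [NeZero N] :
    (genusFF (AlgebraicClosure ℚ) (modularFunctionFieldBar N) : ℚ) = genusFormula N :=
  haveI : Algebra.IsAlgebraic ℚ (AlgebraicClosure ℚ) := AlgebraicClosure.isAlgebraic ℚ
  genusFF_eq_genusFormula_of_eq N
    (IsAlgClosed.lift (R := ℚ) (S := AlgebraicClosure ℚ) (M := ℂ)).toRingHom
    (modularFunctionFieldBar N) (ModPoly.laurentBaseChange_full_eq N (AlgebraicClosure ℚ))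

end FLTAgent.Genus
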