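import Fermat.Agent.GoodRed.Genus

/-!
# The Riemann-Hurwitz formula for the repartition genus in characteristic zero

In a chart the functions with poles bounded by the different plus a multiple of the polar divisor
are parametrised by the trace dual numerators; comparing with the space without the different
through Riemann-Roch gives `2 g - 2 = - 2 n + deg (different)`.
-/

set_option autoImplicit false
set_option linter.unusedSectionVars false
set_option linter.style.haveILetI false

noncomputable section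

open AlgebraicCurve Polynomial
open scoped IntermediateField Matrix

namespace FLTAgent.Genus

open FLTAgent.FunctionField FLTAgent.GoodRed

variable {K F : Type*} [Field K] [Field F] [Algebra K F]

/-- The ramification part `∑ (e - 1) v` of an effective divisor `∑ e v`. -/
def ramPart (E : Divisor K F) : Divisor K F := E.mapRange (fun e => max (e - 1) 0) (by norm_num)

theorem ramPart_apply (E : Divisor K F) (v : Place K F) : ramPart E v = max (E v - 1) 0 := rfl

theorem ramPart_nonneg (E : Divisor K F) : 0 ≤ ramPart E := fun v => by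
  rw [ramPart_apply]; simp

variable (K) in
/-- The ramification of the coordinate `x` over the points of `S`. -/
def ramDiv (S : Finset K) (x : F) [IsFunctionField K F] : Divisor K F :=
  ∑ s ∈ S, ramPart (zeroDivisor (K := K) (x - algebraMap K F s))

variable [IsFunctionField K F] [IsAlgClosed K] [CharZero K] {x : F}

theorem ord_sub_le_zero_of_ne (_hx : Transcendental K x) {v : Place K F} {a b : K}
    (ha : 0 < v.ord (x - algebraMap K F a)) (hab : b ≠ a) :
    v.ord (x - algebraMap K F b) = 0 :=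
  ord_sub_eq_zero (ordGe_of_le_ord (n := 1) ha) hab

theorem ramDiv_apply_pole {S : Finset K} {v : Place K F} (hv : v.ord x < 0) :
    ramDiv K S x v = 0 := by
  rw [ramDiv, Finsupp.finsetSum_apply]
  refine Finset.sum_eq_zero fun s _ => ?_
  rw [ramPart_apply, zeroDivisor_apply, ord_sub_of_ord_neg hv]
  omega

theorem ramDiv_apply (hx : Transcendental K x) {S : Finset K}
    (hunr : ∀ a ∉ S, ∀ v : Place K F, 0 < v.ord (x - algebraMap K F a) →
      v.ord (x - algebraMap K F a) = 1)
    {v : Place K F} {a : K} (ha : 0 < v.ord (x - algebraMap K F a)) :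
    ramDiv K S x v = v.ord (x - algebraMap K F a) - 1 := by
  classical
  rw [ramDiv, Finsupp.finsetSum_apply]
  have h0 : ∀ s ∈ S, s ≠ a →
      ramPart (zeroDivisor (K := K) (x - algebraMap K F s)) v = 0 := fun s _ hs => by
    rw [ramPart_apply, zeroDivisor_apply, ord_sub_le_zero_of_ne hx ha hs]
    norm_num
  by_cases haS : a ∈ S
  · rw [Finset.sum_eq_single a h0 (fun h => absurd haS h), ramPart_apply, zeroDivisor_apply]
    omega
  · rw [Finset.sum_eq_zero fun s hs => h0 s hs fun h => haS (h ▸ hs), hunr a haS v ha, sub_self]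

/-- A generator regular at the finite places. -/
theorem exists_finReg_generator [Algebra.IsSeparable K⟮x⟯ F] (hx : Transcendental K x) :
    ∃ u, u ∈ finReg K x ∧ IntermediateField.adjoin K⟮x⟯ {u} = ⊤ := by
  classical
  have := finiteDimensional_adjoin_of_transcendental hx
  obtain ⟨θ, hθ⟩ := Field.exists_primitive_element K⟮x⟯ F
  set P : Finset (Place K F) :=
    (finite_setOf_ord_ne_zero (K := K) θ).toFinset.filter fun v => 0 ≤ v.ord x ∧ v.ord θ < 0
  choose b hb using fun v : {v // v ∈ P} =>
    exists_value_finite (x := x) (Finset.mem_filter.1 v.2).2.1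
  set Q : K[X] := ∏ v ∈ P.attach, (X - C (b v)) ^ (-v.1.ord θ).toNat with hQ
  have hQ0 : Q ≠ 0 := Finset.prod_ne_zero_iff.2 fun v _ => pow_ne_zero _ (X_sub_C_ne_zero _)
  refine ⟨aeval x Q * θ, fun v hv => ?_, ?_⟩
  · by_cases hvy : 0 ≤ v.ord θ
    · have h := (aeval_mem_finReg x Q v hv).mul (ordGe_of_le_ord (v := v) (f := θ) hvy)
      rwa [zero_add] at h
    have hvP : v ∈ P := Finset.mem_filter.2 ⟨(finite_setOf_ord_ne_zero (K := K) θ).mem_toFinset.2
      (show v.ord θ ≠ 0 by omega), hv, by omega⟩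
    obtain ⟨rest, hrest⟩ : (X - C (b ⟨v, hvP⟩)) ^ (-v.ord θ).toNat ∣ Q :=
      Finset.dvd_prod_of_mem (fun w : {w // w ∈ P} => (X - C (b w)) ^ (-w.1.ord θ).toNat)
        (Finset.mem_attach P ⟨v, hvP⟩)
    rw [hrest, map_mul, map_pow, map_sub, aeval_X, aeval_C]
    have h2 : OrdGe v (-v.ord θ) ((x - algebraMap K F (b ⟨v, hvP⟩)) ^ (-v.ord θ).toNat) := by
      refine ordGe_of_le_ord ?_
      rw [FunctionField.ord_pow]
      have h1 := ord_pos_of_value hx (hb ⟨v, hvP⟩)
      have h3 : ((-v.ord θ).toNat : ℤ) = -v.ord θ := Int.toNat_of_nonneg (by omega)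
      rw [h3]
      nlinarith
    have h := (h2.mul (aeval_mem_finReg x rest v hv)).mul (ordGe_ord (v := v) θ)
    simpa using h
  · refine top_le_iff.1 (hθ ▸ IntermediateField.adjoin_simple_le_iff.2 ?_)
    have hq0 : aeval x Q ≠ 0 := fun h => hQ0 (transcendental_iff.1 hx _ h)
    have hmem : ((ev x Q : K⟮x⟯) : F)⁻¹ * (aeval x Q * θ) ∈
        IntermediateField.adjoin K⟮x⟯ {aeval x Q * θ} :=
      mul_mem (inv_mem (IntermediateField.algebraMap_mem _ (ev x Q)))
        (IntermediateField.mem_adjoin_simple_self _ _)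
    rwa [coe_ev, ← mul_assoc, inv_mul_cancel₀ hq0, one_mul] at hmem

section chart

variable [FiniteDimensional K⟮x⟯ F] {n m : ℕ} (H : Chart K x n m) {S : Finset K}
  (hunr : ∀ a ∉ S, ∀ v : Place K F, 0 < v.ord (x - algebraMap K F a) →
    v.ord (x - algebraMap K F a) = 1)

include hunr in
/-- Functions with poles bounded by the different have polynomial traces. -/
theorem trace_poly_of_ordGe (hx : Transcendental K x) {y : F}
    (hy : ∀ v : Place K F, 0 ≤ v.ord x → OrdGe v (-ramDiv K S x v) y) {z : F}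
    (hz : z ∈ finReg K x) : ∃ c : K[X], Algebra.trace K⟮x⟯ F (y * z) = ev x c := by
  classical
  set Q : K[X] := ∏ s ∈ S, (X - C s)
  have hQ0 : Q ≠ 0 := (monic_prod_of_monic _ _ fun s _ => monic_X_sub_C s).ne_zero
  have hQord : ∀ v : Place K F, ∀ a : K, 0 < v.ord (x - algebraMap K F a) →
      v.ord (aeval x Q) = if a ∈ S then v.ord (x - algebraMap K F a) else 0 := by
    intro v a ha
    rw [map_prod]
    simp only [map_sub, aeval_X, aeval_C]
    rw [ord_prod _ _ fun s _ => sub_algebraMap_ne_zero hx s]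
    split_ifs with haS
    · exact Finset.sum_eq_single a (fun s _ hs => ord_sub_le_zero_of_ne hx ha hs)
        fun h => absurd haS h
    · exact Finset.sum_eq_zero fun s hs => ord_sub_le_zero_of_ne hx ha fun h => haS (h ▸ hs)
  have key : ∀ v : Place K F, ∀ a : K, 0 < v.ord (x - algebraMap K F a) →
      OrdGe v (if a ∈ S then 1 else 0) (aeval x Q * (y * z)) := by
    intro v a ha
    have hv : 0 ≤ v.ord x := by
      by_contra h
      rw [ord_sub_of_ord_neg (not_le.1 h)] at ha
      omega
    refine ((ordGe_ord (v := v) (aeval x Q)).mul ((hy v hv).mul (hz v hv))).mono ?_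
    rw [hQord v a ha, ramDiv_apply hx hunr ha]
    split_ifs with haS
    · omega
    · rw [hunr a haS v ha]; omega
  have hreg : aeval x Q * (y * z) ∈ finReg K x := fun v hv => by
    obtain ⟨a, ha⟩ := exists_value_finite hv
    refine (key v a (ord_pos_of_value hx ha)).mono ?_
    split_ifs <;> omega
  obtain ⟨P, hP⟩ := exists_trace_eq_ev hx hreg
  have hdvd : Q ∣ P := by
    refine Finset.prod_dvd_of_coprime
      (fun s _ t _ hst => pairwise_coprime_X_sub_C Function.injective_id hst) fun s hs => ?_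
    rw [dvd_iff_isRoot]
    refine trace_isRoot hx hP fun v hv => ?_
    simpa [hs] using key v s hv
  obtain ⟨c, rfl⟩ := hdvd
  refine ⟨c, mul_left_cancel₀ (fun h => hQ0 (ev_injective hx (by rw [h, map_zero]))
    : ev x Q ≠ 0) ?_⟩
  rw [← map_mul, ← hP, ← smul_eq_mul, ← map_smul, Algebra.smul_def (A := F), algebraMap_ev]

include hunr in
theorem ordGe_neg_ramDiv (hx : Transcendental K x) {y : F}
    (hy : ∀ z ∈ finReg K x, ∃ c : K[X], Algebra.trace K⟮x⟯ F (y * z) = ev x c)
    {v : Place K F} (hv : 0 ≤ v.ord x) : OrdGe v (-ramDiv K S x v) y := by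
  obtain ⟨a, ha⟩ := exists_value_finite hv
  have hpos := ord_pos_of_value hx ha
  refine (ordGe_of_trace_poly hx hy a hpos).mono ?_
  rw [ramDiv_apply hx hunr hpos]
  omega

theorem eta_add_mul (r : H.Coord) (p : Fin n → K[X]) :
    H.eta (H.val r + fun j => H.D * p j) =
      H.eta (H.val r) + ∑ i, aeval x (H.solve p i) * H.e i := by
  have hsol : H.solve (H.val r + fun j => H.D * p j) =
      H.solve (H.val r) + fun i => H.D * H.solve p i := by
    funext i
    simp only [Chart.solve, Pi.add_apply, Matrix.add_vecMul]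
    rw [show (fun j => H.D * p j) = H.D • p from rfl, Matrix.smul_vecMul, Pi.smul_apply,
      smul_eq_mul]
    ring
  rw [Chart.eta, hsol, map_add]
  congr 1
  simp only [Chart.comb, LinearMap.coe_mk, AddHom.coe_mk]
  exact Finset.sum_congr rfl fun i _ => by
    rw [map_mul, mul_div_cancel_left₀ _ H.ev_D_ne_zero, Algebra.smul_def, algebraMap_ev]

theorem poleLe_eta {τ : Fin n → K[X]} {s : ℕ}
    (hτ : ∀ j : Fin n, PDeg (τ j) ((s : ℤ) + (j : ℕ) * m)) :
    PoleLe K x s (H.eta τ) := by
  refine fun v hv => ?_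
  show OrdGe v _ (∑ i : Fin n, (ev x (H.solve τ i) / ev x H.D) • H.e i)
  refine OrdGe.sum fun i _ => ?_
  have hdeg : PDeg (H.solve τ i) ((gramDeg n m : ℤ) + s - (i : ℕ) * m) := by
    refine PDeg.mono ((pdeg_C H.c₀).mul (t := (gramDeg n m : ℤ) + s - (i : ℕ) * m) ?_) (by omega)
    show PDeg (∑ j : Fin n, τ j * H.G.adjugate j i) _
    refine PDeg.sum fun j _ => ?_
    refine ((hτ j).mul
      (pdeg_adjugate (α := fun l : Fin n => ((l : ℕ) : ℤ) * m) H.pdeg_G j i)).mono (le_of_eq ?_)
    rw [sum_weights]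
    ring
  rw [Algebra.smul_def (A := F), map_div₀, algebraMap_ev, algebraMap_ev, div_eq_mul_inv]
  have h1 := poleLe_aeval (x := x) hdeg v hv
  have h2 : OrdGe v (-((gramDeg n m : ℤ) * v.ord x)) (aeval x H.D)⁻¹ := by
    refine ordGe_of_le_ord ?_
    rw [v.ord_inv, (ord_aeval_of_ord_neg hv _ H.monic_D.ne_zero).2, H.natDegree_D]
  refine ((h1.mul h2).mul ((H.u_pole.pow i) v hv)).mono (le_of_eq ?_)
  ring

theorem eta_zero_iff {τ : Fin n → K[X]} (h : H.eta τ = 0) : τ = 0 := by
  have h1 := H.comb_injective (h.trans (map_zero H.comb).symm)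
  funext j
  have h2 := congrFun (H.vecMul_solve τ) j
  rw [h1, Matrix.zero_vecMul, Pi.zero_apply, eq_comm, mul_eq_zero] at h2
  exact h2.resolve_left H.monic_D.ne_zero

theorem eta_add (p p' : Fin n → K[X]) : H.eta (p + p') = H.eta p + H.eta p' := by
  rw [Chart.eta, Chart.eta, Chart.eta, ← map_add]
  congr 1
  funext i
  simp only [Chart.solve, Pi.add_apply, Matrix.add_vecMul]
  ring

theorem eta_smul (a : K) (p : Fin n → K[X]) : H.eta (a • p) = a • H.eta p := by
  rw [Chart.eta, Chart.eta, ← map_smul]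
  congr 1
  funext i
  simp only [Chart.solve, Pi.smul_apply, Matrix.smul_vecMul, mul_smul_comm]

/-- The parametrisation of the space of the different. -/
def dualParam (s : ℕ) :
    (H.dualNum × ((j : Fin n) → degreeLT K (s + (j : ℕ) * m + 1 - gramDeg n m))) →ₗ[K] F where
  toFun rq := H.eta (H.val rq.1 + fun j => H.D * (rq.2 j : K[X]))
  map_add' a b := by
    rw [← eta_add]
    congr 1
    funext j
    simp only [Prod.fst_add, Prod.snd_add, Submodule.coe_add, map_add, Pi.add_apply]
    ring
  map_smul' c a := by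
    rw [RingHom.id_apply, ← eta_smul]
    congr 1
    funext j
    simp only [Prod.smul_fst, Prod.smul_snd, SetLike.val_smul, map_smul, Pi.add_apply,
      Pi.smul_apply, smul_add, mul_smul_comm]

theorem dualParam_injective (s : ℕ) : Function.Injective (dualParam H s) := by
  intro a b hab
  suffices key : ∀ rq, dualParam H s rq = 0 → rq = 0 from
    sub_eq_zero.1 (key _ (by rw [map_sub, hab, sub_self]))
  rintro ⟨r, q⟩ h
  have h1 := eta_zero_iff H h
  have hr : ∀ i, (r.1 i : K[X]) = 0 := fun i => by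
    have h2 := congrArg (fun p : K[X] => p %ₘ H.D) (congrFun h1 i)
    simp only [Chart.val_apply, Pi.add_apply, Pi.zero_apply, zero_modByMonic, add_modByMonic,
      (modByMonic_eq_zero_iff_dvd H.monic_D).2 (dvd_mul_right H.D _), add_zero] at h2
    rwa [(modByMonic_eq_self_iff H.monic_D).2 (by
      rw [degree_eq_natDegree H.monic_D.ne_zero, H.natDegree_D]
      exact mem_degreeLT.1 (r.1 i).2)] at h2
  have hq : ∀ i, (q i : K[X]) = 0 := fun i => by
    have h2 := congrFun h1 i
    simp only [Chart.val_apply, Pi.add_apply, hr i, zero_add, Pi.zero_apply, mul_eq_zero] at h2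
    exact h2.resolve_left H.monic_D.ne_zero
  exact Prod.ext (Subtype.ext (funext fun i => Subtype.ext (hr i)))
    (funext fun i => Subtype.ext (hq i))

include hunr in
theorem range_dualParam {s : ℕ} (hs : gramDeg n m ≤ s) :
    LinearMap.range (dualParam H s) =
      riemannRochSpace (s • zeroDivisor (K := K) x⁻¹ + ramDiv K S x) := by
  classical
  have hx := H.transcendental
  have hG : ∀ j : Fin n, gramDeg n m ≤ s + (j : ℕ) * m + 1 := fun j => by omega
  ext y
  rw [LinearMap.mem_range, mem_rr_iff]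
  constructor
  · rintro ⟨⟨r, q⟩, rfl⟩ v
    show OrdGe v _ (H.eta (H.val r + fun j => H.D * (q j : K[X])))
    rcases lt_or_ge (v.ord x) 0 with hv | hv
    · have h := poleLe_eta H (τ := H.val r + fun j => H.D * (q j : K[X])) (s := s) (fun j => ?_) v hv
      · refine h.mono (le_of_eq ?_)
        rw [Finsupp.add_apply, Finsupp.smul_apply, ramDiv_apply_pole hv, zeroDivisor_apply,
          v.ord_inv, max_eq_left (by omega), nsmul_eq_mul]
        ring
      have hjm : (0 : ℤ) ≤ ((j : ℕ) : ℤ) * (m : ℤ) := by positivity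
      refine PDeg.add ((pdeg_of_mem_degreeLT (r.1 j).2).mono ?_) ?_
      · omega
      · refine ((pdeg_natDegree H.D).mul (pdeg_of_mem_degreeLT (q j).2)).mono ?_
        rw [H.natDegree_D]
        have := hG j
        push_cast [Nat.cast_sub this]
        omega
    · have hnum : -(s • zeroDivisor (K := K) x⁻¹ + ramDiv K S x) v = -ramDiv K S x v := by
        rw [Finsupp.add_apply, Finsupp.smul_apply, zeroDivisor_apply, v.ord_inv,
          max_eq_right (by omega), smul_zero, zero_add]
      rw [hnum, eta_add_mul]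
      refine OrdGe.add (ordGe_neg_ramDiv hunr hx ((H.mem_dualNum_iff _).1 r.2) hv) ?_
      refine ((H.sum_aeval_mem_finReg _) v hv).mono ?_
      rw [Left.neg_nonpos_iff, ramDiv, Finsupp.finsetSum_apply]
      exact Finset.sum_nonneg fun i _ => ramPart_nonneg _ v
  · intro hy
    have hfin : ∀ v : Place K F, 0 ≤ v.ord x → OrdGe v (-ramDiv K S x v) y := fun v hv => by
      have h := hy v
      rwa [Finsupp.add_apply, Finsupp.smul_apply, zeroDivisor_apply, v.ord_inv,
        max_eq_right (by omega), smul_zero, zero_add] at h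
    have hpole : PoleLe K x s y := fun v hv => by
      refine (hy v).mono (le_of_eq ?_)
      rw [Finsupp.add_apply, Finsupp.smul_apply, ramDiv_apply_pole hv, zeroDivisor_apply,
        v.ord_inv, max_eq_left (by omega), nsmul_eq_mul]
      ring
    choose τ hτ using fun j : Fin n => trace_poly_of_ordGe hunr hx hfin (H.e_reg j)
    have hdeg : ∀ j : Fin n, PDeg (τ j) ((s : ℤ) + (j : ℕ) * m) := fun j =>
      pdeg_trace hx (by positivity) (hτ j) (hpole.mul (H.u_pole.pow j))
    have hyeta : H.eta τ = y := H.comb_solve_eq hτ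
    have hsplit : τ = H.val (H.reduceD τ) + fun j => H.D * (τ j /ₘ H.D) := funext fun j =>
      (modByMonic_add_div (τ j) H.D).symm
    have hr : H.reduceD τ ∈ H.dualNum := by
      rw [H.mem_dualNum_iff]
      intro z hz
      obtain ⟨c, hc⟩ := trace_poly_of_ordGe hunr hx hfin hz
      obtain ⟨d, hd⟩ := exists_trace_eq_ev hx
        (mul_mem_finReg (H.sum_aeval_mem_finReg (H.solve fun j => τ j /ₘ H.D)) hz)
      refine ⟨c - d, ?_⟩
      rw [← hyeta, hsplit, eta_add_mul, add_mul, map_add, hd] at hc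
      rw [map_sub, ← hc, add_sub_cancel_right]
    refine ⟨(⟨H.reduceD τ, hr⟩, fun j => ⟨τ j /ₘ H.D, ?_⟩), ?_⟩
    · rw [mem_degreeLT]
      rcases eq_or_ne (τ j /ₘ H.D) 0 with h0 | h0
      · rw [h0, degree_zero]; exact WithBot.bot_lt_coe _
      rw [degree_eq_natDegree h0, natDegree_divByMonic _ H.monic_D, H.natDegree_D]
      have hp0 : τ j ≠ 0 := fun h => h0 (by rw [h, zero_divByMonic])
      have : ((τ j).natDegree : ℤ) ≤ (s : ℤ) + (j : ℕ) * m := by
        by_contra hlt
        exact leadingCoeff_ne_zero.2 hp0 (hdeg j _ (not_le.1 hlt))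
      have h2 : (τ j).natDegree ≤ s + (j : ℕ) * m := by exact_mod_cast this
      exact_mod_cast (by have := hG j; omega :
        (τ j).natDegree - gramDeg n m < s + (j : ℕ) * m + 1 - gramDeg n m)
    · show H.eta (H.val (H.reduceD τ) + fun j => H.D * (τ j /ₘ H.D)) = y
      rw [← hsplit, hyeta]

include hunr in
theorem finrank_rr_ramDiv {s : ℕ} (hs : gramDeg n m ≤ s) :
    Module.finrank K (riemannRochSpace (s • zeroDivisor (K := K) x⁻¹ + ramDiv K S x)) =
      Module.finrank K H.dualNum + ∑ j : Fin n, (s + (j : ℕ) * m + 1 - gramDeg n m) := by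
  have : ∀ j : Fin n, Module.Finite K (degreeLT K (s + (j : ℕ) * m + 1 - gramDeg n m)) := fun j =>
    Module.Finite.equiv (degreeLTEquiv K _).symm
  haveI : Module.Free K H.dualNum := Module.Free.of_divisionRing K H.dualNum
  rw [← range_dualParam H hunr hs, LinearMap.finrank_range_of_inj (dualParam_injective H s),
    Module.finrank_prod, Module.finrank_pi_fintype]
  simp only [Chart.finrank_degreeLT]

include H hunr in
/-- The formula in a chart. -/
theorem two_mul_genusFF_chart :
    2 * (genusFF K F : ℤ) + 2 * n = 2 + Divisor.degree (ramDiv K S x) := by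
  obtain ⟨d, hd⟩ := exists_forall_finrank_H1_eq_zero (K := K) (F := F)
  set G := gramDeg n m
  set s := G + (n - 1) * m + d.toNat
  have hn : 0 < n := H.finrank_eq ▸ Module.finrank_pos
  have hT : Divisor.degree (s • zeroDivisor (K := K) x⁻¹) = s * n := by
    have h := degree_divisorOf (K := K) x
    rw [← zeroDivisor_sub_zeroDivisor_inv, map_sub, degree_zeroDivisor H.transcendental,
      H.finrank_eq, sub_eq_zero] at h
    rw [map_nsmul, ← h, nsmul_eq_mul]
  have hram : 0 ≤ Divisor.degree (ramDiv K S x) :=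
    degree_nonneg (Finset.sum_nonneg fun i _ => ramPart_nonneg _)
  have hsn : (s : ℤ) ≤ (s : ℤ) * n := le_mul_of_one_le_right (by positivity) (by exact_mod_cast hn)
  have h1 := finrank_rr_eq_add K _ (hd (s • zeroDivisor (K := K) x⁻¹) (by rw [hT]; omega))
  have h2 := finrank_rr_eq_add K _ (hd (s • zeroDivisor (K := K) x⁻¹ + ramDiv K S x)
    (by rw [map_add, hT]; omega))
  rw [H.finrank_rr (by omega), hT] at h1
  rw [finrank_rr_ramDiv H hunr (by omega), map_add, hT] at h2
  have h3 := H.finrank_dualNum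
  have hw := sum_weights n m
  have e1 : ((∑ i : Fin n, (s - (i : ℕ) * m + 1) : ℕ) : ℤ) =
      (n : ℤ) * (s + 1) - ∑ i : Fin n, ((i : ℕ) * m : ℤ) := by
    rw [Nat.cast_sum, eq_sub_iff_add_eq, ← Finset.sum_add_distrib]
    rw [Finset.sum_congr rfl fun (i : Fin n) _ => show ((s - (i : ℕ) * m + 1 : ℕ) : ℤ) +
        (i : ℕ) * m = (s : ℤ) + 1 by
      have : (i : ℕ) * m ≤ s :=
        le_trans (Nat.mul_le_mul_right m (by omega : (i : ℕ) ≤ n - 1)) (by omega)
      push_cast [Nat.cast_sub this]; ring]
    simp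
  have e2 : ((∑ j : Fin n, (s + (j : ℕ) * m + 1 - G) : ℕ) : ℤ) =
      (n : ℤ) * (s + 1) + (∑ i : Fin n, ((i : ℕ) * m : ℤ)) - n * G := by
    rw [Nat.cast_sum, Finset.sum_congr rfl fun (j : Fin n) _ =>
      show ((s + (j : ℕ) * m + 1 - G : ℕ) : ℤ) = ((s : ℤ) + 1 - G) + (j : ℕ) * m by
        push_cast [Nat.cast_sub (show G ≤ s + (j : ℕ) * m + 1 by omega)]; ring]
    rw [Finset.sum_add_distrib]
    simp
    ring
  rw [Nat.cast_add, e1] at h1
  rw [Nat.cast_add, e2] at h2
  have h3' : (Module.finrank K H.dualNum : ℤ) + Module.finrank K H.num = (n : ℤ) * G := by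
    exact_mod_cast h3
  linarith

end chart

/-- **Riemann-Hurwitz** for the repartition genus. -/
theorem two_mul_genusFF_add [Algebra.IsSeparable K⟮x⟯ F] (hx : Transcendental K x) (S : Finset K)
    (hunr : ∀ a ∉ S, ∀ v : Place K F, 0 < v.ord (x - algebraMap K F a) →
      v.ord (x - algebraMap K F a) = 1) :
    2 * (genusFF K F : ℤ) + 2 * Module.finrank K⟮x⟯ F =
      2 + Divisor.degree (ramPart (zeroDivisor (K := K) x⁻¹) + ramDiv K S x) := by
  classical
  have := finiteDimensional_adjoin_of_transcendental hx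
  obtain ⟨u, hu, hgen⟩ := exists_finReg_generator hx
  obtain ⟨G₀, hG₀⟩ := exists_gram hx hu (Module.finrank K⟮x⟯ F)
  have hG₀0 : G₀.det ≠ 0 := gram_det_ne_zero hgen rfl hG₀
  obtain ⟨c, hc⟩ := Infinite.exists_notMem_finset (S ∪ G₀.det.roots.toFinset)
  rw [Finset.mem_union, not_or, Multiset.mem_toFinset, mem_roots hG₀0] at hc
  obtain ⟨m, hp⟩ := exists_poleLe (K := K) x u
  set t := (x - algebraMap K F c)⁻¹ with ht
  have hxt := transcendental_inv_sub hx c
  have : FiniteDimensional K⟮t⟯ F := finiteDimensional_adjoin_of_transcendental hxt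
  have hreg := inv_sub_mem_finReg hx c hu hp
  obtain ⟨G, hG⟩ := exists_gram hxt hreg (Module.finrank K⟮x⟯ F)
  let H : Chart K t (Module.finrank K⟮x⟯ F) m :=
    ⟨hxt, by rw [ht, finrank_inv_sub], u * t ^ m, hreg, inv_sub_poleLe c hu, G, hG, by
      rw [coeff_gram_det_inv_sub hx c (inv_sub_poleLe c hu) hG₀ hG]
      exact hc.2⟩
  have hsc : ∀ s ∈ S, s - c ≠ 0 := fun s hs h => hc.1 (sub_eq_zero.1 h ▸ hs)
  set S' := insert 0 (S.image fun s => (s - c)⁻¹)
  have hunr' : ∀ a ∉ S', ∀ v : Place K F, 0 < v.ord (t - algebraMap K F a) →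
      v.ord (t - algebraMap K F a) = 1 := by
    intro a ha v hv
    have ha0 : a ≠ 0 := fun h => ha (h ▸ Finset.mem_insert_self _ _)
    obtain ⟨h1, h2⟩ := ord_inv_sub_sub hx ha0 hv
    rw [h2]
    refine hunr _ (fun hs => ha (Finset.mem_insert_of_mem (Finset.mem_image.2
      ⟨_, hs, ?_⟩))) v h1
    rw [add_sub_cancel_left, inv_inv]
  rw [two_mul_genusFF_chart H hunr', ramDiv, Finset.sum_insert (by
    simp only [Finset.mem_image, inv_eq_zero, not_exists, not_and]; exact hsc),
    Finset.sum_image (fun a _ b _ h => sub_left_injective (inv_injective h)), map_zero, sub_zero]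
  congr 3
  · refine congrArg ramPart ?_
    ext v
    rw [zeroDivisor_apply, zeroDivisor_apply, ht, v.ord_inv, v.ord_inv]
    rcases lt_or_ge (v.ord x) 0 with hv | hv
    · rw [ord_sub_of_ord_neg hv]
    · have h0 : 0 ≤ v.ord (x - algebraMap K F c) := by
        have h1 := (aeval_mem_finReg x (X - C c) v hv).le_ord (by
          rw [map_sub, aeval_X, aeval_C]; exact sub_algebraMap_ne_zero hx c)
        simpa using h1
      omega
  · rw [ramDiv]
    refine Finset.sum_congr rfl fun s hs => congrArg ramPart (Finsupp.ext fun v => ?_)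
    rw [zeroDivisor_apply, zeroDivisor_apply]
    have hne : ∀ a : K, x - algebraMap K F a ≠ 0 := fun a => sub_algebraMap_ne_zero hx a
    have hk : algebraMap K F (s - c) ≠ 0 := (_root_.map_ne_zero _).2 (hsc s hs)
    have hfac : t - algebraMap K F (s - c)⁻¹ =
        algebraMap K F (-(s - c)⁻¹) * (x - algebraMap K F s) * t := by
      rw [ht, map_neg, map_inv₀]
      field_simp [hne c, hk]
      rw [map_sub]
      ring
    rw [hfac, v.ord_mul (mul_ne_zero ((_root_.map_ne_zero _).2 (neg_ne_zero.2 (inv_ne_zero (hsc s hs))))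
        (hne s)) (inv_ne_zero (hne c)), v.ord_mul ((_root_.map_ne_zero _).2
        (neg_ne_zero.2 (inv_ne_zero (hsc s hs)))) (hne s), ord_algebraMap, v.ord_inv]
    rcases lt_or_ge (v.ord x) 0 with hv | hv
    · rw [ord_sub_of_ord_neg hv, ord_sub_of_ord_neg hv]; omega
    obtain ⟨b, hb⟩ := exists_value_finite hv
    have hbpos := ord_pos_of_value hx hb
    rcases eq_or_ne b c with rfl | hbc
    · rw [ord_sub_le_zero_of_ne hx hbpos (fun h : s = b => hsc s hs (by rw [h, sub_self]))]
      omega
    · rw [ord_sub_le_zero_of_ne hx hbpos (Ne.symm hbc)]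
      omega

end FLTAgent.Genus
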